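import Mathlib

/-!
# S26, leaf NOR — algebra core (helper39)

`isIntegrallyClosed_of_etale` : a domain `S` that is étale over an integrally closed domain `P`
(with `P → S` injective) is integrally closed.

Route: `TensorProduct.toIntegralClosure_bijective_of_smooth` (smooth base change commutes with
integral closure) with `B = Frac P`; `S ⊗[P] Frac P` is a localisation of `S`, étale over the
field `Frac P`, hence a field, hence the fraction field of `S`.
-/

set_option autoImplicit false

namespace Fermat.Agent.S26.H39

open TensorProduct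

section Alg

variable (P S : Type*) [CommRing P] [IsDomain P] [CommRing S] [IsDomain S] [Algebra P S]

/-- `S` is integrally closed in `S ⊗[P] Frac P` when `P` is integrally closed and `S` is smooth. -/
theorem exists_of_isIntegral_tensor [IsIntegrallyClosed P] [Algebra.Smooth P S]
    (x : S ⊗[P] FractionRing P) (hx : IsIntegral S x) :
    ∃ s : S, x = s ⊗ₜ[P] (1 : FractionRing P) := by
  have hbij := TensorProduct.toIntegralClosure_bijective_of_smooth (R := P) (S := S)
    (B := FractionRing P)
  obtain ⟨z, hz⟩ := hbij.2 ⟨x, hx⟩
  have hbot : integralClosure P (FractionRing P) = ⊥ :=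
    IsIntegrallyClosed.integralClosure_eq_bot (R := P) (K := FractionRing P)
  have key : ∀ z : S ⊗[P] integralClosure P (FractionRing P),
      ∃ s : S, ((TensorProduct.toIntegralClosure P S (FractionRing P) z :
        integralClosure S (S ⊗[P] FractionRing P)) : S ⊗[P] FractionRing P)
          = s ⊗ₜ[P] (1 : FractionRing P) := by
    intro z
    induction z with
    | zero => exact ⟨0, by simp⟩
    | tmul s b =>
      have hb : (b : FractionRing P) ∈ (⊥ : Subalgebra P (FractionRing P)) := hbot ▸ b.2
      obtain ⟨p, hp⟩ := Algebra.mem_bot.mp hb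
      refine ⟨p • s, ?_⟩
      show (Algebra.TensorProduct.map (AlgHom.id S S)
        (integralClosure P (FractionRing P)).val) (s ⊗ₜ[P] b) = _
      rw [Algebra.TensorProduct.map_tmul]
      show s ⊗ₜ[P] (b : FractionRing P) = _
      rw [← hp, Algebra.algebraMap_eq_smul_one, TensorProduct.tmul_smul, TensorProduct.smul_tmul']
    | add a b ha hb =>
      obtain ⟨s, hs⟩ := ha
      obtain ⟨t, ht⟩ := hb
      refine ⟨s + t, ?_⟩
      rw [map_add, TensorProduct.add_tmul, ← hs, ← ht]
      rfl
  obtain ⟨s, hs⟩ := key z
  refine ⟨s, ?_⟩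
  rw [← hs, hz]

/-- A domain which is étale over an integrally closed domain (injectively) is integrally
closed. -/
theorem isIntegrallyClosed_of_etale [IsIntegrallyClosed P] [Algebra.Etale P S]
    (hinj : Function.Injective (algebraMap P S)) : IsIntegrallyClosed S := by
  classical
  -- `T = S ⊗ Frac P` is a localisation of `S` at nonzero elements
  have hloc : IsLocalization (Algebra.algebraMapSubmonoid S (nonZeroDivisors P))
      (S ⊗[P] FractionRing P) := IsLocalization.tensor (FractionRing P) (nonZeroDivisors P)
  have hle : Algebra.algebraMapSubmonoid S (nonZeroDivisors P) ≤ nonZeroDivisors S := by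
    rintro _ ⟨p, hp, rfl⟩
    apply mem_nonZeroDivisors_of_ne_zero
    rw [Ne, map_eq_zero_iff _ hinj]
    exact nonZeroDivisors.ne_zero hp
  have hdom : IsDomain (S ⊗[P] FractionRing P) :=
    IsLocalization.isDomain_of_le_nonZeroDivisors (S ⊗[P] FractionRing P) hle
  -- `T` is a field
  have : Module.Finite (FractionRing P) (FractionRing P ⊗[P] S) :=
    Algebra.FormallyUnramified.finite_of_free (FractionRing P) (FractionRing P ⊗[P] S)
  have e : (FractionRing P ⊗[P] S) ≃+* (S ⊗[P] FractionRing P) :=
    (Algebra.TensorProduct.comm P (FractionRing P) S).toRingEquiv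
  have : IsDomain (FractionRing P ⊗[P] S) := e.toMulEquiv.isDomain _
  have hF' : IsField (FractionRing P ⊗[P] S) :=
    isField_of_isIntegral_of_isField' (R := FractionRing P) (Field.toIsField _)
  have hF : IsField (S ⊗[P] FractionRing P) := e.symm.toMulEquiv.isField hF'
  letI : Field (S ⊗[P] FractionRing P) := hF.toField
  have : FaithfulSMul S (S ⊗[P] FractionRing P) :=
    (faithfulSMul_iff_algebraMap_injective _ _).mpr
      (IsLocalization.injective (S ⊗[P] FractionRing P) hle)
  have : IsFractionRing S (S ⊗[P] FractionRing P) := by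
    refine IsFractionRing.of_field S (S ⊗[P] FractionRing P) fun z => ?_
    obtain ⟨⟨x, y⟩, hxy⟩ := IsLocalization.surj
      (Algebra.algebraMapSubmonoid S (nonZeroDivisors P)) z
    refine ⟨x, y, ?_⟩
    have hy : algebraMap S (S ⊗[P] FractionRing P) y ≠ 0 := by
      rw [Ne, map_eq_zero_iff _ (IsLocalization.injective (S ⊗[P] FractionRing P) hle)]
      exact nonZeroDivisors.ne_zero (hle y.2)
    rw [eq_div_iff hy]
    exact hxy
  refine (isIntegrallyClosed_iff (S ⊗[P] FractionRing P)).mpr fun {x} hx => ?_
  obtain ⟨s, hs⟩ := exists_of_isIntegral_tensor P S x hx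
  exact ⟨s, by rw [hs]; rfl⟩

end Alg

end Fermat.Agent.S26.H39
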