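import Mathlib
import Fermat.Prelude.Def_JacJ1Iface
import Fermat.Prelude.Def_GoodReductionJacobian_RelativeGroupLawKernel

/-!
# S26 (row 25): `#A[n](K) = n ^ (2 g)` — interface of the route without cohomology

Planner: helper27.  Plan: `NOTES/plan/S26.md`.

`A` is an abelian variety of dimension `g` over an algebraically closed field `K`, `F = K(A)`.
For an open `U` of `A` we write `D_U` for the reduced divisor `A ∖ U` and
`LU U m = L(m D_U) = {h ∈ F : h has no pole in codimension 1 on U and poles of order ≤ m outside}`,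
`ell U m = dim_K L(m D_U)`.  For `n` invertible in `K` the morphism `[n]` is finite étale, so the
pull-back of `D_U` is `D_{[n]⁻¹ U}`: no pull-back of divisors is needed in the interface.

* `Stmt_BR`  : `A` is integral and locally noetherian (bridge);
* `Stmt_EX`  : there is a good open (affine, contains `0`, symmetric);
* `Stmt_M`   : `#A[n m] = #A[n] #A[m]`;
* `Stmt_G`   : `c₁ m ^ g ≤ ell U m ≤ c₂ m ^ g`;
* `Stmt_T`   : `#A[n] ell U (m - m₀) ≤ ell ([n]⁻¹ U) m ≤ #A[n] ell U (m + m₁)`;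
* `Stmt_C`   : `[n]^* D_U - n² D_U` is principal (corollary of the theorem of the cube);
* `Stmt_ASM` : the assembly.
-/

set_option autoImplicit false

open CategoryTheory CategoryTheory.Limits AlgebraicGeometry NeronModelInfra GoodReductionJacobian

universe u

namespace Fermat.Agent.S26

section Defs

variable {K : Type u} [Field K] {A : Scheme.{u}} {f : A ⟶ Spec (CommRingCat.of K)}

/-- The number of `n`-torsion points. -/
noncomputable def torsCard (L : RelativeGroupLaw K f) (n : ℕ) : ℕ :=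
  Nat.card {x : SchemeHomOver (𝟙 (Spec (CommRingCat.of K))) f //
    L.IsTorsionPoint (𝟙 (Spec (CommRingCat.of K))) n x}

/-- The constants: `K → K(A)`. -/
noncomputable def constHom (f : A ⟶ Spec (CommRingCat.of K)) [IsIntegral A] :
    K →+* A.functionField :=
  haveI : Nonempty (⊤ : A.Opens) := ⟨⟨Classical.arbitrary A, trivial⟩⟩
  ((A.germToFunctionField ⊤).hom).comp
    ((f.appTop).hom.comp (Scheme.ΓSpecIso (CommRingCat.of K)).inv.hom)

/-- `L(m D_U)`, `D_U` the reduced divisor `A ∖ U`: the functions without poles in codimension one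
on `U` and with poles of order at most `m` at the points of codimension one outside `U`. -/
def LU [IsIntegral A] [IsLocallyNoetherian A] (U : A.Opens) (m : ℤ) : Set A.functionField :=
  {h | h = 0 ∨ ∀ z : A, Order.coheight z = 1 →
    (z ∈ U → 0 ≤ Scheme.ord h z) ∧ (z ∉ U → -m ≤ Scheme.ord h z)}

/-- `ell U m = dim_K L(m D_U)` (`0` if the dimension is infinite). -/
noncomputable def ell (f : A ⟶ Spec (CommRingCat.of K)) [IsIntegral A] [IsLocallyNoetherian A]
    (U : A.Opens) (m : ℤ) : ℕ :=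
  letI : Algebra K A.functionField := (constHom f).toAlgebra
  Module.finrank K (Submodule.span K (LU U m))

/-- The zero section as a morphism `Spec K ⟶ A`. -/
noncomputable def zeroHom (L : RelativeGroupLaw K f) : Spec (CommRingCat.of K) ⟶ A :=
  (L.one (𝟙 (Spec (CommRingCat.of K)))).1

/-- The inverse as a morphism `A ⟶ A`. -/
noncomputable def negHom (L : RelativeGroupLaw K f) : A ⟶ A :=
  (L.inv f RelativeGroupLaw.idPoint).1

/-- The sum as a map on `T`-valued points `T ⟶ A` (over `K`), for any `T`: `addHom L a b` is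
`a + b` for `a b : T ⟶ A` with the same structure map. -/
noncomputable def addHom (L : RelativeGroupLaw K f) {T : Scheme.{u}}
    (t : T ⟶ Spec (CommRingCat.of K)) (a b : SchemeHomOver t f) : T ⟶ A :=
  (L.mul t a b).1

/-- A good open: affine, contains the origin, symmetric. -/
structure IsGoodOpen (L : RelativeGroupLaw K f) (U : A.Opens) : Prop where
  affine : IsAffineOpen U
  zero_mem : ∀ x : Spec (CommRingCat.of K), (zeroHom L).base x ∈ U
  symm : (negHom L) ⁻¹ᵁ U = U

end Defs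

/-! ## The statements -/

/-- **BR** (bridge): an abelian variety is integral and locally noetherian. -/
def Stmt_BR : Prop :=
  ∀ (K : Type u) [Field K] [IsAlgClosed K] {A : Scheme.{u}} (f : A ⟶ Spec (CommRingCat.of K))
    (_L : RelativeGroupLaw K f) (_hA : AbelianSchemePropertyBundle K f),
    IsIntegral A ∧ IsLocallyNoetherian A

/-- **NOR** (shared by G, T, C): the local rings of an abelian variety are integrally closed, and
those at the points of codimension one are discrete valuation rings. -/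
def Stmt_NOR : Prop :=
  ∀ (K : Type u) [Field K] [IsAlgClosed K] {A : Scheme.{u}} (f : A ⟶ Spec (CommRingCat.of K))
    (_L : RelativeGroupLaw K f) (_hA : AbelianSchemePropertyBundle K f)
    [IsIntegral A] [IsLocallyNoetherian A] (z : A),
    IsIntegrallyClosed (A.presheaf.stalk z) ∧
      (Order.coheight z = 1 → IsDiscreteValuationRing (A.presheaf.stalk z))

/-- **EX**: a good open exists. -/
def Stmt_EX : Prop :=
  ∀ (K : Type u) [Field K] [IsAlgClosed K] {A : Scheme.{u}} (f : A ⟶ Spec (CommRingCat.of K))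
    (L : RelativeGroupLaw K f) (_hA : AbelianSchemePropertyBundle K f),
    ∃ U : A.Opens, IsGoodOpen L U

/-- **M**: multiplicativity of the number of torsion points. -/
def Stmt_M : Prop :=
  ∀ (K : Type u) [Field K] [IsAlgClosed K] {A : Scheme.{u}} (f : A ⟶ Spec (CommRingCat.of K))
    (L : RelativeGroupLaw K f) (_hc : L.IsCommutative) (_hA : AbelianSchemePropertyBundle K f)
    (n m : ℕ), (n : K) ≠ 0 → (m : K) ≠ 0 →
    torsCard L (n * m) = torsCard L n * torsCard L m

/-- **G**: growth of `ell U m` like `m ^ g`. -/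
def Stmt_G : Prop :=
  ∀ (K : Type u) [Field K] [IsAlgClosed K] {A : Scheme.{u}} (f : A ⟶ Spec (CommRingCat.of K))
    (L : RelativeGroupLaw K f) (_hc : L.IsCommutative) (_hA : AbelianSchemePropertyBundle K f)
    (g : ℕ) [SmoothOfRelativeDimension g f] [IsIntegral A] [IsLocallyNoetherian A]
    (U : A.Opens), IsGoodOpen L U →
    ∃ c₁ c₂ : ℝ, 0 < c₁ ∧ ∀ m : ℕ, 1 ≤ m →
      c₁ * (m : ℝ) ^ g ≤ (ell f U m : ℝ) ∧ (ell f U m : ℝ) ≤ c₂ * (m : ℝ) ^ g

/-- **T**: the bound for the finite étale morphism `[n]` of degree `#A[n]`. -/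
def Stmt_T : Prop :=
  ∀ (K : Type u) [Field K] [IsAlgClosed K] {A : Scheme.{u}} (f : A ⟶ Spec (CommRingCat.of K))
    (L : RelativeGroupLaw K f) (_hc : L.IsCommutative) (_hA : AbelianSchemePropertyBundle K f)
    (g : ℕ) [SmoothOfRelativeDimension g f] [IsIntegral A] [IsLocallyNoetherian A]
    (U : A.Opens), IsGoodOpen L U → ∀ n : ℕ, (n : K) ≠ 0 →
    ∃ m₀ m₁ : ℕ, ∀ m : ℕ,
      torsCard L n * ell f U ((m : ℤ) - m₀) ≤ ell f ((L.schemeNsmul n) ⁻¹ᵁ U) m ∧
      ell f ((L.schemeNsmul n) ⁻¹ᵁ U) m ≤ torsCard L n * ell f U ((m : ℤ) + m₁)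

/-- **C**: `[n]^* D_U ∼ n² D_U` for a symmetric `U` (corollary of the theorem of the cube):
there is a function `h` with divisor `[n]^* D_U - n² D_U`. -/
def Stmt_C : Prop :=
  open Classical in
  ∀ (K : Type u) [Field K] [IsAlgClosed K] {A : Scheme.{u}} (f : A ⟶ Spec (CommRingCat.of K))
    (L : RelativeGroupLaw K f) (_hc : L.IsCommutative) (_hA : AbelianSchemePropertyBundle K f)
    (g : ℕ) [SmoothOfRelativeDimension g f] [IsIntegral A] [IsLocallyNoetherian A]
    (U : A.Opens), IsGoodOpen L U → ∀ n : ℕ, (n : K) ≠ 0 →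
    ∃ h : A.functionField, h ≠ 0 ∧ ∀ z : A, Order.coheight z = 1 →
      Scheme.ord h z =
        (if z ∈ (L.schemeNsmul n) ⁻¹ᵁ U then (0 : ℤ) else 1) -
          (n : ℤ) ^ 2 * (if z ∈ U then (0 : ℤ) else 1)

/-- the consequence of **C** used in the assembly -/
def Stmt_Cell : Prop :=
  ∀ (K : Type u) [Field K] [IsAlgClosed K] {A : Scheme.{u}} (f : A ⟶ Spec (CommRingCat.of K))
    (L : RelativeGroupLaw K f) (_hc : L.IsCommutative) (_hA : AbelianSchemePropertyBundle K f)
    (g : ℕ) [SmoothOfRelativeDimension g f] [IsIntegral A] [IsLocallyNoetherian A]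
    (U : A.Opens), IsGoodOpen L U → ∀ n : ℕ, (n : K) ≠ 0 → ∀ m : ℕ,
    ell f ((L.schemeNsmul n) ⁻¹ᵁ U) m = ell f U ((n : ℤ) ^ 2 * m)

/-- the leaf CELL proves this -/
def Stmt_Cell_of : Prop := Stmt_C.{u} → Stmt_Cell.{u}

/-- The target: the frozen statement S26. -/
def Stmt_S26 : Prop :=
  ∀ (K : Type u) [Field K] [IsAlgClosed K] {A : Scheme.{u}} (f : A ⟶ Spec (CommRingCat.of K))
    (L : RelativeGroupLaw K f) (_hc : L.IsCommutative) (_hA : AbelianSchemePropertyBundle K f)
    (g : ℕ) [SmoothOfRelativeDimension g f] (n : ℕ) (_hn : (n : K) ≠ 0),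
    Nat.card {x : SchemeHomOver (𝟙 (Spec (CommRingCat.of K))) f //
        L.IsTorsionPoint (𝟙 (Spec (CommRingCat.of K))) n x} = n ^ (2 * g)

/-- **ASM**: the assembly. -/
def Stmt_ASM : Prop :=
  Stmt_BR.{u} → Stmt_EX.{u} → Stmt_M.{u} → Stmt_G.{u} → Stmt_T.{u} → Stmt_Cell.{u} → Stmt_S26.{u}

end Fermat.Agent.S26

namespace Fermat.Agent.S26

/-! ## Torsion-tolerant forms (added 06:25Z, helper49's remark: `k ([n]^* D - n² D) ∼ 0` for one
`k ≥ 1`, depending on `n`, is enough for the assembly).  `Stmt_C → Stmt_Ck`, `Stmt_Cell → Stmt_Cellk`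
are trivial (`k = 1`); the assembly to aim at is `Stmt_ASMk`. -/

/-- **Ck**: `k [n]^* D_U ∼ k n² D_U` for some `k ≥ 1`. -/
def Stmt_Ck : Prop :=
  open Classical in
  ∀ (K : Type u) [Field K] [IsAlgClosed K] {A : Scheme.{u}} (f : A ⟶ Spec (CommRingCat.of K))
    (L : RelativeGroupLaw K f) (_hc : L.IsCommutative) (_hA : AbelianSchemePropertyBundle K f)
    (g : ℕ) [SmoothOfRelativeDimension g f] [IsIntegral A] [IsLocallyNoetherian A]
    (U : A.Opens), IsGoodOpen L U → ∀ n : ℕ, (n : K) ≠ 0 →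
    ∃ k : ℕ, 0 < k ∧ ∃ h : A.functionField, h ≠ 0 ∧ ∀ z : A, Order.coheight z = 1 →
      Scheme.ord h z =
        (k : ℤ) * (if z ∈ (L.schemeNsmul n) ⁻¹ᵁ U then (0 : ℤ) else 1) -
          ((k : ℤ) * (n : ℤ) ^ 2) * (if z ∈ U then (0 : ℤ) else 1)

/-- the consequence of **Ck** used in the assembly -/
def Stmt_Cellk : Prop :=
  ∀ (K : Type u) [Field K] [IsAlgClosed K] {A : Scheme.{u}} (f : A ⟶ Spec (CommRingCat.of K))
    (L : RelativeGroupLaw K f) (_hc : L.IsCommutative) (_hA : AbelianSchemePropertyBundle K f)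
    (g : ℕ) [SmoothOfRelativeDimension g f] [IsIntegral A] [IsLocallyNoetherian A]
    (U : A.Opens), IsGoodOpen L U → ∀ n : ℕ, (n : K) ≠ 0 →
    ∃ k : ℕ, 0 < k ∧ ∀ m : ℕ,
      ell f ((L.schemeNsmul n) ⁻¹ᵁ U) ((k : ℤ) * m) = ell f U (((k : ℤ) * (n : ℤ) ^ 2) * m)

/-- the leaf CELLK proves this (from `H22.ell_eq_of_div_k`) -/
def Stmt_Cellk_of : Prop := Stmt_Ck.{u} → Stmt_Cellk.{u}

/-- **ASMk**: the assembly to aim at. -/
def Stmt_ASMk : Prop :=
  Stmt_BR.{u} → Stmt_EX.{u} → Stmt_M.{u} → Stmt_G.{u} → Stmt_T.{u} → Stmt_Cellk.{u} → Stmt_S26.{u}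

theorem stmt_Ck_of_C (h : Stmt_C.{u}) : Stmt_Ck.{u} := by
  intro K _ _ A f L hc hA g _ _ _ U hU n hn
  obtain ⟨φ, hφ, hord⟩ := h K f L hc hA g U hU n hn
  refine ⟨1, Nat.one_pos, φ, hφ, fun z hz => ?_⟩
  rw [hord z hz]
  push_cast
  ring

theorem stmt_Cellk_of_Cell (h : Stmt_Cell.{u}) : Stmt_Cellk.{u} := by
  intro K _ _ A f L hc hA g _ _ _ U hU n hn
  refine ⟨1, Nat.one_pos, fun m => ?_⟩
  have := h K f L hc hA g U hU n hn m
  simpa using this

/-- `Stmt_S26` is the frozen statement (sanity check of the shape). -/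
theorem s26_shape (h : Stmt_S26.{u})
    (K : Type u) [Field K] [IsAlgClosed K] {A : Scheme.{u}} (f : A ⟶ Spec (CommRingCat.of K))
    (L : RelativeGroupLaw K f) (hc : L.IsCommutative) (hA : AbelianSchemePropertyBundle K f)
    (g : ℕ) [SmoothOfRelativeDimension g f] (n : ℕ) (hn : (n : K) ≠ 0) :
    Nat.card {x : SchemeHomOver (𝟙 (Spec (CommRingCat.of K))) f //
        L.IsTorsionPoint (𝟙 (Spec (CommRingCat.of K))) n x} = n ^ (2 * g) :=
  h K f L hc hA g n hn

end Fermat.Agent.S26
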