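import Fermat.Agent.S26.Defs
import Fermat.Agent.S26.H39_NorAlg

/-!
# S26, leaves NOR and BR (helper39)

* `isIntegrallyClosed_sections` : on an integral scheme smooth over a field every point has an
  affine open neighbourhood with integrally closed ring of sections;
* `stmt_NOR : Stmt_NOR`.
-/

set_option autoImplicit false

open CategoryTheory CategoryTheory.Limits AlgebraicGeometry NeronModelInfra GoodReductionJacobian

universe u

namespace Fermat.Agent.S26.H39

section Field

/-- The sections of `Spec K` over a nonempty open form a field. -/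
theorem isField_sections_spec (K : Type u) [Field K] (U : (Spec (CommRingCat.of K)).Opens)
    (x : Spec (CommRingCat.of K)) (hx : x ∈ U) : IsField Γ(Spec (CommRingCat.of K), U) := by
  have hU : U = ⊤ := by
    ext y
    simp only [TopologicalSpace.Opens.coe_top, Set.mem_univ, iff_true]
    rw [Subsingleton.elim y x]
    exact hx
  subst hU
  exact (Scheme.ΓSpecIso (CommRingCat.of K)).commRingCatIsoToRingEquiv.toMulEquiv.isField
    (Field.toIsField K)

/-- A flat algebra over a domain which is nontrivial has injective structure map. -/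
theorem algebraMap_injective_of_flat (P S : Type*) [CommRing P] [IsDomain P] [CommRing S]
    [Nontrivial S] [Algebra P S] [Module.Flat P S] : Function.Injective (algebraMap P S) := by
  rw [injective_iff_map_eq_zero]
  intro p hp
  by_contra hne
  have hreg : IsSMulRegular S p :=
    Module.Flat.isSMulRegular_of_nonZeroDivisors (mem_nonZeroDivisors_of_ne_zero hne)
  have h1 : p • (1 : S) = p • (0 : S) := by
    rw [smul_zero, Algebra.smul_def, mul_one, hp]
  exact one_ne_zero (hreg h1)

end Field

section Sections

variable {K : Type u} [Field K] {A : Scheme.{u}}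

/-- On an integral scheme smooth over a field, every point has an affine open neighbourhood
whose ring of sections is integrally closed. -/
theorem isIntegrallyClosed_sections (f : A ⟶ Spec (CommRingCat.of K)) [Smooth f] [IsIntegral A]
    (z : A) : ∃ (V : A.Opens) (_ : IsAffineOpen V), z ∈ V ∧ IsIntegrallyClosed Γ(A, V) := by
  obtain ⟨U, _, V, hV, hzV, e, hφ⟩ := Smooth.exists_isStandardSmooth f z
  obtain ⟨n, g, -, hget⟩ := hφ.exists_etale_mvPolynomial
  have hR₀ : IsField Γ(Spec (CommRingCat.of K), U) := isField_sections_spec K U (f z) (e hzV)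
  haveI : IsDomain Γ(Spec (CommRingCat.of K), U) := hR₀.isDomain
  haveI : UniqueFactorizationMonoid Γ(Spec (CommRingCat.of K), U) := by
    letI := hR₀.toField
    infer_instance
  haveI : Nonempty V := ⟨⟨z, hzV⟩⟩
  letI := g.toAlgebra
  haveI : Algebra.Etale (MvPolynomial (Fin n) Γ(Spec (CommRingCat.of K), U)) Γ(A, V) := hget
  have hinj : Function.Injective
      (algebraMap (MvPolynomial (Fin n) Γ(Spec (CommRingCat.of K), U)) Γ(A, V)) :=
    algebraMap_injective_of_flat _ _
  exact ⟨V, hV, hzV, isIntegrallyClosed_of_etale _ _ hinj⟩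

/-- The local rings of an integral scheme smooth over a field are integrally closed. -/
theorem isIntegrallyClosed_stalk (f : A ⟶ Spec (CommRingCat.of K)) [Smooth f] [IsIntegral A]
    (z : A) : IsIntegrallyClosed (A.presheaf.stalk z) := by
  obtain ⟨V, hV, hzV, hic⟩ := isIntegrallyClosed_sections f z
  haveI : Nonempty V := ⟨⟨z, hzV⟩⟩
  letI : Algebra Γ(A, V) (A.presheaf.stalk z) :=
    TopCat.Presheaf.algebra_section_stalk A.presheaf ⟨z, hzV⟩
  haveI : IsLocalization.AtPrime (A.presheaf.stalk z) (hV.primeIdealOf ⟨z, hzV⟩).asIdeal :=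
    hV.isLocalization_stalk ⟨z, hzV⟩
  exact isIntegrallyClosed_of_isLocalization (R := Γ(A, V)) (A.presheaf.stalk z)
    (hV.primeIdealOf ⟨z, hzV⟩).asIdeal.primeCompl
    (Ideal.primeCompl_le_nonZeroDivisors _)

/-- The local rings at the points of codimension one are discrete valuation rings. -/
theorem isDiscreteValuationRing_stalk (f : A ⟶ Spec (CommRingCat.of K)) [Smooth f]
    [IsIntegral A] [IsLocallyNoetherian A] (z : A) (hz : Order.coheight z = 1) :
    IsDiscreteValuationRing (A.presheaf.stalk z) := by
  haveI := isIntegrallyClosed_stalk f z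
  have hdim : ringKrullDim (A.presheaf.stalk z) = 1 := by
    rw [ringKrullDim_stalk_eq_coheight, hz]
    rfl
  have hnf : ¬ IsField (A.presheaf.stalk z) := fun h => by
    have h0 := ringKrullDim_eq_zero_of_isField h
    rw [hdim] at h0
    exact one_ne_zero h0
  haveI : Ring.KrullDimLE 1 (A.presheaf.stalk z) := krullDimLE_of_coheight_le hz.le
  have htfae := (IsDiscreteValuationRing.TFAE (A.presheaf.stalk z) hnf).out 0 3
  rw [htfae]
  refine ⟨inferInstance, IsLocalRing.maximalIdeal _,
    ⟨IsLocalRing.isField_iff_maximalIdeal_eq.not.mp hnf, inferInstance⟩, ?_⟩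
  rintro P ⟨hP0, hP⟩
  exact IsLocalRing.eq_maximalIdeal (hP.isMaximal_of_ne_bot hP0)

end Sections

section Stmt

/-- **NOR**. -/
theorem stmt_NOR : Stmt_NOR.{u} := by
  intro K _ _ A f _L hA _ _ z
  haveI : Smooth f := hA.smooth
  exact ⟨isIntegrallyClosed_stalk f z, fun hz => isDiscreteValuationRing_stalk f z hz⟩

end Stmt

end Fermat.Agent.S26.H39
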