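import Mathlib
import Fermat.Agent.S26.Defs

/-!
# S26 leaf EX: a good open exists

`U = U₀ ⊓ [-1]⁻¹ U₀` for an affine open neighbourhood `U₀` of the origin: it is affine because
`A` is separated over `K`, it contains the origin because `[-1] 0 = 0`, and it is symmetric because
`[-1] ∘ [-1] = id`.

Main results (namespace `Fermat.Agent.S26.H55`):
* `inv_natural`  : naturality of the inverse of a relative group law;
* `negHom_comp_negHom` : `[-1] ≫ [-1] = 𝟙`;
* `zeroHom_comp_negHom` : `0 ≫ [-1] = 0`;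
* `stmt_EX : Stmt_EX`.
-/

set_option autoImplicit false

open CategoryTheory CategoryTheory.Limits AlgebraicGeometry NeronModelInfra GoodReductionJacobian

universe u

namespace Fermat.Agent.S26.H55

section GroupLaw

variable {R : Type u} [CommRing R] {A : Scheme.{u}} {f : A ⟶ Spec (CommRingCat.of R)}

/-- A left inverse is the inverse. -/
theorem eq_inv_of_mul_eq_one (G : RelativeGroupLaw R f) {T : Scheme.{u}}
    (t : T ⟶ Spec (CommRingCat.of R)) (x y : SchemeHomOver t f)
    (h : G.mul t y x = G.one t) : y = G.inv t x := by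
  calc y = G.mul t y (G.one t) := (G.mul_one t y).symm
    _ = G.mul t y (G.mul t x (G.inv t x)) := by rw [G.mul_inv_cancel]
    _ = G.mul t (G.mul t y x) (G.inv t x) := by rw [G.mul_assoc]
    _ = G.mul t (G.one t) (G.inv t x) := by rw [h]
    _ = G.inv t x := G.one_mul t _

/-- Naturality of the inverse. -/
theorem inv_natural (G : RelativeGroupLaw R f) {T T' : Scheme.{u}}
    (t : T ⟶ Spec (CommRingCat.of R)) (t' : T' ⟶ Spec (CommRingCat.of R))
    (ψ : T' ⟶ T) (hψ : ψ ≫ t = t') (x : SchemeHomOver t f) :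
    schemeHomOverComp ψ hψ (G.inv t x) = G.inv t' (schemeHomOverComp ψ hψ x) := by
  apply eq_inv_of_mul_eq_one
  rw [← G.mul_natural t t' ψ hψ, G.inv_mul_cancel, G.one_natural]

/-- The inverse is an involution. -/
theorem inv_inv_eq (G : RelativeGroupLaw R f) {T : Scheme.{u}}
    (t : T ⟶ Spec (CommRingCat.of R)) (x : SchemeHomOver t f) :
    G.inv t (G.inv t x) = x :=
  (eq_inv_of_mul_eq_one G t (G.inv t x) x (G.mul_inv_cancel t x)).symm

/-- The inverse of the neutral element. -/
theorem inv_one_eq (G : RelativeGroupLaw R f) {T : Scheme.{u}}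
    (t : T ⟶ Spec (CommRingCat.of R)) :
    G.inv t (G.one t) = G.one t :=
  (eq_inv_of_mul_eq_one G t (G.one t) (G.one t) (G.one_mul t _)).symm

end GroupLaw

section Neg

variable {K : Type u} [Field K] {A : Scheme.{u}} {f : A ⟶ Spec (CommRingCat.of K)}

theorem negHom_comp_structure (L : RelativeGroupLaw K f) : negHom L ≫ f = f :=
  (L.inv f RelativeGroupLaw.idPoint).2

theorem zeroHom_comp_structure (L : RelativeGroupLaw K f) :
    zeroHom L ≫ f = 𝟙 (Spec (CommRingCat.of K)) :=
  (L.one (𝟙 (Spec (CommRingCat.of K)))).2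

/-- `[-1] ∘ [-1] = id`. -/
theorem negHom_comp_negHom (L : RelativeGroupLaw K f) : negHom L ≫ negHom L = 𝟙 A := by
  have h := inv_natural L f f (negHom L) (negHom_comp_structure L) RelativeGroupLaw.idPoint
  have h2 : schemeHomOverComp (negHom L) (negHom_comp_structure L)
      (RelativeGroupLaw.idPoint (f := f)) = L.inv f RelativeGroupLaw.idPoint :=
    Subtype.ext (Category.comp_id _)
  rw [h2, inv_inv_eq] at h
  exact congrArg Subtype.val h

/-- `[-1] 0 = 0`. -/
theorem zeroHom_comp_negHom (L : RelativeGroupLaw K f) : zeroHom L ≫ negHom L = zeroHom L := by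
  have h := inv_natural L f (𝟙 (Spec (CommRingCat.of K))) (zeroHom L)
    (zeroHom_comp_structure L) RelativeGroupLaw.idPoint
  have h2 : schemeHomOverComp (zeroHom L) (zeroHom_comp_structure L)
      (RelativeGroupLaw.idPoint (f := f)) = L.one (𝟙 (Spec (CommRingCat.of K))) :=
    Subtype.ext (Category.comp_id _)
  rw [h2, inv_one_eq] at h
  exact congrArg Subtype.val h

/-- `[-1]` is an isomorphism. -/
theorem isIso_negHom (L : RelativeGroupLaw K f) : IsIso (negHom L) :=
  ⟨⟨negHom L, negHom_comp_negHom L, negHom_comp_negHom L⟩⟩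

/-- The preimage of `U₀ ⊓ [-1]⁻¹ U₀` under `[-1]`. -/
theorem negHom_preimage_inf (L : RelativeGroupLaw K f) (U₀ : A.Opens) :
    (negHom L) ⁻¹ᵁ (U₀ ⊓ (negHom L) ⁻¹ᵁ U₀) = U₀ ⊓ (negHom L) ⁻¹ᵁ U₀ := by
  have h : (negHom L) ⁻¹ᵁ ((negHom L) ⁻¹ᵁ U₀) = U₀ := by
    rw [← Scheme.Hom.comp_preimage, negHom_comp_negHom]
    rfl
  rw [Scheme.Hom.preimage_inf, h, inf_comm]

/-- A separated scheme over a field: the intersection of two affine opens is affine. -/
theorem isAffineOpen_inf_of_isSeparated (f : A ⟶ Spec (CommRingCat.of K)) [IsSeparated f]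
    {U V : A.Opens} (hU : IsAffineOpen U) (hV : IsAffineOpen V) : IsAffineOpen (U ⊓ V) := by
  have hd : IsAffineHom (pullback.diagonal f) := inferInstance
  exact isAffineHom_diagonal_iff.mp hd ⊤ (isAffineOpen_top _) U (by simp) V (by simp) hU hV

/-- The good open built from an affine open neighbourhood of the origin. -/
theorem isGoodOpen_inf (L : RelativeGroupLaw K f) [IsSeparated f] (U₀ : A.Opens)
    (hU₀ : IsAffineOpen U₀)
    (h0 : ∀ x : Spec (CommRingCat.of K), (zeroHom L).base x ∈ U₀) :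
    IsGoodOpen L (U₀ ⊓ (negHom L) ⁻¹ᵁ U₀) := by
  have hiso : IsIso (negHom L) := isIso_negHom L
  refine ⟨isAffineOpen_inf_of_isSeparated f hU₀ (hU₀.preimage_of_isIso (negHom L)), ?_,
    negHom_preimage_inf L U₀⟩
  intro x
  refine ⟨h0 x, ?_⟩
  change (negHom L).base ((zeroHom L).base x) ∈ U₀
  have h : (negHom L).base ((zeroHom L).base x) = (zeroHom L ≫ negHom L).base x := by
    simp
  rw [h, zeroHom_comp_negHom]
  exact h0 x

end Neg

/-- **EX**: a good open exists. -/
theorem stmt_EX : Stmt_EX.{u} := by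
  intro K _ _ A f L hA
  have hp : IsProper f := hA.proper
  have hs : IsSeparated f := inferInstance
  let x₀ : Spec (CommRingCat.of K) := Classical.arbitrary _
  obtain ⟨U₀, hU₀, hx₀, -⟩ :=
    exists_isAffineOpen_mem_and_subset (X := A) (x := (zeroHom L).base x₀) (U := ⊤) trivial
  refine ⟨U₀ ⊓ (negHom L) ⁻¹ᵁ U₀, isGoodOpen_inf L U₀ hU₀ ?_⟩
  intro x
  have hx : x = x₀ := Subsingleton.elim _ _
  rw [hx]
  exact hx₀

end Fermat.Agent.S26.H55
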