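import Mathlib

/-!
# S26, leaf (T) "trace bounds": the abstract core (helper52)

Route of helper27 (no cohomology).  `φ : A → A` finite surjective of degree `d = [E : F]`
(`F = K(A)` downstairs, `E = K(A)` upstairs), `U` affine open, `V = φ⁻¹ U`, `R = Γ(U)`,
`S = Γ(V)`, boundary prime divisors `D_i` (`i : ι`) of `U` and `D'_k` (`k : κ`) of `V`,
`π : κ → ι`, ramification indices `e k`.

* linear algebra: `card_mul_finrank_le` (lower bound from `d` linearly independent elements),
  `finrank_le_card_mul` (upper bound from `d` jointly injective coordinates);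
* `exists_den_coords`: a finitely generated `R`-submodule of `E` has coordinates with a common
  denominator in `R` (`F = Frac R`);
* `OrdLike`: the properties of a `ℤ`-valued order function with junk value at `0` (the shape of
  `AlgebraicGeometry.Scheme.ord`);
* `lower_mem`, `upper_mem`: the two membership statements;
* `trace_bounds`: `d * dim LF m ≤ dim LE (m + m₀)` and `dim LE m ≤ d * dim LF (m + m₁)`.

No trace form, no separability: only finiteness (global on `U`, local at each `D_i`).
-/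

set_option autoImplicit false
set_option linter.style.haveILetI false
set_option linter.unusedSectionVars false

namespace Fermat.Agent.S26.H52

open Module

section LinAlg

variable {K F E : Type*} [Field K] [Field F] [Field E] [Algebra K F] [Algebra F E] [Algebra K E]
  [IsScalarTower K F E]

/-- **Lower bound**: if `e i` (`i : ι`) are linearly independent over `F` and `LF • e i ⊆ LE`,
then `#ι * dim LF ≤ dim LE`. -/
theorem card_mul_finrank_le {ι : Type*} [Fintype ι]
    (LF : Submodule K F) (LE : Submodule K E) [Module.Finite K LE]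
    (e : ι → E) (he : LinearIndependent F e)
    (h : ∀ f ∈ LF, ∀ i, f • e i ∈ LE) :
    Fintype.card ι * finrank K LF ≤ finrank K LE := by
  classical
  -- the map `(f_i) ↦ ∑ f_i • e_i`
  let Φ : (ι → LF) →ₗ[K] LE :=
    { toFun := fun f => ⟨∑ i, (f i : F) • e i,
        Submodule.sum_mem _ fun i _ => h _ (f i).2 i⟩
      map_add' := fun f g => by
        ext
        simp [add_smul, Finset.sum_add_distrib]
      map_smul' := fun c f => by
        ext
        simp [Finset.smul_sum, smul_assoc] }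
  have hinj : Function.Injective Φ := by
    rw [← LinearMap.ker_eq_bot, LinearMap.ker_eq_bot']
    intro f hf
    have h0 : ∑ i, (f i : F) • e i = 0 := congrArg Subtype.val hf
    have := Fintype.linearIndependent_iff.1 he (fun i => (f i : F)) h0
    funext i
    exact Subtype.ext (this i)
  haveI : Module.Finite K (ι → LF) := Module.Finite.of_injective Φ hinj
  have h1 := LinearMap.finrank_le_finrank_of_injective hinj
  by_cases hι : Nonempty ι
  · haveI : Module.Finite K LF := by
      obtain ⟨i₀⟩ := hι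
      refine Module.Finite.of_injective
        ((LinearMap.single K (fun _ : ι => LF) i₀ : LF →ₗ[K] (ι → LF))) ?_
      intro a b hab
      have := congrFun hab i₀
      simpa using this
    rw [Module.finrank_pi_fintype] at h1
    simpa using h1
  · rw [not_nonempty_iff] at hι
    simp

/-- **Upper bound**: if the `K`-linear maps `c i : E → F` (`i : ι`) are jointly injective on `LE`
and map `LE` into the finite-dimensional `LF`, then `LE` is finite-dimensional and
`dim LE ≤ #ι * dim LF`. -/
theorem finrank_le_card_mul {ι : Type*} [Fintype ι]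
    (LF : Submodule K F) [Module.Finite K LF] (LE : Submodule K E)
    (c : ι → E →ₗ[K] F) (hinj : ∀ x ∈ LE, (∀ i, c i x = 0) → x = 0)
    (h : ∀ x ∈ LE, ∀ i, c i x ∈ LF) :
    Module.Finite K LE ∧ finrank K LE ≤ Fintype.card ι * finrank K LF := by
  classical
  let Ψ : LE →ₗ[K] (ι → LF) :=
    { toFun := fun x i => ⟨c i x, h _ x.2 i⟩
      map_add' := fun x y => by
        funext i
        ext
        simp
      map_smul' := fun a x => by
        funext i
        ext
        simp }
  have hΨ : Function.Injective Ψ := by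
    rw [← LinearMap.ker_eq_bot, LinearMap.ker_eq_bot']
    intro x hx
    have : ∀ i, c i x = 0 := fun i => congrArg Subtype.val (congrFun hx i)
    exact Subtype.ext (hinj _ x.2 this)
  haveI : Module.Finite K LE := Module.Finite.of_injective Ψ hΨ
  refine ⟨inferInstance, ?_⟩
  have h1 := LinearMap.finrank_le_finrank_of_injective hΨ
  rw [Module.finrank_pi_fintype] at h1
  simpa using h1

end LinAlg

section Den

variable {R F E : Type*} [CommRing R] [Field F] [Field E]
  [Algebra R F] [IsFractionRing R F] [Algebra F E] [Algebra R E] [IsScalarTower R F E]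

/-- The `R`-submodule of `E` of the elements whose `b`-coordinates, multiplied by `h`, are
integers (`∈ R`). -/
def coordIntSub {ι : Type*} (b : Basis ι F E) (h : R) : Submodule R E where
  carrier := {x | ∀ j, ∃ r : R, algebraMap R F r = algebraMap R F h * b.repr x j}
  zero_mem' := fun j => ⟨0, by simp⟩
  add_mem' := by
    intro x y hx hy j
    obtain ⟨r, hr⟩ := hx j
    obtain ⟨s, hs⟩ := hy j
    refine ⟨r + s, ?_⟩
    rw [map_add, hr, hs, map_add, Finsupp.add_apply, mul_add]
  smul_mem' := by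
    intro a x hx j
    obtain ⟨r, hr⟩ := hx j
    refine ⟨a * r, ?_⟩
    have : a • x = (algebraMap R F a) • x := by
      rw [algebraMap_smul]
    rw [this, map_smul, Finsupp.smul_apply, smul_eq_mul, map_mul, hr]
    ring

theorem mem_coordIntSub {ι : Type*} (b : Basis ι F E) (h : R) (x : E) :
    x ∈ coordIntSub b h ↔ ∀ j, ∃ r : R, algebraMap R F r = algebraMap R F h * b.repr x j :=
  Iff.rfl

/-- **Common denominator of the coordinates**: a finitely generated `R`-submodule `M` of `E`
(`F = Frac R`, `b` a finite `F`-basis of `E`): there is `h ≠ 0` in `R` such that `h` times every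
coordinate of every element of `M` lies in `R`. -/
theorem exists_den_coords {ι : Type*} [Finite ι] (b : Basis ι F E)
    (M : Submodule R E) (hM : M.FG) :
    ∃ h : R, h ∈ nonZeroDivisors R ∧ M ≤ coordIntSub b h := by
  classical
  obtain ⟨T, hT⟩ := hM
  cases nonempty_fintype ι
  obtain ⟨h, hh⟩ := IsLocalization.exist_integer_multiples_of_finite (nonZeroDivisors R)
    (fun p : T × ι => b.repr (p.1 : E) p.2)
  refine ⟨h, h.2, ?_⟩
  rw [← hT, Submodule.span_le]
  intro t ht j
  obtain ⟨r, hr⟩ := hh (⟨t, ht⟩, j)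
  refine ⟨r, ?_⟩
  rw [hr, Algebra.smul_def]

end Den

section Ord

/-- The properties of a `ℤ`-valued order function on a field, with an arbitrary (junk) value
at `0` (shape of `AlgebraicGeometry.Scheme.ord`). -/
structure OrdLike {F : Type*} [Field F] (v : F → ℤ) : Prop where
  mul : ∀ f g : F, f ≠ 0 → g ≠ 0 → v (f * g) = v f + v g
  add : ∀ f g : F, f ≠ 0 → g ≠ 0 → f + g ≠ 0 → min (v f) (v g) ≤ v (f + g)

namespace OrdLike

variable {F : Type*} [Field F] {v : F → ℤ}

theorem one (hv : OrdLike v) : v 1 = 0 := by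
  have := hv.mul 1 1 one_ne_zero one_ne_zero
  rw [mul_one] at this
  linarith

theorem pow (hv : OrdLike v) {t : F} (ht : t ≠ 0) (m : ℕ) : v (t ^ m) = m * v t := by
  induction m with
  | zero => simp [hv.one]
  | succ m ih =>
    rw [pow_succ, hv.mul _ _ (pow_ne_zero m ht) ht, ih]
    push_cast
    ring

theorem inv (hv : OrdLike v) {t : F} (ht : t ≠ 0) : v t⁻¹ = - v t := by
  have := hv.mul t t⁻¹ ht (inv_ne_zero ht)
  rw [mul_inv_cancel₀ ht, hv.one] at this
  linarith

theorem zpow (hv : OrdLike v) {t : F} (ht : t ≠ 0) (m : ℤ) : v (t ^ m) = m * v t := by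
  cases m with
  | ofNat m =>
    simp only [Int.ofNat_eq_natCast, zpow_natCast]
    exact hv.pow ht m
  | negSucc m =>
    rw [zpow_negSucc, hv.inv (pow_ne_zero _ ht), hv.pow ht]
    rw [Int.negSucc_eq]
    push_cast
    ring

end OrdLike

variable {K F E : Type*} [Field K] [Field F] [Field E] [Algebra K F] [Algebra F E] [Algebra K E]
  [IsScalarTower K F E]

/-- The data of the trace bounds (T) (unramified case): boundary order functions `v i` on `F`
(`i : ι`), `w k` on `E` (`k : κ`), `π : κ → ι`, the rings of regular functions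
`R ⊆ F`, `S ⊆ E` (as sets), the spaces `LF m`, `LE m` (`m : ℤ`). -/
structure TData (K F E : Type*) [Field K] [Field F] [Field E] [Algebra K F] [Algebra F E]
    [Algebra K E] (ι κ : Type*) where
  /-- order functions at the boundary divisors downstairs -/
  v : ι → F → ℤ
  /-- order functions at the boundary divisors upstairs -/
  w : κ → E → ℤ
  /-- the divisor downstairs under a divisor upstairs -/
  π : κ → ι
  /-- regular functions downstairs -/
  R : Set F
  /-- regular functions upstairs -/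
  S : Set E
  /-- `L(m D)` -/
  LF : ℤ → Submodule K F
  /-- `L(m φ^* D)` -/
  LE : ℤ → Submodule K E
  hv : ∀ i, OrdLike (v i)
  hw : ∀ k, OrdLike (w k)
  /-- compatibility of the order functions (unramified) -/
  hcompat : ∀ k (f : F), f ≠ 0 → w k (algebraMap F E f) = v (π k) f
  mem_LF : ∀ m f, f ∈ LF m ↔ f ∈ R ∧ (f ≠ 0 → ∀ i, -m ≤ v i f)
  mem_LE : ∀ m x, x ∈ LE m ↔ x ∈ S ∧ (x ≠ 0 → ∀ k, -m ≤ w k x)
  /-- `R • S ⊆ S` -/
  hRS : ∀ f ∈ R, ∀ x ∈ S, f • x ∈ S

variable {ι κ J : Type*} [Finite ι] [Finite κ]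

/-- **(T), lower membership**: for `b j ∈ S` nonzero there is `m₀` such that
`LF m • b j ⊆ LE (m + m₀)`. -/
theorem lower_mem (T : TData K F E ι κ) [Finite J] (b : J → E)
    (hbS : ∀ j, b j ∈ T.S) (hb0 : ∀ j, b j ≠ 0) :
    ∃ m₀ : ℕ, ∀ m : ℤ, ∀ f ∈ T.LF m, ∀ j, f • b j ∈ T.LE (m + m₀) := by
  classical
  cases nonempty_fintype κ
  cases nonempty_fintype J
  -- `m₀` bounds the pole orders of the `b j`
  obtain ⟨m₀, hm₀⟩ : ∃ m₀ : ℕ, ∀ k j, -(m₀ : ℤ) ≤ T.w k (b j) := by
    refine ⟨(∑ p : κ × J, (T.w p.1 (b p.2)).natAbs), fun k j => ?_⟩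
    have h1 : (T.w k (b j)).natAbs ≤ ∑ p : κ × J, (T.w p.1 (b p.2)).natAbs :=
      Finset.single_le_sum (f := fun p : κ × J => (T.w p.1 (b p.2)).natAbs)
        (fun _ _ => Nat.zero_le _) (Finset.mem_univ (k, j))
    have h2 : -((T.w k (b j)).natAbs : ℤ) ≤ T.w k (b j) := by
      have h' := neg_abs_le (T.w k (b j))
      rwa [Int.abs_eq_natAbs] at h'
    have h3 : ((T.w k (b j)).natAbs : ℤ) ≤ ((∑ p : κ × J, (T.w p.1 (b p.2)).natAbs : ℕ) : ℤ) := by
      exact_mod_cast h1
    linarith
  refine ⟨m₀, fun m f hf j => ?_⟩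
  rw [T.mem_LF] at hf
  rw [T.mem_LE]
  refine ⟨T.hRS f hf.1 _ (hbS j), fun hne k => ?_⟩
  have hf0 : f ≠ 0 := by
    rintro rfl
    exact hne (zero_smul _ _)
  have hfE : algebraMap F E f ≠ 0 := by
    rwa [Ne, map_eq_zero]
  rw [Algebra.smul_def, (T.hw k).mul _ _ hfE (hb0 j), T.hcompat k f hf0]
  have h1 := hf.2 hf0 (T.π k)
  have h2 := hm₀ k j
  linarith

/-- **(T), upper membership**: `b` an `F`-basis of `E`, `h ≠ 0` in `R` a common denominator
on `S` (global finiteness), local finiteness at each `i`, uniformisers: there is `m₁` such that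
`h` times every coordinate of an element of `LE m` lies in `LF (m + m₁)`. -/
theorem upper_mem (T : TData K F E ι κ) [Finite J] (b : Basis J F E)
    (h : F) (hh0 : h ≠ 0)
    (hglob : ∀ x ∈ T.S, ∀ j, h * b.repr x j ∈ T.R)
    (hloc : ∀ i, ∃ C : ℤ, ∀ y : E, y ≠ 0 → (∀ k, T.π k = i → 0 ≤ T.w k y) →
      ∀ j, b.repr y j ≠ 0 → -C ≤ T.v i (b.repr y j))
    (hunif : ∀ i, ∃ t : F, t ≠ 0 ∧ T.v i t = 1) :
    ∃ m₁ : ℕ, ∀ m : ℤ, ∀ x ∈ T.LE m, ∀ j, h * b.repr x j ∈ T.LF (m + m₁) := by
  classical
  cases nonempty_fintype ι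
  choose C hC using hloc
  choose t ht0 ht1 using hunif
  -- `m₁` bounds `C i - v i h`
  obtain ⟨m₁, hm₁⟩ : ∃ m₁ : ℕ, ∀ i, C i - T.v i h ≤ (m₁ : ℤ) := by
    refine ⟨(∑ i : ι, (C i - T.v i h).natAbs), fun i => ?_⟩
    have h1 : (C i - T.v i h).natAbs ≤ ∑ i : ι, (C i - T.v i h).natAbs :=
      Finset.single_le_sum (f := fun i : ι => (C i - T.v i h).natAbs)
        (fun _ _ => Nat.zero_le _) (Finset.mem_univ i)
    have h2 : C i - T.v i h ≤ ((C i - T.v i h).natAbs : ℤ) := Int.le_natAbs
    have h3 : ((C i - T.v i h).natAbs : ℤ) ≤ ((∑ i : ι, (C i - T.v i h).natAbs : ℕ) : ℤ) := by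
      exact_mod_cast h1
    linarith
  refine ⟨m₁, fun m x hx j => ?_⟩
  rw [T.mem_LE] at hx
  rw [T.mem_LF]
  refine ⟨hglob x hx.1 j, fun hne i => ?_⟩
  have hx0 : x ≠ 0 := by
    rintro rfl
    simp at hne
  have hc0 : b.repr x j ≠ 0 := right_ne_zero_of_mul hne
  -- scale by the uniformiser
  set y : E := (t i ^ m) • x with hy
  have htm : t i ^ m ≠ 0 := zpow_ne_zero _ (ht0 i)
  have hy0 : y ≠ 0 := smul_ne_zero htm hx0
  have hyk : ∀ k, T.π k = i → 0 ≤ T.w k y := by
    intro k hk
    have hE : algebraMap F E (t i ^ m) ≠ 0 := by rwa [Ne, map_eq_zero]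
    rw [hy, Algebra.smul_def, (T.hw k).mul _ _ hE hx0, T.hcompat k _ htm, hk,
      (T.hv i).zpow (ht0 i), ht1 i]
    have := hx.2 hx0 k
    linarith
  have hrepr : b.repr y j = t i ^ m * b.repr x j := by
    rw [hy, map_smul, Finsupp.smul_apply, smul_eq_mul]
  have hyj : b.repr y j ≠ 0 := by
    rw [hrepr]
    exact mul_ne_zero htm hc0
  have h1 := hC i y hy0 hyk j hyj
  rw [hrepr, (T.hv i).mul _ _ htm hc0, (T.hv i).zpow (ht0 i), ht1 i] at h1
  rw [(T.hv i).mul _ _ hh0 hc0]
  have := hm₁ i
  linarith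

/-- The `K`-linear coordinate `x ↦ h * (b.repr x j)`. -/
noncomputable def coordK (b : Basis J F E) (h : F) (j : J) : E →ₗ[K] F :=
  ((LinearMap.mulLeft F h).restrictScalars K).comp
    (((Finsupp.lapply j : (J →₀ F) →ₗ[F] F).comp
      (b.repr : E →ₗ[F] (J →₀ F))).restrictScalars K)

@[simp] theorem coordK_apply (b : Basis J F E) (h : F) (j : J) (x : E) :
    coordK (K := K) b h j x = h * b.repr x j := rfl

/-- **(T), the trace bounds** (abstract form): with `d = #J = [E : F]`,
`d * dim LF m ≤ dim LE (m + m₀)` and `dim LE m ≤ d * dim LF (m + m₁)`; all `LE m` are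
finite-dimensional. -/
theorem trace_bounds (T : TData K F E ι κ) [Fintype J] (b : Basis J F E)
    (hbS : ∀ j, b j ∈ T.S)
    (h : F) (hh0 : h ≠ 0)
    (hglob : ∀ x ∈ T.S, ∀ j, h * b.repr x j ∈ T.R)
    (hloc : ∀ i, ∃ C : ℤ, ∀ y : E, y ≠ 0 → (∀ k, T.π k = i → 0 ≤ T.w k y) →
      ∀ j, b.repr y j ≠ 0 → -C ≤ T.v i (b.repr y j))
    (hunif : ∀ i, ∃ t : F, t ≠ 0 ∧ T.v i t = 1)
    (hfin : ∀ m, Module.Finite K (T.LF m)) :
    ∃ m₀ m₁ : ℕ, ∀ m : ℤ, Module.Finite K (T.LE m) ∧
      Fintype.card J * finrank K (T.LF m) ≤ finrank K (T.LE (m + m₀)) ∧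
      finrank K (T.LE m) ≤ Fintype.card J * finrank K (T.LF (m + m₁)) := by
  classical
  obtain ⟨m₀, hm₀⟩ := lower_mem T (fun j => b j) hbS (fun j => b.ne_zero j)
  obtain ⟨m₁, hm₁⟩ := upper_mem T b h hh0 hglob hloc hunif
  have hup : ∀ m, Module.Finite K (T.LE m) ∧
      finrank K (T.LE m) ≤ Fintype.card J * finrank K (T.LF (m + m₁)) := by
    intro m
    haveI := hfin (m + m₁)
    refine finrank_le_card_mul (T.LF (m + m₁)) (T.LE m) (fun j => coordK (K := K) b h j)
      (fun x _ hx => ?_) (fun x hx j => hm₁ m x hx j)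
    have h0 : ∀ j, b.repr x j = 0 := fun j => by
      have := hx j
      rw [coordK_apply] at this
      exact (mul_eq_zero.1 this).resolve_left hh0
    have : b.repr x = 0 := Finsupp.ext h0
    exact (LinearEquiv.map_eq_zero_iff _).1 this
  refine ⟨m₀, m₁, fun m => ⟨(hup m).1, ?_, (hup m).2⟩⟩
  haveI := (hup (m + m₀)).1
  exact card_mul_finrank_le (T.LF m) (T.LE (m + m₀)) (fun j => b j) b.linearIndependent
    (fun f hf j => hm₀ m f hf j)

end Ord

end Fermat.Agent.S26.H52
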