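import Mathlib

/-!
# S26, package (G), lower half: a Jacobian criterion for algebraic independence (helper36)

* `deriv_aeval` : chain rule `D (F(a)) = ∑ j, (∂ⱼF)(a) • D (a j)`;
* `algebraicIndependent_of_linearIndependent_D` : over a perfect field `k`, elements `a j` of a
  domain `S` whose differentials `D (a j)` are `S`-linearly independent (for some `k`-derivation
  `D`) are algebraically independent over `k`;
* `exists_algebraicIndependent_of_isStandardSmooth` : a domain which is standard smooth of
  relative dimension `g` over a perfect field contains `g` algebraically independent elements.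

Mathlib only.
-/

set_option autoImplicit false

namespace Fermat.Agent.S26.H36

open MvPolynomial

section Chain

variable {R S M : Type*} [CommRing R] [CommRing S] [Algebra R S] [AddCommGroup M]
  [Module R M] [Module S M]

/-- chain rule for a derivation and a polynomial expression -/
theorem deriv_aeval {κ : Type*} [Fintype κ] (D : Derivation R S M) (a : κ → S)
    (F : MvPolynomial κ R) :
    D (aeval a F) = ∑ j, aeval a (pderiv j F) • D (a j) := by
  classical
  induction F using MvPolynomial.induction_on with
  | C r => simp
  | add p q hp hq => simp [hp, hq, add_smul, Finset.sum_add_distrib]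
  | mul_X p i hp =>
    have h1 : ∀ j, aeval a (pderiv j (p * X i)) • D (a j) =
        a i • (aeval a (pderiv j p) • D (a j)) +
          (if j = i then aeval a p • D (a i) else 0) := by
      intro j
      rw [pderiv_mul, pderiv_X, map_add, map_mul, map_mul, aeval_X, add_smul, smul_smul,
        mul_comm (a i)]
      congr 1
      by_cases hj : j = i
      · subst hj
        simp
      · simp [hj, Ne.symm hj]
    rw [map_mul, aeval_X, Derivation.leibniz, hp, Finset.sum_congr rfl fun j _ => h1 j,
      Finset.sum_add_distrib, ← Finset.smul_sum, Finset.sum_ite_eq' Finset.univ i, add_comm]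
    simp

omit [Algebra R S] [AddCommGroup M] [Module R M] [Module S M] [CommRing S] in
theorem totalDegree_pderiv_lt {κ : Type*} (F : MvPolynomial κ R) (i : κ)
    (h : pderiv i F ≠ 0) : (pderiv i F).totalDegree < F.totalDegree := by
  classical
  obtain ⟨m, hm, hdeg⟩ : ∃ m ∈ (pderiv i F).support,
      (pderiv i F).totalDegree = m.sum fun _ e => e := by
    have hne : (pderiv i F).support.Nonempty := by
      rwa [Finset.nonempty_iff_ne_empty, Ne, MvPolynomial.support_eq_empty]
    obtain ⟨m, hm, h2⟩ := Finset.exists_mem_eq_sup _ hne fun s : κ →₀ ℕ => s.sum fun _ e => e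
    exact ⟨m, hm, h2⟩
  rw [mem_support_iff, coeff_pderiv] at hm
  have hm' : m + Finsupp.single i 1 ∈ F.support := by
    rw [mem_support_iff]
    intro h0
    exact hm (by rw [h0, zero_mul])
  have := le_totalDegree hm'
  rw [hdeg]
  have h3 : ((m + Finsupp.single i 1).sum fun _ e => e) = (m.sum fun _ e => e) + 1 := by
    rw [Finsupp.sum_add_index' (by simp) (by simp)]
    simp
  omega

end Chain

section Main

variable {k S M : Type*} [Field k] [PerfectField k] [CommRing S] [IsDomain S] [Algebra k S]
  [AddCommGroup M] [Module k M] [Module S M]

/-- a nonzero polynomial over a perfect field which is a relation of minimal degree between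
elements of a domain has a monomial with an exponent which is not zero in the field -/
theorem exists_exponent_ne_zero {κ : Type*} (a : κ → S) (F : MvPolynomial κ k) (hF0 : F ≠ 0)
    (hFa : aeval a F = 0)
    (HF : ∀ F' : MvPolynomial κ k, F' ≠ 0 → aeval a F' = 0 → F.totalDegree ≤ F'.totalDegree) :
    ∃ i, ∃ σ ∈ F.support, ((σ i : ℕ) : k) ≠ 0 := by
  classical
  obtain h0 | ⟨p, hp, hpk⟩ := CharP.exists' k
  · -- characteristic zero
    by_contra hcon
    push Not at hcon
    have hsupp : ∀ σ ∈ F.support, σ = 0 := by
      intro σ hσ
      ext i
      have := hcon i σ hσ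
      simpa using this
    have hFC : F = C (coeff 0 F) := by
      ext σ
      by_cases hσ : σ ∈ F.support
      · rw [hsupp σ hσ]; simp
      · rw [notMem_support_iff.mp hσ, coeff_C]
        split_ifs with h
        · rw [← h] at hσ; exact (notMem_support_iff.mp hσ).symm ▸ rfl
        · rfl
    rw [hFC, aeval_C] at hFa
    have : coeff 0 F = 0 := by
      have hinj : Function.Injective (algebraMap k S) := (algebraMap k S).injective
      exact hinj (by rw [hFa, map_zero])
    rw [this, C_0] at hFC
    exact hF0 hFC
  · -- characteristic `p`
    let K' := FractionRing S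
    have hinj : Function.Injective (algebraMap S K') := IsFractionRing.injective S K'
    have haev : ∀ G : MvPolynomial κ k, aeval (fun j => algebraMap S K' (a j)) G =
        algebraMap S K' (aeval a G) := by
      intro G
      rw [← MvPolynomial.aeval_algebraMap_apply]
      rfl
    have : CharP K' p := .of_ringHom_of_ne_zero (algebraMap k K') p hp.out.ne_zero
    have H : ∀ s : Finset K',
        LinearIndepOn k _root_.id (s : Set K') → LinearIndepOn k (· ^ p) (s : Set K') := by
      intro s hs
      apply hs.map_of_injective_injective (frobeniusEquiv k p).symm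
        (frobenius K' p).toAddMonoidHom <;>
      simp [frobenius, Algebra.smul_def, mul_pow, ← map_pow, frobeniusEquiv_symm_pow]
    obtain ⟨i, σ, hσ, hdvd⟩ :=
      MvPolynomial.exists_mem_support_not_dvd_of_forall_totalDegree_le (k := k) (K := K')
        (a := fun j => algebraMap S K' (a j)) p hp.out H (F := F)
        (fun F' hF' hF'a => HF F' hF' (hinj (by rw [← haev, hF'a, map_zero]))) hF0
        (by rw [haev, hFa, map_zero])
    refine ⟨i, σ, hσ, ?_⟩
    rwa [Ne, CharP.cast_eq_zero_iff k p]

/-- **Jacobian criterion for algebraic independence**: elements of a domain over a perfect field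
whose differentials (for some derivation) are linearly independent are algebraically
independent. -/
theorem algebraicIndependent_of_linearIndependent_D {κ : Type*} [Fintype κ]
    (D : Derivation k S M) (a : κ → S) (h : LinearIndependent S fun j => D (a j)) :
    AlgebraicIndependent k a := by
  classical
  by_contra hcon
  rw [algebraicIndependent_iff] at hcon
  push Not at hcon
  -- a relation of minimal degree
  have hex : ∃ n : ℕ, ∃ F : MvPolynomial κ k, F ≠ 0 ∧ aeval a F = 0 ∧ F.totalDegree = n := by
    obtain ⟨F, hFa, hF0⟩ := hcon
    exact ⟨_, F, hF0, hFa, rfl⟩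
  obtain ⟨F, hF0, hFa, hFn⟩ := Nat.find_spec hex
  have HF : ∀ F' : MvPolynomial κ k, F' ≠ 0 → aeval a F' = 0 →
      F.totalDegree ≤ F'.totalDegree := by
    intro F' hF' hF'a
    rw [hFn]
    exact Nat.find_min' hex ⟨F', hF', hF'a, rfl⟩
  have hder : ∀ j, pderiv j F = 0 := by
    have h1 := deriv_aeval D a F
    rw [hFa, map_zero] at h1
    have h2 := Fintype.linearIndependent_iff.mp h _ h1.symm
    intro j
    by_contra hj
    have h3 := HF _ hj (h2 j)
    exact absurd (totalDegree_pderiv_lt F j hj) (not_lt.mpr h3)
  obtain ⟨i, σ, hσ, hne⟩ := exists_exponent_ne_zero a F hF0 hFa HF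
  have hpos : σ i ≠ 0 := by
    intro h0
    rw [h0, Nat.cast_zero] at hne
    exact hne rfl
  have h4 : coeff (σ - Finsupp.single i 1) (pderiv i F) = coeff σ F * (σ i : k) := by
    rw [coeff_pderiv]
    have e1 : σ - Finsupp.single i 1 + Finsupp.single i 1 = σ := by
      ext j
      by_cases hj : j = i
      · subst hj
        simp only [Finsupp.coe_add, Finsupp.coe_tsub, Pi.add_apply, Pi.sub_apply,
          Finsupp.single_eq_same]
        omega
      · simp [hj]
    have e2 : ((((σ - Finsupp.single i 1 : κ →₀ ℕ) i : ℕ) : k)) + 1 = (σ i : k) := by
      have : (σ - Finsupp.single i 1 : κ →₀ ℕ) i + 1 = σ i := by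
        simp only [Finsupp.coe_tsub, Pi.sub_apply, Finsupp.single_eq_same]
        omega
      exact_mod_cast congrArg (Nat.cast : ℕ → k) this
    rw [e1, e2]
  rw [hder i, coeff_zero] at h4
  exact (mul_ne_zero (mem_support_iff.mp hσ) hne) h4.symm

end Main

section StdSmooth

open Algebra

/-- A domain which is standard smooth of relative dimension `g` over a perfect field contains
`g` algebraically independent elements. -/
theorem exists_algebraicIndependent_of_isStandardSmooth (k S : Type*) [Field k] [PerfectField k]
    [CommRing S] [IsDomain S] [Algebra k S] (g : ℕ)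
    [Algebra.IsStandardSmoothOfRelativeDimension g k S] :
    ∃ a : Fin g → S, AlgebraicIndependent k a := by
  classical
  obtain ⟨ι, σ, _, _, P, hP⟩ := ‹Algebra.IsStandardSmoothOfRelativeDimension g k S›
  letI : Fintype ι := Fintype.ofFinite ι
  letI : Fintype σ := Fintype.ofFinite σ
  have hli : LinearIndependent S
      fun j : ((Set.range P.map)ᶜ : Set ι) => KaehlerDifferential.D k S (P.val j) := by
    have := P.basisKaehler.linearIndependent
    convert this using 2 with j
    rw [SubmersivePresentation.basisKaehler_apply]
  have hind := algebraicIndependent_of_linearIndependent_D (KaehlerDifferential.D k S)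
    (fun j : ((Set.range P.map)ᶜ : Set ι) => P.val j) hli
  have hcard : Fintype.card ((Set.range P.map)ᶜ : Set ι) = g := by
    rw [← hP, Fintype.card_compl_set, Presentation.dimension, Nat.card_eq_fintype_card,
      Nat.card_eq_fintype_card, Set.card_range_of_injective P.map_inj]
  let e : Fin g ≃ ((Set.range P.map)ᶜ : Set ι) := (Fintype.equivFinOfCardEq hcard).symm
  exact ⟨fun i => P.val (e i), hind.comp e e.injective⟩

end StdSmooth

end Fermat.Agent.S26.H36
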