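import Mathlib

/-!
# S26 (`#A[n] = n ^ (2 g)`), two abstract leaves (helper46)

* (M) `fdeg_comp` : for field homomorphisms `ψ : F₁ → F₂`, `φ : F₂ → F₃` the degrees multiply:
  `[F₃ : φ ψ F₁] = [F₂ : ψ F₁] [F₃ : φ F₂]` (`fdeg φ = [F₃ : φ F₂]`, `0` if infinite);
* (G-LOW) `growth_lower` : a multiplicative filtration `L a · L b ⊆ L (a + b)` of a `K`-algebra
  by finite-dimensional subspaces containing `g` algebraically independent elements in `L k₀`
  grows at least like `m ^ g`:  `m ^ g / (k₀ g + 1) ^ g ≤ dim L m`.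
-/

set_option autoImplicit false

namespace Fermat.Agent.S26.H46

/-! ## (M) degrees multiply -/

section Deg

/-- The degree `[F' : φ F]` of a ring homomorphism of fields (`0` if infinite). -/
noncomputable def fdeg {F F' : Type*} [Field F] [Field F'] (φ : F →+* F') : ℕ :=
  @Module.finrank F F' _ _ φ.toAlgebra.toModule

theorem fdeg_eq_finrank {F F' : Type*} [Field F] [Field F'] [Algebra F F'] :
    fdeg (algebraMap F F') = Module.finrank F F' := by
  unfold fdeg
  have : (algebraMap F F').toAlgebra = (inferInstance : Algebra F F') :=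
    Algebra.algebra_ext _ _ fun _ => rfl
  rw [this]

/-- **(M)**: degrees multiply in towers. -/
theorem fdeg_comp {F₁ F₂ F₃ : Type*} [Field F₁] [Field F₂] [Field F₃] (ψ : F₁ →+* F₂)
    (φ : F₂ →+* F₃) : fdeg (φ.comp ψ) = fdeg ψ * fdeg φ := by
  letI a₁₂ : Algebra F₁ F₂ := ψ.toAlgebra
  letI a₂₃ : Algebra F₂ F₃ := φ.toAlgebra
  letI a₁₃ : Algebra F₁ F₃ := (φ.comp ψ).toAlgebra
  haveI : IsScalarTower F₁ F₂ F₃ := IsScalarTower.of_algebraMap_eq fun _ => rfl
  exact (Module.finrank_mul_finrank F₁ F₂ F₃).symm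

theorem fdeg_id {F : Type*} [Field F] : fdeg (RingHom.id F) = 1 := by
  unfold fdeg
  have : (RingHom.id F).toAlgebra = Algebra.id F := Algebra.algebra_ext _ _ fun _ => rfl
  rw [this]
  exact Module.finrank_self F

/-- Powers: `deg (φ ^ k) = (deg φ) ^ k`. -/
theorem fdeg_iterate {F : Type*} [Field F] (φ : F →+* F) (k : ℕ) :
    fdeg (φ ^ k) = fdeg φ ^ k := by
  induction k with
  | zero => rw [pow_zero, pow_zero]; exact fdeg_id
  | succ k ih =>
    rw [pow_succ, pow_succ, ← ih]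
    have : φ ^ k * φ = (φ ^ k).comp φ := rfl
    rw [this, fdeg_comp, mul_comm]

end Deg

/-! ## (G-LOW) the lower bound for the growth -/

section Growth

variable {K R : Type*} [Field K] [CommRing R] [Algebra K R]

/-- A multiplicative filtration by subspaces. -/
structure MulFiltration (K R : Type*) [Field K] [CommRing R] [Algebra K R] where
  /-- the pieces -/
  L : ℕ → Submodule K R
  one_mem : (1 : R) ∈ L 0
  mul_mem : ∀ {a b : ℕ} {x y : R}, x ∈ L a → y ∈ L b → x * y ∈ L (a + b)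
  mono : Monotone L

namespace MulFiltration

variable (Φ : MulFiltration K R)

theorem pow_mem {a : ℕ} {x : R} (hx : x ∈ Φ.L a) (n : ℕ) : x ^ n ∈ Φ.L (a * n) := by
  induction n with
  | zero => rw [pow_zero, mul_zero]; exact Φ.one_mem
  | succ n ih =>
    rw [pow_succ, mul_add, mul_one]
    exact Φ.mul_mem ih hx

theorem prod_mem {ι : Type*} (s : Finset ι) (a : ι → ℕ) (y : ι → R)
    (h : ∀ i ∈ s, y i ∈ Φ.L (a i)) : ∏ i ∈ s, y i ∈ Φ.L (∑ i ∈ s, a i) := by
  classical
  induction s using Finset.induction_on with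
  | empty => simpa using Φ.one_mem
  | insert i s hi ih =>
    rw [Finset.prod_insert hi, Finset.sum_insert hi]
    exact Φ.mul_mem (h i (Finset.mem_insert_self i s))
      (ih fun j hj => h j (Finset.mem_insert_of_mem hj))

/-- The monomials with exponents `≤ s` in `g` elements of `L k₀` lie in `L (k₀ g s)`. -/
theorem monomial_mem {g k₀ : ℕ} {x : Fin g → R} (hxL : ∀ i, x i ∈ Φ.L k₀) (s : ℕ)
    (α : Fin g → Fin (s + 1)) : ∏ i, x i ^ (α i : ℕ) ∈ Φ.L (k₀ * g * s) := by
  have h1 : ∏ i, x i ^ (α i : ℕ) ∈ Φ.L (∑ i : Fin g, k₀ * (α i : ℕ)) :=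
    Φ.prod_mem Finset.univ (fun i => k₀ * (α i : ℕ)) (fun i => x i ^ (α i : ℕ))
      fun i _ => Φ.pow_mem (hxL i) _
  refine Φ.mono ?_ h1
  calc ∑ i : Fin g, k₀ * (α i : ℕ) ≤ ∑ _i : Fin g, k₀ * s :=
        Finset.sum_le_sum fun i _ => Nat.mul_le_mul_left _ (Nat.lt_succ_iff.mp (α i).2)
    _ = k₀ * g * s := by
        rw [Finset.sum_const, Finset.card_univ, Fintype.card_fin, smul_eq_mul]
        ring

/-- The monomials with exponents `≤ s` in algebraically independent elements are linearly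
independent. -/
theorem linearIndependent_monomials {g : ℕ} {x : Fin g → R} (hx : AlgebraicIndependent K x)
    (s : ℕ) :
    LinearIndependent K (fun α : Fin g → Fin (s + 1) => ∏ i, x i ^ (α i : ℕ)) := by
  classical
  -- the exponent vectors
  let e : (Fin g → Fin (s + 1)) → (Fin g →₀ ℕ) := fun α =>
    Finsupp.equivFunOnFinite.symm fun i => (α i : ℕ)
  have he : Function.Injective e := by
    intro α β h
    funext i
    have h1 := congrArg (fun f : Fin g →₀ ℕ => f i) h
    exact Fin.ext h1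
  have h1 : LinearIndependent K (fun α : Fin g → Fin (s + 1) =>
      (MvPolynomial.monomial (e α) (1 : K) : MvPolynomial (Fin g) K)) := by
    have h0 := (MvPolynomial.basisMonomials (Fin g) K).linearIndependent
    rw [MvPolynomial.coe_basisMonomials] at h0
    exact h0.comp e he
  have h2 := h1.map' (MvPolynomial.aeval x : MvPolynomial (Fin g) K →ₐ[K] R).toLinearMap
    (LinearMap.ker_eq_bot.2 hx)
  have hfun : (fun α : Fin g → Fin (s + 1) => ∏ i, x i ^ (α i : ℕ))
      = (MvPolynomial.aeval x : MvPolynomial (Fin g) K →ₐ[K] R).toLinearMap ∘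
        (fun α : Fin g → Fin (s + 1) =>
          (MvPolynomial.monomial (e α) (1 : K) : MvPolynomial (Fin g) K)) := by
    funext α
    simp only [Function.comp_apply, AlgHom.toLinearMap_apply, MvPolynomial.aeval_monomial,
      map_one, one_mul]
    rw [Finsupp.prod_fintype _ _ fun i => pow_zero _]
    rfl
  rw [hfun]
  exact h2

/-- **(G-LOW), counting form**: `(s + 1) ^ g ≤ dim L m` if `k₀ g s ≤ m`. -/
theorem pow_le_finrank {g k₀ : ℕ} {x : Fin g → R} (hx : AlgebraicIndependent K x)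
    (hxL : ∀ i, x i ∈ Φ.L k₀) {s m : ℕ} (hm : k₀ * g * s ≤ m) [Module.Finite K (Φ.L m)] :
    (s + 1) ^ g ≤ Module.finrank K (Φ.L m) := by
  classical
  let v : (Fin g → Fin (s + 1)) → Φ.L m := fun α =>
    ⟨∏ i, x i ^ (α i : ℕ), Φ.mono hm (Φ.monomial_mem hxL s α)⟩
  have hv : LinearIndependent K v := by
    refine LinearIndependent.of_comp (Φ.L m).subtype ?_
    exact linearIndependent_monomials hx s
  have h := hv.fintype_card_le_finrank
  simpa using h

/-- **(G-LOW)**: `m ^ g / (k₀ g + 1) ^ g ≤ dim L m` for all `m`. -/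
theorem growth_lower {g k₀ : ℕ} {x : Fin g → R} (hx : AlgebraicIndependent K x)
    (hxL : ∀ i, x i ∈ Φ.L k₀) (m : ℕ) [Module.Finite K (Φ.L m)] :
    (1 / ((k₀ * g + 1 : ℕ) : ℝ) ^ g) * (m : ℝ) ^ g ≤ (Module.finrank K (Φ.L m) : ℝ) := by
  set c : ℕ := k₀ * g + 1 with hc
  have hcpos : 0 < c := Nat.succ_pos _
  set s : ℕ := m / c with hs
  have hm : k₀ * g * s ≤ m := by
    calc k₀ * g * s ≤ c * s := Nat.mul_le_mul_right _ (Nat.le_succ _)
      _ ≤ m := Nat.mul_div_le m c
  have h1 := Φ.pow_le_finrank hx hxL hm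
  have h2 : (m : ℝ) ≤ (c : ℝ) * ((s : ℝ) + 1) := by
    have : m < c * (s + 1) := by
      rw [hs]
      exact Nat.lt_mul_div_succ m hcpos
    exact_mod_cast this.le
  have hcR : (0 : ℝ) < (c : ℝ) := by exact_mod_cast hcpos
  have h3 : (m : ℝ) ^ g ≤ (c : ℝ) ^ g * ((s : ℝ) + 1) ^ g := by
    rw [← mul_pow]
    exact pow_le_pow_left₀ (Nat.cast_nonneg m) h2 g
  have h4 : ((s : ℝ) + 1) ^ g ≤ (Module.finrank K (Φ.L m) : ℝ) := by exact_mod_cast h1
  rw [one_div, inv_mul_le_iff₀ (pow_pos hcR g)]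
  calc (m : ℝ) ^ g ≤ (c : ℝ) ^ g * ((s : ℝ) + 1) ^ g := h3
    _ ≤ (c : ℝ) ^ g * (Module.finrank K (Φ.L m) : ℝ) :=
        mul_le_mul_of_nonneg_left h4 (pow_pos hcR g).le

end MulFiltration

end Growth

end Fermat.Agent.S26.H46
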