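import Mathlib
import Fermat.Agent.S26.Defs
import Fermat.Agent.S26.H46_Abs
import Fermat.Agent.S26.H36_AlgIndep
import Fermat.Agent.S26.T.H25_FinB
import Fermat.Agent.S26.G.Defs

/-!
# S26, package (G), lower half (G-LOW-INST, helper36)

`growth_lower_of` : for `f : A ⟶ Spec K` smooth of relative dimension `g`, `A` integral locally
noetherian, `K` perfect, `U` a nonempty affine open missing only finitely many points of
codimension one, and `L(m D_U)` finite-dimensional: `c₁ m ^ g ≤ ell f U m` for a `c₁ > 0`.

* `luFilt` : `m ↦ span (L(m D_U))` is a multiplicative filtration (`H46.MulFiltration`);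
* `exists_mem_LU` : sections over `U` lie in some `L(k D_U)`;
* `exists_chart` : a standard smooth chart compatible with the constants;
* `exists_algebraicIndependent_functionField`, `exists_algebraicIndependent_sections`;
* `stmt_GLOW_of`, `stmt_G_of : G.Stmt_GUP → Stmt_G` : the package (G) from its upper half.
-/

set_option autoImplicit false

open CategoryTheory CategoryTheory.Limits AlgebraicGeometry NeronModelInfra GoodReductionJacobian

universe u

namespace Fermat.Agent.S26.H36

section Filt

variable {A : Scheme.{u}} [IsIntegral A] [IsLocallyNoetherian A]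

theorem LU_mono (U : A.Opens) {a b : ℤ} (hab : a ≤ b) : LU U a ⊆ LU U b := by
  rintro h (rfl | hh)
  · exact Or.inl rfl
  · refine Or.inr fun z hz => ⟨(hh z hz).1, fun hzU => ?_⟩
    have := (hh z hz).2 hzU
    omega

theorem one_mem_LU (U : A.Opens) : (1 : A.functionField) ∈ LU U 0 := by
  refine Or.inr fun z _ => ?_
  have h1 : Scheme.ord (1 : A.functionField) z = 0 := by
    have := Scheme.ord_mul (x := z) (one_ne_zero (α := A.functionField))
      (one_ne_zero (α := A.functionField))
    rw [mul_one] at this
    omega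
  rw [h1]
  exact ⟨fun _ => le_refl _, fun _ => by simp⟩

theorem mul_mem_LU (U : A.Opens) {a b : ℤ} {x y : A.functionField} (hx : x ∈ LU U a)
    (hy : y ∈ LU U b) : x * y ∈ LU U (a + b) := by
  rcases hx with rfl | hx
  · exact Or.inl (zero_mul _)
  rcases hy with rfl | hy
  · exact Or.inl (mul_zero _)
  by_cases hx0 : x = 0
  · exact Or.inl (by rw [hx0, zero_mul])
  by_cases hy0 : y = 0
  · exact Or.inl (by rw [hy0, mul_zero])
  refine Or.inr fun z hz => ?_
  rw [Scheme.ord_mul hx0 hy0]
  refine ⟨fun hzU => add_nonneg ((hx z hz).1 hzU) ((hy z hz).1 hzU), fun hzU => ?_⟩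
  have h1 := (hx z hz).2 hzU
  have h2 := (hy z hz).2 hzU
  omega

/-- the filtration `m ↦ span (L(m D_U))` -/
noncomputable def luFilt (K : Type u) [Field K] [Algebra K A.functionField] (U : A.Opens) :
    H46.MulFiltration K A.functionField where
  L a := Submodule.span K (LU U (a : ℤ))
  one_mem := Submodule.subset_span (by simpa using one_mem_LU U)
  mul_mem := by
    intro a b x y hx hy
    have h := Submodule.mul_mem_mul hx hy
    rw [Submodule.span_mul_span] at h
    refine Submodule.span_mono ?_ h
    rintro _ ⟨x', hx', y', hy', rfl⟩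
    have := mul_mem_LU U hx' hy'
    simpa using this
  mono := by
    intro a b hab
    exact Submodule.span_mono (LU_mono U (by exact_mod_cast hab))

/-- sections over `U` have bounded poles outside `U` -/
theorem exists_mem_LU (U : A.Opens) [Nonempty U]
    (hfinb : {z : A | Order.coheight z = 1 ∧ z ∉ U}.Finite) (s : Γ(A, U)) :
    ∃ k : ℕ, A.germToFunctionField U s ∈ LU U (k : ℤ) := by
  classical
  by_cases hs : s = 0
  · exact ⟨0, Or.inl (by rw [hs, map_zero])⟩
  set h : A.functionField := A.germToFunctionField U s with hh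
  refine ⟨hfinb.toFinset.sup fun z => (-(Scheme.ord h z)).toNat, Or.inr fun z hz => ⟨?_, ?_⟩⟩
  · intro hzU
    have h1 := Scheme.ord_le_smul (X := A) hzU hs (1 : A.functionField)
    have h2 : Scheme.ord (1 : A.functionField) z = 0 := by
      have := Scheme.ord_mul (x := z) (one_ne_zero (α := A.functionField))
        (one_ne_zero (α := A.functionField))
      rw [mul_one] at this
      omega
    have h3 : s • (1 : A.functionField) = h := by
      rw [Algebra.smul_def, mul_one]
      rfl
    rw [h2, h3] at h1
    exact h1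
  · intro hzU
    have hmem : z ∈ hfinb.toFinset := by
      rw [Set.Finite.mem_toFinset]
      exact ⟨hz, hzU⟩
    have h1 : (-(Scheme.ord h z)).toNat ≤
        hfinb.toFinset.sup fun z => (-(Scheme.ord h z)).toNat :=
      Finset.le_sup (f := fun z => (-(Scheme.ord h z)).toNat) hmem
    have h2 : -(Scheme.ord h z) ≤ ((-(Scheme.ord h z)).toNat : ℤ) := Int.self_le_toNat _
    have h3 : (((-(Scheme.ord h z)).toNat : ℕ) : ℤ) ≤
        ((hfinb.toFinset.sup fun z => (-(Scheme.ord h z)).toNat : ℕ) : ℤ) := by
      exact_mod_cast h1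
    omega

end Filt

section Chart

variable {K : Type u} [Field K] {A : Scheme.{u}} (f : A ⟶ Spec (CommRingCat.of K))

/-- a standard smooth chart, compatible with the constants -/
theorem exists_chart (g : ℕ) [SmoothOfRelativeDimension g f] [IsIntegral A] :
    ∃ (V : A.Opens) (_ : Nonempty V) (φ : K →+* Γ(A, V)),
      RingHom.IsStandardSmoothOfRelativeDimension g φ ∧
      (A.germToFunctionField V).hom.comp φ = constHom f := by
  obtain ⟨U', hU', V, hV, hxV, e, hstd⟩ :=
    SmoothOfRelativeDimension.exists_isStandardSmoothOfRelativeDimension (n := g) (f := f)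
      (genericPoint A)
  haveI : Nonempty V := ⟨⟨genericPoint A, hxV⟩⟩
  have hU'top : U' = ⊤ := by
    ext y
    simp only [TopologicalSpace.Opens.coe_top, Set.mem_univ, iff_true]
    have hy : y = f (genericPoint A) := Subsingleton.elim _ _
    rw [hy]
    exact e hxV
  subst hU'top
  let ε : K ≃+* Γ(Spec (CommRingCat.of K), ⊤) :=
    (Scheme.ΓSpecIso (CommRingCat.of K)).symm.commRingCatIsoToRingEquiv
  refine ⟨V, inferInstance, (f.appLE ⊤ V e).hom.comp ε.toRingHom,
    RingHom.isStandardSmoothOfRelativeDimension_respectsIso.right _ ε hstd, ?_⟩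
  ext c
  simp only [constHom, RingHom.comp_apply]
  have h1 : f.appLE ⊤ V e = f.appTop ≫ A.presheaf.map (homOfLE (le_top : V ≤ ⊤)).op := rfl
  haveI : Nonempty (⊤ : A.Opens) := ⟨⟨Classical.arbitrary A, trivial⟩⟩
  have h2 : A.presheaf.map (homOfLE (le_top : V ≤ ⊤)).op ≫ A.germToFunctionField V =
      A.germToFunctionField ⊤ := by
    apply TopCat.Presheaf.germ_res
  rw [← h2, h1]
  rfl

end Chart

section Pick

/-- In a field `F` which is algebraic over the subalgebra generated by a set `s` and contains
`g` algebraically independent elements, there are `g` algebraically independent elements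
in `s`. -/
theorem exists_algebraicIndependent_mem {K F : Type*} [Field K] [Field F] [Algebra K F]
    (s : Set F) [Algebra.IsAlgebraic (Algebra.adjoin K s) F] {g : ℕ} (a : Fin g → F)
    (ha : AlgebraicIndependent K a) :
    ∃ x : Fin g → F, AlgebraicIndependent K x ∧ ∀ i, x i ∈ s := by
  obtain ⟨t, hts, ht⟩ := exists_isTranscendenceBasis_subset (R := K) s
  have h1 := ha.lift_cardinalMk_le_trdeg
  have h2 := ht.cardinalMk_eq_trdeg
  rw [← h2] at h1
  have h3 : Nonempty (Fin g ↪ t) := Cardinal.lift_mk_le'.mp h1
  obtain ⟨e⟩ := h3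
  exact ⟨fun i => (e i : F), ht.1.comp e e.injective, fun i => hts (e i).2⟩

end Pick

section Frac

variable {K : Type u} [Field K] {A : Scheme.{u}} [IsIntegral A] [Algebra K A.functionField]

/-- the function field is algebraic over the algebra generated by the sections over an affine
open -/
theorem isAlgebraic_adjoin_range (U : A.Opens) (hU : IsAffineOpen U) [Nonempty U] :
    Algebra.IsAlgebraic (Algebra.adjoin K (Set.range (A.germToFunctionField U)))
      A.functionField := by
  haveI := functionField_isFractionRing_of_isAffineOpen A U hU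
  haveI : Algebra.IsAlgebraic Γ(A, U) A.functionField :=
    IsLocalization.isAlgebraic A.functionField (nonZeroDivisors Γ(A, U))
  let B := Algebra.adjoin K (Set.range (A.germToFunctionField U))
  let ρ : Γ(A, U) →+* B :=
    (algebraMap Γ(A, U) A.functionField).codRestrict B.toSubring
      fun x => Algebra.subset_adjoin ⟨x, rfl⟩
  letI : Algebra Γ(A, U) B := ρ.toAlgebra
  haveI : IsScalarTower Γ(A, U) B A.functionField := IsScalarTower.of_algebraMap_eq fun _ => rfl
  have hinj : Function.Injective (algebraMap Γ(A, U) B) := by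
    intro x y hxy
    apply A.germToFunctionField_injective U
    exact congrArg Subtype.val hxy
  exact Algebra.IsAlgebraic.extendScalars (R := Γ(A, U)) (S := B) (A := A.functionField) hinj

end Frac

section Main

variable {K : Type u} [Field K] [PerfectField K] {A : Scheme.{u}}
  (f : A ⟶ Spec (CommRingCat.of K))

/-- `g` algebraically independent functions -/
theorem exists_algebraicIndependent_functionField (g : ℕ) [SmoothOfRelativeDimension g f]
    [IsIntegral A] :
    letI : Algebra K A.functionField := (constHom f).toAlgebra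
    ∃ a : Fin g → A.functionField, AlgebraicIndependent K a := by
  letI : Algebra K A.functionField := (constHom f).toAlgebra
  obtain ⟨V, hV, φ, hφ, hcomp⟩ := exists_chart f g
  letI : Algebra K Γ(A, V) := φ.toAlgebra
  haveI : Algebra.IsStandardSmoothOfRelativeDimension g K Γ(A, V) := hφ
  obtain ⟨a, ha⟩ := exists_algebraicIndependent_of_isStandardSmooth K Γ(A, V) g
  let ψ : Γ(A, V) →ₐ[K] A.functionField :=
    { (A.germToFunctionField V).hom with
      commutes' := fun c => by
        have := congrArg (fun r : K →+* A.functionField => r c) hcomp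
        exact this }
  exact ⟨fun i => ψ (a i), ha.map' (f := ψ) (A.germToFunctionField_injective V)⟩

/-- `g` algebraically independent functions which are regular on the affine open `U` -/
theorem exists_algebraicIndependent_sections (g : ℕ) [SmoothOfRelativeDimension g f]
    [IsIntegral A] (U : A.Opens) (hU : IsAffineOpen U) [Nonempty U] :
    letI : Algebra K A.functionField := (constHom f).toAlgebra
    ∃ x : Fin g → A.functionField, AlgebraicIndependent K x ∧
      ∀ i, x i ∈ Set.range (A.germToFunctionField U) := by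
  letI : Algebra K A.functionField := (constHom f).toAlgebra
  obtain ⟨a, ha⟩ := exists_algebraicIndependent_functionField f g
  haveI := isAlgebraic_adjoin_range (K := K) U hU
  exact exists_algebraicIndependent_mem _ a ha

/-- **G-LOW-INST**: the lower bound `c₁ m ^ g ≤ ell f U m`. -/
theorem growth_lower_of (g : ℕ) [SmoothOfRelativeDimension g f] [IsIntegral A]
    [IsLocallyNoetherian A] (U : A.Opens) (hU : IsAffineOpen U) [Nonempty U]
    (hfinb : {z : A | Order.coheight z = 1 ∧ z ∉ U}.Finite)
    (hfin : ∀ m : ℕ, 1 ≤ m →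
      letI : Algebra K A.functionField := (constHom f).toAlgebra
      Module.Finite K (Submodule.span K (LU U (m : ℤ)))) :
    ∃ c₁ : ℝ, 0 < c₁ ∧ ∀ m : ℕ, 1 ≤ m → c₁ * (m : ℝ) ^ g ≤ (ell f U m : ℝ) := by
  classical
  letI : Algebra K A.functionField := (constHom f).toAlgebra
  obtain ⟨x, hx, hxU⟩ := exists_algebraicIndependent_sections f g U hU
  choose s hs using hxU
  choose k hk using fun i => exists_mem_LU U hfinb (s i)
  set k₀ : ℕ := Finset.univ.sup k with hk₀
  have hxL : ∀ i, x i ∈ (luFilt K U).L k₀ := by
    intro i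
    refine Submodule.subset_span (LU_mono U ?_ (by rw [← hs i]; exact hk i))
    exact_mod_cast Finset.le_sup (f := k) (Finset.mem_univ i)
  refine ⟨1 / ((k₀ * g + 1 : ℕ) : ℝ) ^ g, by positivity, fun m hm => ?_⟩
  haveI : Module.Finite K ((luFilt K U).L m) := hfin m hm
  exact (luFilt K U).growth_lower hx hxL m

end Main

section Stmt

/-- the lower half of `Stmt_G` -/
def Stmt_GLOW : Prop :=
  ∀ (K : Type u) [Field K] [IsAlgClosed K] {A : Scheme.{u}} (f : A ⟶ Spec (CommRingCat.of K))
    (L : RelativeGroupLaw K f) (_hc : L.IsCommutative) (_hA : AbelianSchemePropertyBundle K f)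
    (g : ℕ) [SmoothOfRelativeDimension g f] [IsIntegral A] [IsLocallyNoetherian A]
    (U : A.Opens), IsGoodOpen L U →
    ∃ c₁ : ℝ, 0 < c₁ ∧ ∀ m : ℕ, 1 ≤ m → c₁ * (m : ℝ) ^ g ≤ (ell f U m : ℝ)

/-- a good open is nonempty -/
theorem nonempty_of_isGoodOpen {K : Type u} [Field K] {A : Scheme.{u}}
    {f : A ⟶ Spec (CommRingCat.of K)} {L : RelativeGroupLaw K f} {U : A.Opens}
    (hU : IsGoodOpen L U) : Nonempty U :=
  ⟨⟨_, hU.zero_mem (Classical.arbitrary _)⟩⟩

/-- the lower half of (G) from the finiteness in the upper half -/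
theorem stmt_GLOW_of (hGUP : G.Stmt_GUP.{u}) : Stmt_GLOW.{u} := by
  intro K _ _ A f L hc hA g _ _ _ U hU
  haveI : Nonempty U := nonempty_of_isGoodOpen hU
  haveI : IsProper f := hA.proper
  haveI : CompactSpace A := QuasiCompact.compactSpace_of_compactSpace f
  have hfinb := T.H25.stmt_FINB U inferInstance
  obtain ⟨C, hC⟩ := hGUP K f L hc hA g U hU
  exact growth_lower_of f g U hU.affine hfinb fun m hm => (hC m hm).1

/-- **(G)** from its upper half. -/
theorem stmt_G_of (hGUP : G.Stmt_GUP.{u}) : Stmt_G.{u} := by
  intro K _ _ A f L hc hA g _ _ _ U hU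
  obtain ⟨c₁, hc₁, h1⟩ := stmt_GLOW_of hGUP K f L hc hA g U hU
  obtain ⟨C, hC⟩ := hGUP K f L hc hA g U hU
  refine ⟨c₁, (C : ℝ), hc₁, fun m hm => ⟨h1 m hm, ?_⟩⟩
  have := (hC m hm).2
  exact_mod_cast this

end Stmt

end Fermat.Agent.S26.H36
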