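import Mathlib
import Fermat.Prelude.Def_JacJ1Iface
import Fermat.Prelude.Def_GoodReductionJacobian_RelativeGroupLawKernel

/-!
# S26, leaf M / PTS (helper95): the group of `T`-points of a relative group law, torsion counts

`L : RelativeGroupLaw R f` gives a group structure on every `SchemeHomOver t f` (`pointsGroup`),
commutative if `L.IsCommutative` (`pointsCommGroup`).  In that group
`L.IsTorsionPoint t n x ↔ x ^ n = 1` (`isTorsionPoint_iff`).

Pure group theory (`G` a commutative group, `tors G n = {x | x ^ n = 1}`):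
* `card_tors_mul`  : if `x ↦ x ^ m` is surjective on `G`, then `#G[n m] = #G[n] * #G[m]`
                     (`Nat.card`, no finiteness hypothesis);
* `card_tors_pow`  : if `x ↦ x ^ n` is surjective, `#G[n ^ k] = #G[n] ^ k`.

Statement-level forms for the set of S26 (`torsCount L t n`):
* `torsCount_mul`, `torsCount_pow` : the same for `Nat.card {x // L.IsTorsionPoint t n x}`.
-/

set_option autoImplicit false

namespace Fermat.Agent.S26.H95

open CategoryTheory CategoryTheory.Limits AlgebraicGeometry NeronModelInfra GoodReductionJacobian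

universe u

section GroupTheory

variable {G : Type*} [CommGroup G]

/-- The `n`-torsion subgroup `{x | x ^ n = 1}` of a commutative group. -/
def tors (G : Type*) [CommGroup G] (n : ℕ) : Subgroup G := (powMonoidHom n : G →* G).ker

theorem mem_tors {n : ℕ} {x : G} : x ∈ tors G n ↔ x ^ n = 1 := by
  simp [tors, MonoidHom.mem_ker]

/-- `x ↦ x ^ m` as a homomorphism `G[n m] → G[n]`. -/
def torsPow (G : Type*) [CommGroup G] (n m : ℕ) : tors G (n * m) →* tors G n where
  toFun x := ⟨(x : G) ^ m, by
    have hx := mem_tors.1 x.2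
    rw [mem_tors, ← pow_mul, mul_comm m n]
    exact hx⟩
  map_one' := by ext; simp
  map_mul' x y := by ext; simp [mul_pow]

theorem torsPow_surjective {n m : ℕ} (hsurj : Function.Surjective (fun x : G => x ^ m)) :
    Function.Surjective (torsPow G n m) := by
  rintro ⟨y, hy⟩
  obtain ⟨x, hx⟩ := hsurj y
  have hx' : x ^ m = y := hx
  refine ⟨⟨x, ?_⟩, ?_⟩
  · rw [mem_tors, mul_comm, pow_mul, hx']
    exact mem_tors.1 hy
  · ext
    exact hx'

/-- The kernel of `G[n m] → G[n]` is (a copy of) `G[m]`. -/
def kerTorsPowEquiv (n m : ℕ) : (torsPow G n m).ker ≃ tors G m where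
  toFun x := ⟨((x : tors G (n * m)) : G), by
    have hx := x.2
    rw [MonoidHom.mem_ker] at hx
    have h2 : (((torsPow G n m) (x : tors G (n * m)) : tors G n) : G) = 1 := by rw [hx]; rfl
    exact mem_tors.2 h2⟩
  invFun y := ⟨⟨(y : G), by
      have hy := mem_tors.1 y.2
      rw [mem_tors, mul_comm, pow_mul, hy, one_pow]⟩, by
    rw [MonoidHom.mem_ker]
    ext
    exact mem_tors.1 y.2⟩
  left_inv x := by ext; rfl
  right_inv y := by ext; rfl

/-- **Multiplicativity of torsion counts**: if `x ↦ x ^ m` is surjective on `G`, then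
`#G[n m] = #G[n] * #G[m]` (as `Nat.card`; both sides are `0` in the infinite case). -/
theorem card_tors_mul {n m : ℕ} (hsurj : Function.Surjective (fun x : G => x ^ m)) :
    Nat.card (tors G (n * m)) = Nat.card (tors G n) * Nat.card (tors G m) := by
  have h1 := Subgroup.card_mul_index (torsPow G n m).ker
  have h2 : (torsPow G n m).ker.index = Nat.card (tors G n) := by
    rw [Subgroup.index_ker]
    have hr : (torsPow G n m).range = ⊤ :=
      MonoidHom.range_eq_top.2 (torsPow_surjective (n := n) hsurj)
    rw [hr]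
    exact Nat.card_congr (Subgroup.topEquiv (G := tors G n)).toEquiv
  have h3 : Nat.card (torsPow G n m).ker = Nat.card (tors G m) :=
    Nat.card_congr (kerTorsPowEquiv n m)
  rw [← h1, h2, h3, mul_comm]

theorem card_tors_one : Nat.card (tors G 1) = 1 := by
  have : Subsingleton (tors G 1) := by
    constructor
    intro a b
    ext
    have ha := mem_tors.1 a.2
    have hb := mem_tors.1 b.2
    rw [pow_one] at ha hb
    rw [ha, hb]
  exact Nat.card_unique

/-- If `x ↦ x ^ n` is surjective on `G`, then `#G[n ^ k] = #G[n] ^ k`. -/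
theorem card_tors_pow {n : ℕ} (hsurj : Function.Surjective (fun x : G => x ^ n)) (k : ℕ) :
    Nat.card (tors G (n ^ k)) = Nat.card (tors G n) ^ k := by
  induction k with
  | zero => rw [pow_zero, pow_zero]; exact card_tors_one
  | succ k ih =>
      rw [pow_succ, card_tors_mul (n := n ^ k) hsurj, ih, pow_succ]

/-- Surjectivity of `x ↦ x ^ (n m)` from that of `x ↦ x ^ n` and `x ↦ x ^ m`. -/
theorem pow_surjective_mul {n m : ℕ} (hn : Function.Surjective (fun x : G => x ^ n))
    (hm : Function.Surjective (fun x : G => x ^ m)) :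
    Function.Surjective (fun x : G => x ^ (n * m)) := by
  intro y
  obtain ⟨z, hz⟩ := hm y
  obtain ⟨x, hx⟩ := hn z
  refine ⟨x, ?_⟩
  show x ^ (n * m) = y
  rw [pow_mul]
  have hx' : x ^ n = z := hx
  have hz' : z ^ m = y := hz
  rw [hx', hz']

end GroupTheory

section Points

variable {R : Type u} [CommRing R] {A : Scheme.{u}} {f : A ⟶ Spec (CommRingCat.of R)}

/-- The group of `T`-points of a relative group law. -/
@[reducible] def pointsGroup (L : RelativeGroupLaw R f) {T : Scheme.{u}}
    (t : T ⟶ Spec (CommRingCat.of R)) : Group (SchemeHomOver t f) where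
  mul := L.mul t
  one := L.one t
  inv := L.inv t
  mul_assoc := L.mul_assoc t
  one_mul := L.one_mul t
  mul_one := L.mul_one t
  inv_mul_cancel := L.inv_mul_cancel t

/-- The commutative group of `T`-points of a commutative relative group law. -/
@[reducible] def pointsCommGroup (L : RelativeGroupLaw R f) (hc : L.IsCommutative)
    {T : Scheme.{u}} (t : T ⟶ Spec (CommRingCat.of R)) : CommGroup (SchemeHomOver t f) :=
  { pointsGroup L t with mul_comm := fun x y => hc t x y }

theorem pointsGroup_mul (L : RelativeGroupLaw R f) {T : Scheme.{u}}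
    (t : T ⟶ Spec (CommRingCat.of R)) (x y : SchemeHomOver t f) :
    letI := pointsGroup L t
    x * y = L.mul t x y := rfl

theorem pointsGroup_one (L : RelativeGroupLaw R f) {T : Scheme.{u}}
    (t : T ⟶ Spec (CommRingCat.of R)) :
    letI := pointsGroup L t
    (1 : SchemeHomOver t f) = L.one t := rfl

/-- `L.nsmul` is the power of the group of points. -/
theorem nsmul_eq_pow (L : RelativeGroupLaw R f) {T : Scheme.{u}}
    (t : T ⟶ Spec (CommRingCat.of R)) (n : ℕ) (x : SchemeHomOver t f) :
    letI := pointsGroup L t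
    L.nsmul t n x = x ^ n := by
  letI := pointsGroup L t
  induction n with
  | zero => rw [pow_zero]; rfl
  | succ n ih => rw [pow_succ, ← ih]; rfl

theorem isTorsionPoint_iff (L : RelativeGroupLaw R f) {T : Scheme.{u}}
    (t : T ⟶ Spec (CommRingCat.of R)) (n : ℕ) (x : SchemeHomOver t f) :
    letI := pointsGroup L t
    L.IsTorsionPoint t n x ↔ x ^ n = 1 := by
  letI := pointsGroup L t
  rw [RelativeGroupLaw.isTorsionPoint_def, nsmul_eq_pow]
  rfl

/-- The set of S26 is the `n`-torsion subgroup of the group of points. -/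
def torsionEquiv (L : RelativeGroupLaw R f) (hc : L.IsCommutative) {T : Scheme.{u}}
    (t : T ⟶ Spec (CommRingCat.of R)) (n : ℕ) :
    letI := pointsCommGroup L hc t
    {x : SchemeHomOver t f // L.IsTorsionPoint t n x} ≃ tors (SchemeHomOver t f) n :=
  letI := pointsCommGroup L hc t
  { toFun := fun x => ⟨x.1, mem_tors.2 ((isTorsionPoint_iff L t n x.1).1 x.2)⟩
    invFun := fun x => ⟨x.1, (isTorsionPoint_iff L t n x.1).2 (mem_tors.1 x.2)⟩
    left_inv := fun _ => rfl
    right_inv := fun _ => rfl }

/-- The number of `n`-torsion `T`-points (the left-hand side of S26 for `t = 𝟙`). -/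
noncomputable def torsCount (L : RelativeGroupLaw R f) {T : Scheme.{u}}
    (t : T ⟶ Spec (CommRingCat.of R)) (n : ℕ) : ℕ :=
  Nat.card {x : SchemeHomOver t f // L.IsTorsionPoint t n x}

theorem torsCount_eq (L : RelativeGroupLaw R f) (hc : L.IsCommutative) {T : Scheme.{u}}
    (t : T ⟶ Spec (CommRingCat.of R)) (n : ℕ) :
    letI := pointsCommGroup L hc t
    torsCount L t n = Nat.card (tors (SchemeHomOver t f) n) :=
  Nat.card_congr (torsionEquiv L hc t n)

/-- `[m]` is surjective on `T`-points. -/
def NsmulSurj (L : RelativeGroupLaw R f) {T : Scheme.{u}}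
    (t : T ⟶ Spec (CommRingCat.of R)) (m : ℕ) : Prop :=
  ∀ y : SchemeHomOver t f, ∃ x : SchemeHomOver t f, L.nsmul t m x = y

theorem NsmulSurj.pow_surjective {L : RelativeGroupLaw R f} {T : Scheme.{u}}
    {t : T ⟶ Spec (CommRingCat.of R)} {m : ℕ} (h : NsmulSurj L t m) :
    letI := pointsGroup L t
    Function.Surjective (fun x : SchemeHomOver t f => x ^ m) := by
  letI := pointsGroup L t
  intro y
  obtain ⟨x, hx⟩ := h y
  exact ⟨x, by rw [← hx, nsmul_eq_pow]⟩

/-- **(M)** `#A[n m](T) = #A[n](T) * #A[m](T)` if `[m]` is surjective on `T`-points. -/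
theorem torsCount_mul (L : RelativeGroupLaw R f) (hc : L.IsCommutative) {T : Scheme.{u}}
    (t : T ⟶ Spec (CommRingCat.of R)) (n m : ℕ) (hm : NsmulSurj L t m) :
    torsCount L t (n * m) = torsCount L t n * torsCount L t m := by
  letI := pointsCommGroup L hc t
  rw [torsCount_eq L hc, torsCount_eq L hc, torsCount_eq L hc]
  exact card_tors_mul (n := n) (m := m) hm.pow_surjective

/-- **(M)** `#A[n ^ k](T) = #A[n](T) ^ k` if `[n]` is surjective on `T`-points. -/
theorem torsCount_pow (L : RelativeGroupLaw R f) (hc : L.IsCommutative) {T : Scheme.{u}}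
    (t : T ⟶ Spec (CommRingCat.of R)) (n : ℕ) (hn : NsmulSurj L t n) (k : ℕ) :
    torsCount L t (n ^ k) = torsCount L t n ^ k := by
  letI := pointsCommGroup L hc t
  rw [torsCount_eq L hc, torsCount_eq L hc]
  exact card_tors_pow (n := n) hn.pow_surjective k

theorem NsmulSurj.mul {L : RelativeGroupLaw R f} (hc : L.IsCommutative) {T : Scheme.{u}}
    {t : T ⟶ Spec (CommRingCat.of R)} {n m : ℕ} (hn : NsmulSurj L t n) (hm : NsmulSurj L t m) :
    NsmulSurj L t (n * m) := by
  letI := pointsCommGroup L hc t
  intro y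
  obtain ⟨x, hx⟩ := pow_surjective_mul (n := n) (m := m) hn.pow_surjective hm.pow_surjective y
  exact ⟨x, by rw [nsmul_eq_pow]; exact hx⟩

theorem NsmulSurj.pow {L : RelativeGroupLaw R f} (hc : L.IsCommutative) {T : Scheme.{u}}
    {t : T ⟶ Spec (CommRingCat.of R)} {n : ℕ} (hn : NsmulSurj L t n) (k : ℕ) :
    NsmulSurj L t (n ^ k) := by
  induction k with
  | zero =>
      intro y
      refine ⟨y, ?_⟩
      rw [pow_zero]
      exact RelativeGroupLaw.nsmul_one_apply L t y
  | succ k ih =>
      rw [pow_succ]
      exact ih.mul hc hn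

end Points

end Fermat.Agent.S26.H95
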