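/-
S26 (row 25): **(M)** `Stmt_M` from the surjectivity of `[n]` on `K`-points (`E.Stmt_E_PSURJ`),
and the consequences used by the assembly: `torsCard L 1 = 1`, `torsCard L (n ^ k) = torsCard L n ^ k`,
`torsCard L n = ([n]).finrank y` (helper95).
-/
import Fermat.Agent.S26.Defs
import Fermat.Agent.S26.H95_Points
import Fermat.Agent.S26.E.Defs

set_option autoImplicit false

open CategoryTheory CategoryTheory.Limits AlgebraicGeometry NeronModelInfra GoodReductionJacobian

universe u

namespace Fermat.Agent.S26.H95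

variable {K : Type u} [Field K] {A : Scheme.{u}} {f : A ⟶ Spec (CommRingCat.of K)}

theorem torsCard_eq_torsCount (L : RelativeGroupLaw K f) (n : ℕ) :
    torsCard L n = torsCount L (𝟙 (Spec (CommRingCat.of K))) n := rfl

/-- `#A[1] = 1`. -/
theorem torsCard_one (L : RelativeGroupLaw K f) (hc : L.IsCommutative) : torsCard L 1 = 1 := by
  let _ := pointsCommGroup L hc (𝟙 (Spec (CommRingCat.of K)))
  rw [torsCard_eq_torsCount, torsCount_eq L hc]
  exact card_tors_one

/-- `#A[n m] = #A[n] #A[m]` if `[m]` is surjective on `K`-points. -/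
theorem torsCard_mul (L : RelativeGroupLaw K f) (hc : L.IsCommutative) (n m : ℕ)
    (hm : NsmulSurj L (𝟙 (Spec (CommRingCat.of K))) m) :
    torsCard L (n * m) = torsCard L n * torsCard L m :=
  torsCount_mul L hc _ n m hm

/-- `#A[n ^ k] = #A[n] ^ k` if `[n]` is surjective on `K`-points. -/
theorem torsCard_pow (L : RelativeGroupLaw K f) (hc : L.IsCommutative) (n : ℕ)
    (hn : NsmulSurj L (𝟙 (Spec (CommRingCat.of K))) n) (k : ℕ) :
    torsCard L (n ^ k) = torsCard L n ^ k :=
  torsCount_pow L hc _ n hn k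

/-- **(M)** from (E-PSURJ). -/
theorem stmt_M_of_psurj (h : E.Stmt_E_PSURJ.{u}) : Stmt_M.{u} := by
  intro K _ _ A f L hc hA n m _ hm
  exact torsCard_mul L hc n m (h K f L ⟨inferInstance, hc, hA⟩ m hm)

/-- the power form of **(M)** from (E-PSURJ), as used in the assembly (`H46.deg_eq_pow`). -/
theorem torsCard_pow_of_psurj (h : E.Stmt_E_PSURJ.{u})
    (K : Type u) [Field K] [IsAlgClosed K] {A : Scheme.{u}} (f : A ⟶ Spec (CommRingCat.of K))
    (L : RelativeGroupLaw K f) (hc : L.IsCommutative) (hA : AbelianSchemePropertyBundle K f)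
    (n : ℕ) (hn : (n : K) ≠ 0) (k : ℕ) :
    torsCard L (n ^ k) = torsCard L n ^ k :=
  torsCard_pow L hc n (h K f L ⟨inferInstance, hc, hA⟩ n hn) k

/-- the power form of **(M)** from `Stmt_M` alone. -/
theorem torsCard_pow_of_stmt_M (h : Stmt_M.{u})
    (K : Type u) [Field K] [IsAlgClosed K] {A : Scheme.{u}} (f : A ⟶ Spec (CommRingCat.of K))
    (L : RelativeGroupLaw K f) (hc : L.IsCommutative) (hA : AbelianSchemePropertyBundle K f)
    (n : ℕ) (hn : (n : K) ≠ 0) (k : ℕ) :
    torsCard L (n ^ k) = torsCard L n ^ k := by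
  induction k with
  | zero => rw [pow_zero, pow_zero]; exact torsCard_one L hc
  | succ k ih =>
      have hk : ((n ^ k : ℕ) : K) ≠ 0 := by
        rw [Nat.cast_pow]
        exact pow_ne_zero k hn
      rw [pow_succ, h K f L hc hA (n ^ k) n hk hn, ih, pow_succ]

end Fermat.Agent.S26.H95
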