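import Fermat.Agent.S26.H22_CellK

/-!
# S26 leaf CELLK: `Stmt_Ck → Stmt_Cellk` (helper22)
-/

set_option autoImplicit false

open CategoryTheory CategoryTheory.Limits AlgebraicGeometry NeronModelInfra GoodReductionJacobian

universe u

namespace Fermat.Agent.S26.H22

/-- **CELLK**: `Stmt_Ck → Stmt_Cellk`. -/
theorem stmt_Cellk_of : Stmt_Cellk_of.{u} := by
  intro hC K _ _ A f L hc hA g _ _ _ U hU n hn
  obtain ⟨k, hk, h, hh, hord⟩ := hC K f L hc hA g U hU n hn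
  refine ⟨k, hk, fun m => ?_⟩
  exact ell_eq_of_div_k f U ((L.schemeNsmul n) ⁻¹ᵁ U) (k : ℤ) ((k : ℤ) * (n : ℤ) ^ 2) h hh hord m

end Fermat.Agent.S26.H22
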