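import Mathlib

/-!
# S26 (`#A[n] = n ^ (2 g)`), arithmetic of the assembly (helper46)

Route of helper27 (no cohomology): `d n = deg [n]`; growth `c₁ m ^ g ≤ dim L(m D) ≤ c₂ m ^ g`,
trace bounds and `[n]^* D ∼ n² D` give two-sided bounds for `d n`, and the multiplicativity
`d (n ^ k) = d n ^ k` forces `d n = n ^ (2 g)`.  This file contains the pure arithmetic.

* `le_of_forall_mul_pow_le` : `(∀ m ≥ m₂, a * m ^ g ≤ b * (m + m₁) ^ g) → a ≤ b`  (limit `m → ∞`);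
* `le_of_forall_pow_le_mul` : `0 ≤ x`, `0 < y`, `(∀ k, x ^ k ≤ C * y ^ k) → x ≤ y`;
* `eq_of_pow_bounds`        : two-sided bounds for all powers force equality;
* `deg_upper`, `deg_lower`  : the two bounds for `d` from the growth of `ℓ m = dim L(m D)` and
  the trace bounds for `ℓ' m = dim L(m φ^* D) = ℓ (N m)`;
* `deg_eq_pow`              : the assembly: `d n = n ^ (2 g)`.
-/

set_option autoImplicit false

namespace Fermat.Agent.S26.H46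

open Filter Topology

/-- **Limit `m → ∞`**: if `a m ^ g ≤ b (m + m₁) ^ g` for all large `m`, then `a ≤ b`. -/
theorem le_of_forall_mul_pow_le {a b : ℝ} {g m₁ m₂ : ℕ}
    (h : ∀ m : ℕ, m₂ ≤ m → a * (m : ℝ) ^ g ≤ b * ((m : ℝ) + m₁) ^ g) : a ≤ b := by
  have hlim : Tendsto (fun m : ℕ => b * (1 + (m₁ : ℝ) / (m : ℝ)) ^ g) atTop (𝓝 (b * (1 + 0) ^ g)) := by
    have h1 : Tendsto (fun m : ℕ => (m₁ : ℝ) / (m : ℝ)) atTop (𝓝 0) :=
      tendsto_const_div_atTop_nhds_zero_nat (m₁ : ℝ)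
    exact ((tendsto_const_nhds.add h1).pow g).const_mul b
  rw [add_zero, one_pow, mul_one] at hlim
  refine ge_of_tendsto hlim ?_
  filter_upwards [eventually_ge_atTop (max m₂ 1)] with m hm
  have hm2 : m₂ ≤ m := le_trans (le_max_left _ _) hm
  have hm1 : 1 ≤ m := le_trans (le_max_right _ _) hm
  have hmpos : (0 : ℝ) < (m : ℝ) := by exact_mod_cast hm1
  have hpow : (0 : ℝ) < (m : ℝ) ^ g := pow_pos hmpos g
  have key := h m hm2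
  have e : b * (1 + (m₁ : ℝ) / (m : ℝ)) ^ g = b * ((m : ℝ) + m₁) ^ g / (m : ℝ) ^ g := by
    have : 1 + (m₁ : ℝ) / (m : ℝ) = ((m : ℝ) + m₁) / (m : ℝ) := by
      field_simp
    rw [this, div_pow, mul_div_assoc]
  rw [e, le_div_iff₀ hpow]
  exact key

/-- If `x ^ k ≤ C y ^ k` for all `k` (`0 < y`), then `x ≤ y`. -/
theorem le_of_forall_pow_le_mul {x y C : ℝ} (hx : 0 ≤ x) (hy : 0 < y)
    (h : ∀ k : ℕ, x ^ k ≤ C * y ^ k) : x ≤ y := by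
  by_contra hlt
  rw [not_le] at hlt
  have hr : 1 < x / y := by rwa [one_lt_div hy]
  have hlim : Tendsto (fun k : ℕ => (x / y) ^ k) atTop atTop :=
    tendsto_pow_atTop_atTop_of_one_lt hr
  obtain ⟨k, hk⟩ := (hlim.eventually (eventually_gt_atTop C)).exists
  have h1 := h k
  have hyk : (0 : ℝ) < y ^ k := pow_pos hy k
  rw [div_pow, lt_div_iff₀ hyk] at hk
  linarith

/-- Two-sided bounds for all powers force equality. -/
theorem eq_of_pow_bounds {x y C : ℝ} (hx : 0 < x) (hy : 0 < y)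
    (h1 : ∀ k : ℕ, x ^ k ≤ C * y ^ k) (h2 : ∀ k : ℕ, y ^ k ≤ C * x ^ k) : x = y :=
  le_antisymm (le_of_forall_pow_le_mul hx.le hy h1) (le_of_forall_pow_le_mul hy.le hx h2)

/-- **Upper bound for the degree**: growth `c₁ m ^ g ≤ ℓ m ≤ c₂ m ^ g` (`m ≥ 1`) and the trace
bound `d ℓ (m - m₀) ≤ ℓ (N m)` for `m ≥ m₀` give `c₁ d ≤ c₂ N ^ g`. -/
theorem deg_upper {ℓ : ℕ → ℕ} {g N d m₀ : ℕ} {c₁ c₂ : ℝ}
    (hlow : ∀ m : ℕ, 1 ≤ m → c₁ * (m : ℝ) ^ g ≤ ℓ m)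
    (hup : ∀ m : ℕ, 1 ≤ m → (ℓ m : ℝ) ≤ c₂ * (m : ℝ) ^ g)
    (hN : 1 ≤ N)
    (htr : ∀ m : ℕ, m₀ ≤ m → d * ℓ (m - m₀) ≤ ℓ (N * m)) :
    c₁ * d ≤ c₂ * (N : ℝ) ^ g := by
  refine le_of_forall_mul_pow_le (g := g) (m₁ := m₀) (m₂ := 1) fun m hm => ?_
  -- apply the trace bound at `m + m₀`
  have h1 := htr (m + m₀) (Nat.le_add_left _ _)
  rw [Nat.add_sub_cancel] at h1
  have h1' : (d : ℝ) * (ℓ m : ℝ) ≤ (ℓ (N * (m + m₀)) : ℝ) := by exact_mod_cast h1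
  have hpos : 1 ≤ N * (m + m₀) := by
    have : 1 ≤ m + m₀ := le_trans hm (Nat.le_add_right _ _)
    exact Nat.one_le_iff_ne_zero.2 (Nat.mul_ne_zero (Nat.one_le_iff_ne_zero.1 hN)
      (Nat.one_le_iff_ne_zero.1 this))
  have h2 := hup (N * (m + m₀)) hpos
  have h3 := hlow m hm
  have hd : (0 : ℝ) ≤ (d : ℝ) := Nat.cast_nonneg d
  calc c₁ * d * (m : ℝ) ^ g = d * (c₁ * (m : ℝ) ^ g) := by ring
    _ ≤ d * (ℓ m : ℝ) := mul_le_mul_of_nonneg_left h3 hd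
    _ ≤ (ℓ (N * (m + m₀)) : ℝ) := h1'
    _ ≤ c₂ * ((N * (m + m₀) : ℕ) : ℝ) ^ g := h2
    _ = c₂ * (N : ℝ) ^ g * ((m : ℝ) + m₀) ^ g := by
        push_cast
        rw [mul_pow]
        ring

/-- **Lower bound for the degree**: growth and the trace bound `ℓ (N m) ≤ d ℓ (m + m₁)` give
`c₁ N ^ g ≤ c₂ d`. -/
theorem deg_lower {ℓ : ℕ → ℕ} {g N d m₁ : ℕ} {c₁ c₂ : ℝ}
    (hlow : ∀ m : ℕ, 1 ≤ m → c₁ * (m : ℝ) ^ g ≤ ℓ m)
    (hup : ∀ m : ℕ, 1 ≤ m → (ℓ m : ℝ) ≤ c₂ * (m : ℝ) ^ g)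
    (hN : 1 ≤ N)
    (htr : ∀ m : ℕ, 1 ≤ m → ℓ (N * m) ≤ d * ℓ (m + m₁)) :
    c₁ * (N : ℝ) ^ g ≤ c₂ * d := by
  refine le_of_forall_mul_pow_le (g := g) (m₁ := m₁) (m₂ := 1) fun m hm => ?_
  have h1 := htr m hm
  have h1' : (ℓ (N * m) : ℝ) ≤ (d : ℝ) * (ℓ (m + m₁) : ℝ) := by exact_mod_cast h1
  have hpos : 1 ≤ N * m :=
    Nat.one_le_iff_ne_zero.2 (Nat.mul_ne_zero (Nat.one_le_iff_ne_zero.1 hN)
      (Nat.one_le_iff_ne_zero.1 hm))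
  have h2 := hlow (N * m) hpos
  have h3 := hup (m + m₁) (le_trans hm (Nat.le_add_right _ _))
  have hd : (0 : ℝ) ≤ (d : ℝ) := Nat.cast_nonneg d
  calc c₁ * (N : ℝ) ^ g * (m : ℝ) ^ g = c₁ * ((N * m : ℕ) : ℝ) ^ g := by
        push_cast
        rw [mul_pow]
        ring
    _ ≤ (ℓ (N * m) : ℝ) := h2
    _ ≤ d * (ℓ (m + m₁) : ℝ) := h1'
    _ ≤ d * (c₂ * ((m + m₁ : ℕ) : ℝ) ^ g) := mul_le_mul_of_nonneg_left h3 hd
    _ = c₂ * d * ((m : ℝ) + m₁) ^ g := by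
        push_cast
        ring

/-- **The assembly**: a function `d` on a set `S` of integers `≥ 1` stable under powers, with
`d (n ^ k) = d n ^ k` and two-sided bounds `c₁ d n ≤ c₂ n ^ (2 g)`, `c₁ n ^ (2 g) ≤ c₂ d n` with
constants independent of `n ∈ S`, is `n ↦ n ^ (2 g)` on `S`. -/
theorem deg_eq_pow {S : Set ℕ} {d : ℕ → ℕ} {g : ℕ} {c₁ c₂ : ℝ} (hc₁ : 0 < c₁)
    (hS1 : ∀ n ∈ S, 1 ≤ n) (hSpow : ∀ n ∈ S, ∀ k : ℕ, n ^ k ∈ S)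
    (hd0 : ∀ n ∈ S, 1 ≤ d n)
    (hmul : ∀ n ∈ S, ∀ k : ℕ, d (n ^ k) = d n ^ k)
    (hupper : ∀ n ∈ S, c₁ * (d n : ℝ) ≤ c₂ * ((n : ℝ) ^ 2) ^ g)
    (hlower : ∀ n ∈ S, c₁ * ((n : ℝ) ^ 2) ^ g ≤ c₂ * (d n : ℝ))
    (n : ℕ) (hn : n ∈ S) : d n = n ^ (2 * g) := by
  have hx : (0 : ℝ) < (d n : ℝ) := by exact_mod_cast hd0 n hn
  have hy : (0 : ℝ) < ((n : ℝ) ^ 2) ^ g := by
    have : (0 : ℝ) < (n : ℝ) := by exact_mod_cast hS1 n hn
    positivity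
  have key : (d n : ℝ) = ((n : ℝ) ^ 2) ^ g := by
    refine eq_of_pow_bounds (C := c₂ / c₁) hx hy (fun k => ?_) (fun k => ?_)
    · have h1 := hupper (n ^ k) (hSpow n hn k)
      rw [hmul n hn k] at h1
      push_cast at h1
      rw [div_mul_eq_mul_div, le_div_iff₀ hc₁]
      calc (d n : ℝ) ^ k * c₁ = c₁ * (d n : ℝ) ^ k := by ring
        _ ≤ c₂ * (((n : ℝ) ^ k) ^ 2) ^ g := h1
        _ = c₂ * (((n : ℝ) ^ 2) ^ g) ^ k := by
            congr 1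
            rw [← pow_mul, ← pow_mul, ← pow_mul, ← pow_mul]
            congr 1
            ring
    · have h1 := hlower (n ^ k) (hSpow n hn k)
      rw [hmul n hn k] at h1
      push_cast at h1
      rw [div_mul_eq_mul_div, le_div_iff₀ hc₁]
      calc (((n : ℝ) ^ 2) ^ g) ^ k * c₁ = c₁ * (((n : ℝ) ^ k) ^ 2) ^ g := by
            rw [mul_comm]
            congr 1
            rw [← pow_mul, ← pow_mul, ← pow_mul, ← pow_mul]
            congr 1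
            ring
        _ ≤ c₂ * (d n : ℝ) ^ k := h1
  have key' : ((d n : ℕ) : ℝ) = ((n ^ (2 * g) : ℕ) : ℝ) := by
    rw [key]
    push_cast
    rw [pow_mul]
  exact_mod_cast key'

end Fermat.Agent.S26.H46
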