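import Fermat.Agent.S26.Defs
import Fermat.Agent.S26.H46_Arith

/-!
# S26, leaf ASM (helper46): the assembly

`stmt_ASMk : Stmt_ASMk` : from BR (integral, locally noetherian), EX (a good open `U`),
M (`#A[n m] = #A[n] #A[m]`), G (`c₁ m ^ g ≤ ell U m ≤ c₂ m ^ g`), T (the two bounds for `[n]`)
and Cellk (`ell ([n]⁻¹ U) (k m) = ell U (k n² m)` for one `k ≥ 1` depending on `n`):
`#A[n] = n ^ (2 g)` for `n` invertible in `K`.  `stmt_ASM : Stmt_ASM` is the case `k = 1`.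

The arithmetic is `H46.le_of_forall_mul_pow_le`, `H46.deg_eq_pow` (`S26/H46_Arith.lean`).
-/

set_option autoImplicit false
set_option linter.style.haveILetI false
set_option linter.unusedVariables false

open CategoryTheory CategoryTheory.Limits AlgebraicGeometry NeronModelInfra GoodReductionJacobian

universe u

namespace Fermat.Agent.S26.H46

section Abs

variable (ℓ : ℤ → ℕ) {g : ℕ} {c₁ c₂ : ℝ}

/-- Upper bound for the degree, torsion-tolerant form: growth and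
`d ℓ (k m - m₀) ≤ ℓ (k N m)` give `c₁ d ≤ c₂ N ^ g`. -/
theorem deg_upper_k (hc₁ : 0 < c₁)
    (hG : ∀ m : ℕ, 1 ≤ m → c₁ * (m : ℝ) ^ g ≤ (ℓ m : ℝ) ∧ (ℓ m : ℝ) ≤ c₂ * (m : ℝ) ^ g)
    {N d m₀ k : ℕ} (hN : 1 ≤ N) (hk : 0 < k)
    (htr : ∀ m : ℕ, d * ℓ ((k : ℤ) * m - m₀) ≤ ℓ (((k : ℤ) * N) * m)) :
    c₁ * d ≤ c₂ * (N : ℝ) ^ g := by
  have hkR : (0 : ℝ) < (k : ℝ) ^ g := by
    have : (0 : ℝ) < (k : ℝ) := by exact_mod_cast hk
    positivity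
  have key : (c₁ * d) * (k : ℝ) ^ g ≤ (c₂ * (N : ℝ) ^ g) * (k : ℝ) ^ g := by
    refine le_of_forall_mul_pow_le (g := g) (m₁ := m₀) (m₂ := 1) fun m hm => ?_
    -- apply the trace bound at `m + m₀`
    have h1 := htr (m + m₀)
    have hnat : k * (m + m₀) = (k * m + (k - 1) * m₀) + m₀ := by
      obtain ⟨k', rfl⟩ : ∃ k', k = k' + 1 := ⟨k - 1, by omega⟩
      rw [Nat.add_sub_cancel]
      ring
    have hp : (k : ℤ) * ((m + m₀ : ℕ) : ℤ) - m₀ = ((k * m + (k - 1) * m₀ : ℕ) : ℤ) := by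
      have h0 : ((k * (m + m₀) : ℕ) : ℤ) = ((k * m + (k - 1) * m₀ : ℕ) : ℤ) + (m₀ : ℤ) := by
        exact_mod_cast hnat
      rw [← Nat.cast_mul, h0, add_sub_cancel_right]
    have hr : ((k : ℤ) * N) * ((m + m₀ : ℕ) : ℤ) = ((k * N * (m + m₀) : ℕ) : ℤ) := by
      push_cast
      ring
    rw [hp, hr] at h1
    have h1' : (d : ℝ) * (ℓ ((k * m + (k - 1) * m₀ : ℕ) : ℤ) : ℝ)
        ≤ (ℓ ((k * N * (m + m₀) : ℕ) : ℤ) : ℝ) := by exact_mod_cast h1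
    have hkm : 1 ≤ k * m := Nat.one_le_iff_ne_zero.2 (Nat.mul_ne_zero hk.ne' (by omega))
    have hp1 : 1 ≤ k * m + (k - 1) * m₀ := le_trans hkm (Nat.le_add_right _ _)
    have hr1 : 1 ≤ k * N * (m + m₀) :=
      Nat.one_le_iff_ne_zero.2
        (Nat.mul_ne_zero (Nat.mul_ne_zero hk.ne' (by omega)) (by omega))
    have h2 := (hG _ hp1).1
    have h3 := (hG _ hr1).2
    have hd : (0 : ℝ) ≤ (d : ℝ) := Nat.cast_nonneg d
    have h4 : ((k * m : ℕ) : ℝ) ^ g ≤ ((k * m + (k - 1) * m₀ : ℕ) : ℝ) ^ g := by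
      apply pow_le_pow_left₀ (Nat.cast_nonneg _)
      exact_mod_cast Nat.le_add_right _ _
    calc c₁ * (d : ℝ) * (k : ℝ) ^ g * (m : ℝ) ^ g
        = (d : ℝ) * (c₁ * ((k * m : ℕ) : ℝ) ^ g) := by push_cast; ring
      _ ≤ (d : ℝ) * (c₁ * ((k * m + (k - 1) * m₀ : ℕ) : ℝ) ^ g) :=
          mul_le_mul_of_nonneg_left (mul_le_mul_of_nonneg_left h4 hc₁.le) hd
      _ ≤ (d : ℝ) * (ℓ ((k * m + (k - 1) * m₀ : ℕ) : ℤ) : ℝ) :=
          mul_le_mul_of_nonneg_left h2 hd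
      _ ≤ (ℓ ((k * N * (m + m₀) : ℕ) : ℤ) : ℝ) := h1'
      _ ≤ c₂ * ((k * N * (m + m₀) : ℕ) : ℝ) ^ g := h3
      _ = c₂ * (N : ℝ) ^ g * (k : ℝ) ^ g * ((m : ℝ) + (m₀ : ℝ)) ^ g := by
          rw [Nat.cast_mul, Nat.cast_mul, Nat.cast_add, mul_pow, mul_pow]
          ring
  exact le_of_mul_le_mul_right key hkR

/-- Lower bound for the degree, torsion-tolerant form: growth and
`ℓ (k N m) ≤ d ℓ (k m + m₁)` give `c₁ N ^ g ≤ c₂ d`. -/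
theorem deg_lower_k (hc₁ : 0 < c₁)
    (hG : ∀ m : ℕ, 1 ≤ m → c₁ * (m : ℝ) ^ g ≤ (ℓ m : ℝ) ∧ (ℓ m : ℝ) ≤ c₂ * (m : ℝ) ^ g)
    {N d m₁ k : ℕ} (hN : 1 ≤ N) (hk : 0 < k)
    (htr : ∀ m : ℕ, ℓ (((k : ℤ) * N) * m) ≤ d * ℓ ((k : ℤ) * m + m₁)) :
    c₁ * (N : ℝ) ^ g ≤ c₂ * d := by
  have hkR : (0 : ℝ) < (k : ℝ) ^ g := by
    have : (0 : ℝ) < (k : ℝ) := by exact_mod_cast hk
    positivity
  have hc₂ : 0 ≤ c₂ := by
    have h := hG 1 le_rfl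
    have h1 : c₁ * ((1 : ℕ) : ℝ) ^ g ≤ c₂ * ((1 : ℕ) : ℝ) ^ g := le_trans h.1 h.2
    simp only [Nat.cast_one, one_pow, mul_one] at h1
    linarith
  have key : (c₁ * (N : ℝ) ^ g) * (k : ℝ) ^ g ≤ (c₂ * d) * (k : ℝ) ^ g := by
    refine le_of_forall_mul_pow_le (g := g) (m₁ := m₁) (m₂ := 1) fun m hm => ?_
    have h1 := htr m
    have hp : (k : ℤ) * (m : ℤ) + m₁ = ((k * m + m₁ : ℕ) : ℤ) := by
      push_cast
      ring
    have hr : ((k : ℤ) * N) * (m : ℤ) = ((k * N * m : ℕ) : ℤ) := by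
      push_cast
      ring
    rw [hp, hr] at h1
    have h1' : (ℓ ((k * N * m : ℕ) : ℤ) : ℝ) ≤ (d : ℝ) * (ℓ ((k * m + m₁ : ℕ) : ℤ) : ℝ) := by
      exact_mod_cast h1
    have hkm : 1 ≤ k * m := Nat.one_le_iff_ne_zero.2 (Nat.mul_ne_zero hk.ne' (by omega))
    have hp1 : 1 ≤ k * m + m₁ := le_trans hkm (Nat.le_add_right _ _)
    have hr1 : 1 ≤ k * N * m :=
      Nat.one_le_iff_ne_zero.2
        (Nat.mul_ne_zero (Nat.mul_ne_zero hk.ne' (by omega)) (by omega))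
    have h2 := (hG _ hr1).1
    have h3 := (hG _ hp1).2
    have hd : (0 : ℝ) ≤ (d : ℝ) := Nat.cast_nonneg d
    have h4 : ((k * m + m₁ : ℕ) : ℝ) ^ g ≤ ((k * (m + m₁) : ℕ) : ℝ) ^ g := by
      apply pow_le_pow_left₀ (Nat.cast_nonneg _)
      have : k * m + m₁ ≤ k * (m + m₁) := by
        rw [Nat.mul_add]
        exact Nat.add_le_add_left (Nat.le_mul_of_pos_left m₁ hk) _
      exact_mod_cast this
    calc c₁ * (N : ℝ) ^ g * (k : ℝ) ^ g * (m : ℝ) ^ g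
        = c₁ * ((k * N * m : ℕ) : ℝ) ^ g := by push_cast; ring
      _ ≤ (ℓ ((k * N * m : ℕ) : ℤ) : ℝ) := h2
      _ ≤ (d : ℝ) * (ℓ ((k * m + m₁ : ℕ) : ℤ) : ℝ) := h1'
      _ ≤ (d : ℝ) * (c₂ * ((k * m + m₁ : ℕ) : ℝ) ^ g) := mul_le_mul_of_nonneg_left h3 hd
      _ ≤ (d : ℝ) * (c₂ * ((k * (m + m₁) : ℕ) : ℝ) ^ g) :=
          mul_le_mul_of_nonneg_left (mul_le_mul_of_nonneg_left h4 hc₂) hd
      _ = c₂ * (d : ℝ) * (k : ℝ) ^ g * ((m : ℝ) + (m₁ : ℝ)) ^ g := by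
          rw [Nat.cast_mul, Nat.cast_add, mul_pow]
          ring
  exact le_of_mul_le_mul_right key hkR

/-- The abstract assembly: a function `d` on the integers invertible in `K`, multiplicative, with
the two bounds of (T) for a function `ℓ` (on `ℤ`) of growth `m ^ g` and with
`ℓ' n (k m) = ℓ (k n² m)` for one `k ≥ 1` (depending on `n`), is `n ↦ n ^ (2 g)`. -/
theorem asm_abs_k {K : Type*} [Field K] (d : ℕ → ℕ) (ℓ' : ℕ → ℤ → ℕ)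
    (hM : ∀ n m : ℕ, (n : K) ≠ 0 → (m : K) ≠ 0 → d (n * m) = d n * d m)
    (hc₁ : 0 < c₁)
    (hG : ∀ m : ℕ, 1 ≤ m → c₁ * (m : ℝ) ^ g ≤ (ℓ m : ℝ) ∧ (ℓ m : ℝ) ≤ c₂ * (m : ℝ) ^ g)
    (hT : ∀ n : ℕ, (n : K) ≠ 0 → ∃ m₀ m₁ : ℕ, ∀ m : ℕ,
      d n * ℓ ((m : ℤ) - m₀) ≤ ℓ' n m ∧ ℓ' n m ≤ d n * ℓ ((m : ℤ) + m₁))
    (hC : ∀ n : ℕ, (n : K) ≠ 0 → ∃ k : ℕ, 0 < k ∧ ∀ m : ℕ,
      ℓ' n ((k : ℤ) * m) = ℓ (((k : ℤ) * (n : ℤ) ^ 2) * m))
    (n : ℕ) (hn : (n : K) ≠ 0) : d n = n ^ (2 * g) := by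
  have hS1 : ∀ n ∈ {n : ℕ | (n : K) ≠ 0}, 1 ≤ n := by
    intro n hn
    rcases Nat.eq_zero_or_pos n with h | h
    · exact absurd (by rw [h]; exact Nat.cast_zero) hn
    · exact h
  have hupper : ∀ n ∈ {n : ℕ | (n : K) ≠ 0}, c₁ * (d n : ℝ) ≤ c₂ * ((n : ℝ) ^ 2) ^ g := by
    intro n hn
    obtain ⟨m₀, m₁, h⟩ := hT n hn
    obtain ⟨k, hk, hCk⟩ := hC n hn
    have h1 := deg_upper_k ℓ (g := g) (N := n ^ 2) (d := d n) (m₀ := m₀) (k := k) hc₁ hG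
      (Nat.one_le_pow _ _ (hS1 n hn)) hk (fun m => by
        have h2 := (h (k * m)).1
        have e1 : ((k * m : ℕ) : ℤ) = (k : ℤ) * m := by push_cast; rfl
        rw [e1, hCk m] at h2
        have e2 : (k : ℤ) * (n : ℤ) ^ 2 = (k : ℤ) * ((n ^ 2 : ℕ) : ℤ) := by push_cast; rfl
        rw [e2] at h2
        exact h2)
    simpa using h1
  have hlower : ∀ n ∈ {n : ℕ | (n : K) ≠ 0}, c₁ * ((n : ℝ) ^ 2) ^ g ≤ c₂ * (d n : ℝ) := by
    intro n hn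
    obtain ⟨m₀, m₁, h⟩ := hT n hn
    obtain ⟨k, hk, hCk⟩ := hC n hn
    have h1 := deg_lower_k ℓ (g := g) (N := n ^ 2) (d := d n) (m₁ := m₁) (k := k) hc₁ hG
      (Nat.one_le_pow _ _ (hS1 n hn)) hk (fun m => by
        have h2 := (h (k * m)).2
        have e1 : ((k * m : ℕ) : ℤ) = (k : ℤ) * m := by push_cast; rfl
        rw [e1, hCk m] at h2
        have e2 : (k : ℤ) * (n : ℤ) ^ 2 = (k : ℤ) * ((n ^ 2 : ℕ) : ℤ) := by push_cast; rfl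
        rw [e2] at h2
        exact h2)
    simpa using h1
  have hd0 : ∀ n ∈ {n : ℕ | (n : K) ≠ 0}, 1 ≤ d n := by
    intro n hn
    rcases Nat.eq_zero_or_pos (d n) with h | h
    · exfalso
      have h1 := hlower n hn
      rw [h, Nat.cast_zero, mul_zero] at h1
      have h2 : (0 : ℝ) < (n : ℝ) := by exact_mod_cast hS1 n hn
      have h3 : (0 : ℝ) < c₁ * ((n : ℝ) ^ 2) ^ g := by positivity
      linarith
    · exact h
  have h1K : ((1 : ℕ) : K) ≠ 0 := by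
    rw [Nat.cast_one]
    exact one_ne_zero
  have hd1 : d 1 = 1 := by
    have h1 := hM 1 1 h1K h1K
    rw [mul_one] at h1
    have h2 := hd0 1 h1K
    have h3 : d 1 * 1 = d 1 * d 1 := by rw [mul_one]; exact h1
    exact (Nat.eq_of_mul_eq_mul_left (Nat.lt_of_lt_of_le Nat.zero_lt_one h2) h3).symm
  have hSpow : ∀ n ∈ {n : ℕ | (n : K) ≠ 0}, ∀ k : ℕ, n ^ k ∈ {n : ℕ | (n : K) ≠ 0} := by
    intro n hn k
    show ((n ^ k : ℕ) : K) ≠ 0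
    rw [Nat.cast_pow]
    exact pow_ne_zero k hn
  have hmul : ∀ n ∈ {n : ℕ | (n : K) ≠ 0}, ∀ k : ℕ, d (n ^ k) = d n ^ k := by
    intro n hn k
    induction k with
    | zero => rw [pow_zero, pow_zero, hd1]
    | succ k ih => rw [pow_succ, hM (n ^ k) n (hSpow n hn k) hn, ih, pow_succ]
  exact deg_eq_pow (S := {n : ℕ | (n : K) ≠ 0}) hc₁ hS1 hSpow hd0 hmul hupper hlower n hn

end Abs

/-- **ASMk**: the assembly of S26 (torsion-tolerant form). -/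
theorem stmt_ASMk : Stmt_ASMk.{u} := by
  intro hBR hEX hM hG hT hCell K _ _ A f L hc hA g _ n hn
  obtain ⟨hInt, hNoe⟩ := hBR K f L hA
  haveI := hInt
  haveI := hNoe
  obtain ⟨U, hU⟩ := hEX K f L hA
  obtain ⟨c₁, c₂, hc₁, hG'⟩ := hG K f L hc hA g U hU
  exact asm_abs_k (K := K) (fun m => ell f U m) (torsCard L)
    (fun n m => ell f ((L.schemeNsmul n) ⁻¹ᵁ U) m)
    (fun n m hn hm => hM K f L hc hA n m hn hm) hc₁ hG'
    (fun n hn => hT K f L hc hA g U hU n hn)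
    (fun n hn => hCell K f L hc hA g U hU n hn) n hn

/-- **ASM**: the assembly of S26. -/
theorem stmt_ASM : Stmt_ASM.{u} :=
  fun hBR hEX hM hG hT hCell => stmt_ASMk hBR hEX hM hG hT (stmt_Cellk_of_Cell hCell)

end Fermat.Agent.S26.H46
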