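/-
S26 (row 25): **(M)** unconditional: `stmt_M : Stmt_M`, and the power form used by the assembly.
-/
import Fermat.Agent.S26.H95_M
import Fermat.Agent.S26.E.H95_Final

set_option autoImplicit false

open CategoryTheory CategoryTheory.Limits AlgebraicGeometry NeronModelInfra GoodReductionJacobian

universe u

namespace Fermat.Agent.S26.H95

/-- **(M)**: `#A[n m] = #A[n] #A[m]` for `n`, `m` invertible in `K`. -/
theorem stmt_M : Stmt_M.{u} := stmt_M_of_psurj E.H95.stmt_E_PSURJ

/-- `#A[n ^ k] = #A[n] ^ k` for `n` invertible in `K`. -/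
theorem torsCard_pow_final
    (K : Type u) [Field K] [IsAlgClosed K] {A : Scheme.{u}} (f : A ⟶ Spec (CommRingCat.of K))
    (L : RelativeGroupLaw K f) (hc : L.IsCommutative) (hA : AbelianSchemePropertyBundle K f)
    (n : ℕ) (hn : (n : K) ≠ 0) (k : ℕ) :
    torsCard L (n ^ k) = torsCard L n ^ k :=
  torsCard_pow_of_psurj E.H95.stmt_E_PSURJ K f L hc hA n hn k

/-- `#A[n](K)` is the rank of the finite étale morphism `[n]` at every point. -/
theorem torsCard_eq_finrank
    (K : Type u) [Field K] [IsAlgClosed K] {A : Scheme.{u}} (f : A ⟶ Spec (CommRingCat.of K))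
    (L : RelativeGroupLaw K f) (hc : L.IsCommutative) (hA : AbelianSchemePropertyBundle K f)
    (n : ℕ) (hn : (n : K) ≠ 0) (y : A) :
    torsCard L n = (L.schemeNsmul n).finrank y :=
  E.H95.stmt_E_COUNT K f L ⟨inferInstance, hc, hA⟩ n hn y

/-- `#A[n](K) ≥ 1`. -/
theorem one_le_torsCard
    (K : Type u) [Field K] [IsAlgClosed K] {A : Scheme.{u}} (f : A ⟶ Spec (CommRingCat.of K))
    (L : RelativeGroupLaw K f) (hc : L.IsCommutative) (hA : AbelianSchemePropertyBundle K f)
    (n : ℕ) (hn : (n : K) ≠ 0) : 1 ≤ torsCard L n := by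
  have hL : E.IsAV K f L := ⟨inferInstance, hc, hA⟩
  have h1 : Etale (L.schemeNsmul n) := E.H14.stmt_E_ETALE K f L hL n hn
  have h2 : IsFinite (L.schemeNsmul n) := E.H95.stmt_E_FIN K f L hL n hn
  have h3 : Surjective (L.schemeNsmul n) := E.H95.stmt_E_SURJ K f L hL n hn
  rw [torsCard_eq_finrank K f L hc hA n hn ((L.one (𝟙 _)).1 (Classical.arbitrary _))]
  exact (Scheme.Hom.one_le_finrank_iff_surjective (L.schemeNsmul n)).2 h3 _

end Fermat.Agent.S26.H95
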