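/-
S26 (row 25): INTEGRATION of the whole route (helper95).

`stmt_S26_of_pcore_lfd : C.Stmt_PCORE → C.Stmt_LFD → Stmt_S26`: everything except the cube side
(`C.Stmt_PCORE`) and the local equations of the boundary divisor (`C.Stmt_LFD`, from LF) is
plugged in:
BR (`H39`), EX (`H55`), M (`H95`), G and T (`G.H21`), Cellk (`H22`), the language of Cartier
divisors (`C.H14`, `C.H90`, `C.H22`), CKASM2 (`C.H95`), CORE from PCORE (`C.H42c`), ASMk (`H46`).
-/
import Fermat.Agent.S26.H39_Br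
import Fermat.Agent.S26.H55_Ex
import Fermat.Agent.S26.H95_MFinal
import Fermat.Agent.S26.G.H21_GFinal
import Fermat.Agent.S26.H22_CellkOf
import Fermat.Agent.S26.H46_Asm
import Fermat.Agent.S26.C.H14_Pull
import Fermat.Agent.S26.C.H90_WeilFinal
import Fermat.Agent.S26.C.H22_WeilEt
import Fermat.Agent.S26.C.H95_CkAsm2
import Fermat.Agent.S26.C.H42_CoreOfPCore

set_option autoImplicit false

open CategoryTheory CategoryTheory.Limits AlgebraicGeometry NeronModelInfra GoodReductionJacobian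

universe u

namespace Fermat.Agent.S26.H95

/-- `CORE` from the cube side. -/
theorem stmt_CORE_of (hP : C.Stmt_PCORE.{u}) : C.Stmt_CORE.{u} :=
  C.H42c.stmt_CORE_of_PCORE C.H14.stmt_PULLC C.H90.stmt_WEILPR hP

/-- `Ck` from the cube side and the local equations of the boundary. -/
theorem stmt_Ck_of (hP : C.Stmt_PCORE.{u}) (hLFD : C.Stmt_LFD.{u}) : Stmt_Ck.{u} :=
  C.H95.stmt_CKASM2 C.H14.stmt_PULLC C.H14.stmt_PULLMUL C.H90.stmt_WEILINJ C.H90.stmt_WEILPR
    C.H22.stmt_WEILET hLFD (stmt_CORE_of hP)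

/-- `Cellk` from the cube side and the local equations of the boundary. -/
theorem stmt_Cellk_of' (hP : C.Stmt_PCORE.{u}) (hLFD : C.Stmt_LFD.{u}) : Stmt_Cellk.{u} :=
  H22.stmt_Cellk_of (stmt_Ck_of hP hLFD)

/-- **S26** from the cube side (`PCORE`) and the local equations of the boundary (`LFD`). -/
theorem stmt_S26_of_pcore_lfd (hP : C.Stmt_PCORE.{u}) (hLFD : C.Stmt_LFD.{u}) : Stmt_S26.{u} :=
  H46.stmt_ASMk H39.stmt_BR H55.stmt_EX stmt_M G.H21.stmt_G G.H21.stmt_T (stmt_Cellk_of' hP hLFD)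

end Fermat.Agent.S26.H95
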