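/-
S26 (row 25): INTEGRATION, final form (helper95):
`stmt_S26_of_pcore : C.Stmt_PCORE → Stmt_S26`.
The only open input of S26 is the cube side `C.Stmt_PCORE` (S26/C/PCore.lean).
-/
import Fermat.Agent.S26.H95_Wire
import Fermat.Agent.S26.C.H9_CkOfPCore

set_option autoImplicit false

open CategoryTheory CategoryTheory.Limits AlgebraicGeometry NeronModelInfra GoodReductionJacobian

universe u

namespace Fermat.Agent.S26.H95

/-- **S26** from the cube side (`PCORE`) alone. -/
theorem stmt_S26_of_pcore (hP : C.Stmt_PCORE.{u}) : Stmt_S26.{u} :=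
  stmt_S26_of_pcore_lfd hP C.H9.stmt_LFD

/-- the frozen shape -/
theorem s26_of_pcore (hP : C.Stmt_PCORE.{u})
    (K : Type u) [Field K] [IsAlgClosed K] {A : Scheme.{u}} (f : A ⟶ Spec (CommRingCat.of K))
    (L : RelativeGroupLaw K f) (hc : L.IsCommutative) (hA : AbelianSchemePropertyBundle K f)
    (g : ℕ) [SmoothOfRelativeDimension g f] (n : ℕ) (hn : (n : K) ≠ 0) :
    Nat.card {x : SchemeHomOver (𝟙 (Spec (CommRingCat.of K))) f //
        L.IsTorsionPoint (𝟙 (Spec (CommRingCat.of K))) n x} = n ^ (2 * g) :=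
  stmt_S26_of_pcore hP K f L hc hA g n hn

end Fermat.Agent.S26.H95
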