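/-
S26 (row 25), crux (C), abstract leaf (helper13): SPECIALISATION OF KERNELS ("seesaw by minors").

`R` a domain, `φ w : R →+* k w` a family of ring homomorphisms to fields ("the points `w`"), `M` a
matrix over `R`.

* `exists_ker_of_dense` : if the family is dense (every `r ≠ 0` is nonzero at some point) and the
  specialised matrix `M_w` has a nontrivial kernel at EVERY point, then `M` has a nontrivial kernel
  over `R` (hence over the fraction field).
* `exists_ker_specialize` : if `M` has a nontrivial kernel over `R`, then `M_w` has a nontrivial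
  kernel at every point `w` (closedness of the locus).
* `ker_dichotomy` : for a dense family, either all `M_w` have a nontrivial kernel, or the points
  where it has one are not dense (they lie in the zero locus of some `δ ≠ 0`).
-/
import Mathlib

set_option autoImplicit false
set_option linter.unusedSectionVars false

open Matrix

namespace Fermat.Agent.S26.H13

variable {R : Type*} [CommRing R] [IsDomain R]
  {m n : Type*} [Fintype m] [Fintype n] [DecidableEq m] [DecidableEq n]

/-- A matrix over a domain which is injective over the fraction field has a left inverse up to a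
nonzero factor. -/
theorem exists_left_inverse_mul (M : Matrix m n R)
    (hM : ∀ v : n → R, M *ᵥ v = 0 → v = 0) :
    ∃ (δ : R) (N : Matrix n m R), δ ≠ 0 ∧ N * M = δ • (1 : Matrix n n R) := by
  classical
  set F := FractionRing R
  set MF : Matrix m n F := M.map (algebraMap R F) with hMF
  -- injectivity over `F`
  have hinj : LinearMap.ker (Matrix.toLin' MF) = ⊥ := by
    rw [LinearMap.ker_eq_bot']
    intro v hv
    -- clear denominators
    obtain ⟨b, hb⟩ := IsLocalization.exist_integer_multiples_of_finite (nonZeroDivisors R) v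
    choose v' hv' using hb
    have hv0 : v' = 0 := by
      apply hM
      have hmap : (algebraMap R F) ∘ (M *ᵥ v') = 0 := by
        have h1 : (fun i => algebraMap R F ((M *ᵥ v') i)) = MF *ᵥ (fun i => algebraMap R F (v' i)) := by
          funext i
          simp only [mulVec, dotProduct, map_sum, map_mul, hMF, Matrix.map_apply]
        funext i
        have h2 : (fun i => algebraMap R F (v' i)) = (b : R) • v := by
          funext i
          rw [hv' i]
          rfl
        have := congrFun h1 i
        simp only [Function.comp_apply, Pi.zero_apply]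
        rw [this, h2, Matrix.mulVec_smul]
        have hv2 : MF *ᵥ v = 0 := by simpa [Matrix.toLin'_apply] using hv
        rw [hv2, smul_zero]
        rfl
      funext i
      have := congrFun hmap i
      simp only [Function.comp_apply, Pi.zero_apply] at this
      exact (IsFractionRing.injective R F) (by rw [this, Pi.zero_apply, map_zero])
    funext i
    have h3 : (b : R) • v i = 0 := by
      rw [← hv' i, hv0]
      simp
    have hb0 : algebraMap R F (b : R) ≠ 0 :=
      IsFractionRing.to_map_ne_zero_of_mem_nonZeroDivisors b.2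
    rw [Algebra.smul_def] at h3
    rcases mul_eq_zero.mp h3 with h | h
    · exact absurd h hb0
    · exact h
  obtain ⟨g, hg⟩ := LinearMap.exists_leftInverse_of_injective (Matrix.toLin' MF) hinj
  set NF : Matrix n m F := LinearMap.toMatrix' g with hNF
  have hNM : NF * MF = 1 := by
    have : LinearMap.toMatrix' (g.comp (Matrix.toLin' MF)) = 1 := by
      rw [hg]
      exact LinearMap.toMatrix'_id
    rw [LinearMap.toMatrix'_comp, LinearMap.toMatrix'_toLin'] at this
    exact this
  -- clear denominators of `NF`
  obtain ⟨b, hb⟩ := IsLocalization.exist_integer_multiples_of_finite (nonZeroDivisors R)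
    (fun ij : n × m => NF ij.1 ij.2)
  choose N' hN' using hb
  refine ⟨(b : R), Matrix.of (fun i j => N' (i, j)), nonZeroDivisors.coe_ne_zero b, ?_⟩
  apply Matrix.map_injective (IsFractionRing.injective R F)
  show ((Matrix.of (fun i j => N' (i, j))) * M).map (algebraMap R F)
    = ((b : R) • (1 : Matrix n n R)).map (algebraMap R F)
  have h1 : (Matrix.of (fun i j => N' (i, j))).map (algebraMap R F) = (b : R) • NF := by
    ext i j
    simp only [Matrix.map_apply, Matrix.of_apply, Matrix.smul_apply]
    exact hN' (i, j)
  have h2 : ((Matrix.of (fun i j => N' (i, j))) * M).map (algebraMap R F)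
      = ((Matrix.of (fun i j => N' (i, j))).map (algebraMap R F)) * MF := by
    rw [hMF, Matrix.map_mul]
  rw [h2, h1, Matrix.smul_mul, hNM]
  ext i j
  simp only [Matrix.map_apply, Matrix.smul_apply, Matrix.one_apply]
  split_ifs
  · simp [Algebra.smul_def]
  · simp

/-- **Specialisation of kernels.**  If `M_w` has a nontrivial kernel at every point of a dense
family of points, then `M` has a nontrivial kernel over `R`. -/
theorem exists_ker_of_dense {ι : Type*} {k : ι → Type*} [∀ w, Field (k w)]
    (φ : ∀ w, R →+* k w) (hdense : ∀ r : R, r ≠ 0 → ∃ w, φ w r ≠ 0)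
    (M : Matrix m n R)
    (hker : ∀ w, ∃ v : n → k w, v ≠ 0 ∧ (M.map (φ w)) *ᵥ v = 0) :
    ∃ v : n → R, v ≠ 0 ∧ M *ᵥ v = 0 := by
  classical
  by_contra hcon
  have hM : ∀ v : n → R, M *ᵥ v = 0 → v = 0 := by
    intro v hv
    by_contra hv0
    exact hcon ⟨v, hv0, hv⟩
  obtain ⟨δ, N, hδ, hNM⟩ := exists_left_inverse_mul M hM
  obtain ⟨w, hw⟩ := hdense δ hδ
  obtain ⟨v, hv0, hv⟩ := hker w
  apply hv0
  have h1 : (N.map (φ w)) * (M.map (φ w)) = (φ w δ) • (1 : Matrix n n (k w)) := by
    rw [← Matrix.map_mul, hNM]
    ext i j
    simp only [Matrix.map_apply, Matrix.smul_apply, Matrix.one_apply, smul_eq_mul]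
    split_ifs
    · simp
    · simp
  have h2 : (N.map (φ w)) *ᵥ ((M.map (φ w)) *ᵥ v) = (φ w δ) • v := by
    rw [Matrix.mulVec_mulVec, h1, Matrix.smul_mulVec, Matrix.one_mulVec]
  rw [hv, Matrix.mulVec_zero] at h2
  have h3 : (φ w δ) • v = 0 := h2.symm
  rcases smul_eq_zero.mp h3 with h | h
  · exact absurd h hw
  · exact h

end Fermat.Agent.S26.H13

namespace Fermat.Agent.S26.H13

variable {R : Type*} [CommRing R] [IsDomain R]
  {m n : Type*} [Fintype m] [Fintype n] [DecidableEq m] [DecidableEq n]

/-- An injective matrix over a field has an invertible maximal square submatrix. -/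
theorem exists_submatrix_det_ne_zero {k : Type*} [Field k] (A : Matrix m n k)
    (hA : ∀ v : n → k, A *ᵥ v = 0 → v = 0) :
    ∃ e : n → m, (A.submatrix e id).det ≠ 0 := by
  classical
  -- the rank is `card n`
  have hinj : Function.Injective A.mulVecLin := by
    rw [← LinearMap.ker_eq_bot, LinearMap.ker_eq_bot']
    intro v hv
    exact hA v (by simpa using hv)
  have hrank : A.rank = Fintype.card n := by
    unfold Matrix.rank
    rw [LinearMap.finrank_range_of_inj hinj, Module.finrank_fintype_fun_eq_card]
  -- the rows span everything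
  have hspan : Submodule.span k (Set.range A.row) = ⊤ := by
    apply Submodule.eq_top_of_finrank_eq
    rw [← Matrix.rank_eq_finrank_span_row, hrank, Module.finrank_fintype_fun_eq_card]
  -- a basis among the rows
  set B := Module.Basis.ofSpan (K := k) (s := Set.range A.row) (le_of_eq hspan.symm) with hB
  have hsub : Set.range B ⊆ Set.range A.row := Module.Basis.ofSpan_subset _
  set eq := B.indexEquiv (Pi.basisFun k n) with heq
  have hrow : ∀ j : n, ∃ i : m, A.row i = B (eq.symm j) := by
    intro j
    have := hsub ⟨eq.symm j, rfl⟩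
    obtain ⟨i, hi⟩ := this
    exact ⟨i, hi⟩
  choose e he using hrow
  refine ⟨e, ?_⟩
  have hli : LinearIndependent k (A.submatrix e id).row := by
    have h1 : (A.submatrix e id).row = fun j => B (eq.symm j) := by
      funext j
      rw [← he j]
      rfl
    rw [h1]
    exact B.linearIndependent.comp _ eq.symm.injective
  have hunit := Matrix.linearIndependent_rows_iff_isUnit.mp hli
  exact ((Matrix.isUnit_iff_isUnit_det _).mp hunit).ne_zero

/-- **Closedness.**  If `M` has a nontrivial kernel over the domain `R`, then every specialisation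
of `M` to a field has a nontrivial kernel. -/
theorem exists_ker_specialize {k : Type*} [Field k] (φ : R →+* k) (M : Matrix m n R)
    (hM : ∃ v : n → R, v ≠ 0 ∧ M *ᵥ v = 0) :
    ∃ v : n → k, v ≠ 0 ∧ (M.map φ) *ᵥ v = 0 := by
  classical
  by_contra hcon
  have hA : ∀ v : n → k, (M.map φ) *ᵥ v = 0 → v = 0 := by
    intro v hv
    by_contra hv0
    exact hcon ⟨v, hv0, hv⟩
  obtain ⟨e, he⟩ := exists_submatrix_det_ne_zero (M.map φ) hA
  obtain ⟨v, hv0, hv⟩ := hM
  -- the minor of `M`
  have hdet : φ (M.submatrix e id).det = ((M.map φ).submatrix e id).det := by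
    rw [RingHom.map_det]
    rfl
  have hδ : (M.submatrix e id).det ≠ 0 := by
    intro h0
    rw [h0, map_zero] at hdet
    exact he hdet.symm
  -- `M.submatrix e id` kills `v`
  have hsv : (M.submatrix e id) *ᵥ v = 0 := by
    funext j
    have := congrFun hv (e j)
    simpa [Matrix.mulVec, Matrix.submatrix] using this
  apply hv0
  have h1 : (M.submatrix e id).det • v = 0 := by
    have h2 := congrArg (fun w => (M.submatrix e id).adjugate *ᵥ w) hsv
    simp only [Matrix.mulVec_mulVec, Matrix.adjugate_mul, Matrix.mulVec_zero,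
      Matrix.smul_mulVec, Matrix.one_mulVec] at h2
    exact h2
  funext j
  have h3 := congrFun h1 j
  simp only [Pi.smul_apply, smul_eq_mul, Pi.zero_apply] at h3
  rcases mul_eq_zero.mp h3 with h | h
  · exact absurd h hδ
  · exact h

/-- **Dichotomy.**  For a dense family of points: either `M` has a nontrivial kernel over `R`,
and then at EVERY point, or there is `δ ≠ 0` such that `M_w` is injective at every point with
`δ(w) ≠ 0`. -/
theorem ker_dichotomy {ι : Type*} {k : ι → Type*} [∀ w, Field (k w)]
    (φ : ∀ w, R →+* k w) (M : Matrix m n R) :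
    ((∃ v : n → R, v ≠ 0 ∧ M *ᵥ v = 0) ∧
        ∀ w, ∃ v : n → k w, v ≠ 0 ∧ (M.map (φ w)) *ᵥ v = 0) ∨
      ∃ δ : R, δ ≠ 0 ∧ ∀ w, φ w δ ≠ 0 → ∀ v : n → k w, (M.map (φ w)) *ᵥ v = 0 → v = 0 := by
  classical
  by_cases hM : ∃ v : n → R, v ≠ 0 ∧ M *ᵥ v = 0
  · exact Or.inl ⟨hM, fun w => exists_ker_specialize (φ w) M hM⟩
  · right
    have hM' : ∀ v : n → R, M *ᵥ v = 0 → v = 0 := by
      intro v hv
      by_contra hv0
      exact hM ⟨v, hv0, hv⟩
    obtain ⟨δ, N, hδ, hNM⟩ := exists_left_inverse_mul M hM'
    refine ⟨δ, hδ, fun w hw v hv => ?_⟩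
    have h1 : (N.map (φ w)) * (M.map (φ w)) = (φ w δ) • (1 : Matrix n n (k w)) := by
      rw [← Matrix.map_mul, hNM]
      ext i j
      simp only [Matrix.map_apply, Matrix.smul_apply, Matrix.one_apply, smul_eq_mul]
      split_ifs
      · simp
      · simp
    have h2 : (N.map (φ w)) *ᵥ ((M.map (φ w)) *ᵥ v) = (φ w δ) • v := by
      rw [Matrix.mulVec_mulVec, h1, Matrix.smul_mulVec, Matrix.one_mulVec]
    rw [hv, Matrix.mulVec_zero] at h2
    rcases smul_eq_zero.mp h2.symm with h | h
    · exact absurd h hw
    · exact h

end Fermat.Agent.S26.H13
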