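import Fermat.Agent.S26.H22_Cell

/-!
# S26 leaf CELL, torsion-tolerant form (helper22)

If `div h = k • D_V - N • D_U`, then `ell V (k m) = ell U (N m)`.
(Use with `N = k n ^ 2` when only `k • ([n]^* D - n ^ 2 D)` is known to be principal.)
-/

set_option autoImplicit false

open CategoryTheory CategoryTheory.Limits AlgebraicGeometry NeronModelInfra GoodReductionJacobian

universe u

namespace Fermat.Agent.S26.H22

variable {K : Type u} [Field K] {A : Scheme.{u}}

open Classical in
theorem mul_pow_mem_LU_k [IsIntegral A] [IsLocallyNoetherian A] (U V : A.Opens) (k N : ℤ)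
    (h : A.functionField) (hh : h ≠ 0)
    (hord : ∀ z : A, Order.coheight z = 1 →
      Scheme.ord h z = k * (if z ∈ V then (0 : ℤ) else 1) - N * (if z ∈ U then (0 : ℤ) else 1))
    (m : ℕ) {φ : A.functionField} (hφ : φ ∈ LU V (k * m)) : h ^ m * φ ∈ LU U (N * m) := by
  rcases hφ with rfl | hφ
  · left; simp
  by_cases hφ0 : φ = 0
  · left; simp [hφ0]
  right
  intro z hz
  have h1 := hφ z hz
  have h2 := hord z hz
  have h3 : Scheme.ord (h ^ m * φ) z = m * Scheme.ord h z + Scheme.ord φ z := by
    rw [Scheme.ord_mul (pow_ne_zero _ hh) hφ0, ord_pow hh]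
  rw [h3]
  constructor
  · intro hzU
    rw [if_pos hzU] at h2
    by_cases hV : z ∈ V
    · rw [if_pos hV] at h2
      have := h1.1 hV
      rw [h2]; linarith
    · rw [if_neg hV] at h2
      have := h1.2 hV
      rw [h2]; linarith
  · intro hzU
    rw [if_neg hzU] at h2
    by_cases hV : z ∈ V
    · rw [if_pos hV] at h2
      have := h1.1 hV
      rw [h2]; linarith
    · rw [if_neg hV] at h2
      have := h1.2 hV
      rw [h2]; linarith

open Classical in
theorem inv_pow_mul_mem_LU_k [IsIntegral A] [IsLocallyNoetherian A] (U V : A.Opens) (k N : ℤ)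
    (h : A.functionField) (hh : h ≠ 0)
    (hord : ∀ z : A, Order.coheight z = 1 →
      Scheme.ord h z = k * (if z ∈ V then (0 : ℤ) else 1) - N * (if z ∈ U then (0 : ℤ) else 1))
    (m : ℕ) {ψ : A.functionField} (hψ : ψ ∈ LU U (N * m)) : (h ^ m)⁻¹ * ψ ∈ LU V (k * m) := by
  rcases hψ with rfl | hψ
  · left; simp
  by_cases hψ0 : ψ = 0
  · left; simp [hψ0]
  right
  intro z hz
  have h1 := hψ z hz
  have h2 := hord z hz
  have h3 : Scheme.ord ((h ^ m)⁻¹ * ψ) z = - (m * Scheme.ord h z) + Scheme.ord ψ z := by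
    rw [Scheme.ord_mul (inv_ne_zero (pow_ne_zero _ hh)) hψ0, ord_inv (pow_ne_zero _ hh),
      ord_pow hh]
  rw [h3]
  constructor
  · intro hV
    rw [if_pos hV] at h2
    by_cases hzU : z ∈ U
    · rw [if_pos hzU] at h2
      have := h1.1 hzU
      rw [h2]; linarith
    · rw [if_neg hzU] at h2
      have := h1.2 hzU
      rw [h2]; linarith
  · intro hV
    rw [if_neg hV] at h2
    by_cases hzU : z ∈ U
    · rw [if_pos hzU] at h2
      have := h1.1 hzU
      rw [h2]; linarith
    · rw [if_neg hzU] at h2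
      have := h1.2 hzU
      rw [h2]; linarith

open Classical in
/-- `ell V (k m) = ell U (N m)` if `div h = k D_V - N D_U`. -/
theorem ell_eq_of_div_k (f : A ⟶ Spec (CommRingCat.of K)) [IsIntegral A] [IsLocallyNoetherian A]
    (U V : A.Opens) (k N : ℤ)
    (h : A.functionField) (hh : h ≠ 0)
    (hord : ∀ z : A, Order.coheight z = 1 →
      Scheme.ord h z = k * (if z ∈ V then (0 : ℤ) else 1) - N * (if z ∈ U then (0 : ℤ) else 1))
    (m : ℕ) : ell f V (k * m) = ell f U (N * m) := by
  unfold ell
  letI : Algebra K A.functionField := (constHom f).toAlgebra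
  have hu : h ^ m ≠ 0 := pow_ne_zero _ hh
  let e : A.functionField ≃ₗ[K] A.functionField :=
    { toFun := fun x => h ^ m * x
      invFun := fun x => (h ^ m)⁻¹ * x
      map_add' := fun x y => mul_add _ _ _
      map_smul' := fun c x => by simp [Algebra.smul_def]; ring
      left_inv := fun x => by simp [← mul_assoc, inv_mul_cancel₀ hu]
      right_inv := fun x => by simp [← mul_assoc, mul_inv_cancel₀ hu] }
  have himg : e '' (LU V (k * m)) = LU U (N * m) := by
    ext ψ
    constructor
    · rintro ⟨φ, hφ, rfl⟩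
      exact mul_pow_mem_LU_k U V k N h hh hord m hφ
    · intro hψ
      refine ⟨(h ^ m)⁻¹ * ψ, inv_pow_mul_mem_LU_k U V k N h hh hord m hψ, ?_⟩
      show h ^ m * ((h ^ m)⁻¹ * ψ) = ψ
      rw [← mul_assoc, mul_inv_cancel₀ hu, one_mul]
  have hmap : (Submodule.span K (LU V (k * m))).map
      (e : A.functionField →ₗ[K] A.functionField) = Submodule.span K (LU U (N * m)) := by
    rw [Submodule.map_span]
    congr 1
  rw [← hmap]
  exact (LinearEquiv.finrank_map_eq e _).symm

end Fermat.Agent.S26.H22
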