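import Mathlib

/-!
# S26 (E1): separability of `F / φ(F)` from surjectivity on the cotangent space (helper22)

Pure commutative algebra (Mathlib only).

Setting: `O` a noetherian local `K`-algebra with residue field `K` (e.g. the local ring of an abelian
variety at the origin), `F` its fraction field, `φ : O → O` a `K`-algebra endomorphism which is
surjective on the cotangent space `m / m ^ 2` (e.g. `[n]^*` with `n` invertible in `K`: it acts as
multiplication by `n`), `Φ : F → F` the induced endomorphism of `F`.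

* `exists_sub_mem_pow` : `O = φ(O) + m ^ k` for every `k`;
* `derivation_eq_zero` : a `K`-derivation `δ : O → F` killing `φ(O)` is zero;
* `formallyUnramified_fieldRange`, `isSeparable_fieldRange`, `finite_fieldRange` :
  `F / Φ(F)` is finite separable.
-/

set_option autoImplicit false

namespace Fermat.Agent.S26.H22

open IsLocalRing

section Local

variable {K O : Type*} [Field K] [CommRing O] [IsLocalRing O] [Algebra K O]

/-- `φ` is local when the residue field is `K`. -/
theorem map_mem_maximalIdeal
    (hres : Function.Surjective (algebraMap K (ResidueField O)))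
    (φ : O →ₐ[K] O) {x : O} (hx : x ∈ maximalIdeal O) : φ x ∈ maximalIdeal O := by
  by_contra h
  -- `φ x` is a unit; write `φ x = c + z` hmm: use the residue field instead
  obtain ⟨c, hc⟩ := hres (residue O (φ x))
  have hc0 : c ≠ 0 := by
    rintro rfl
    rw [map_zero] at hc
    exact h ((residue_eq_zero_iff _).mp hc.symm)
  -- `φ (x - c) ∈ m` but `x - c` is a unit
  have h1 : φ (x - algebraMap K O c) ∈ maximalIdeal O := by
    rw [← residue_eq_zero_iff, map_sub, map_sub, AlgHom.commutes]
    rw [← hc]
    simp [IsScalarTower.algebraMap_apply K O (ResidueField O)]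
  have h2 : IsUnit (x - algebraMap K O c) := by
    have hu : IsUnit (algebraMap K O c) := (isUnit_iff_ne_zero.mpr hc0).map _
    by_contra hnu
    have hm : x - algebraMap K O c ∈ maximalIdeal O := (mem_maximalIdeal _).mpr hnu
    have : algebraMap K O c ∈ maximalIdeal O := by
      have := (maximalIdeal O).sub_mem hx hm
      simpa using this
    exact ((mem_maximalIdeal _).mp this) hu
  exact ((mem_maximalIdeal _).mp h1) (h2.map φ)

theorem map_mem_pow
    (hres : Function.Surjective (algebraMap K (ResidueField O)))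
    (φ : O →ₐ[K] O) (k : ℕ) {x : O} (hx : x ∈ maximalIdeal O ^ k) :
    φ x ∈ maximalIdeal O ^ k := by
  have hle : (maximalIdeal O).map (φ : O →+* O) ≤ maximalIdeal O := by
    rw [Ideal.map_le_iff_le_comap]
    intro y hy
    exact map_mem_maximalIdeal hres φ hy
  have h1 : (maximalIdeal O ^ k).map (φ : O →+* O) ≤ maximalIdeal O ^ k := by
    rw [Ideal.map_pow]
    exact Ideal.pow_right_mono hle k
  exact h1 (Ideal.mem_map_of_mem _ hx)

/-- graded step: every element of `m ^ k` is `φ y` modulo `m ^ (k+1)` with `y ∈ m ^ k`. -/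
theorem exists_sub_mem_pow_succ
    (hres : Function.Surjective (algebraMap K (ResidueField O)))
    (φ : O →ₐ[K] O)
    (hcot : ∀ x ∈ maximalIdeal O, ∃ y ∈ maximalIdeal O, x - φ y ∈ maximalIdeal O ^ 2)
    (k : ℕ) : ∀ z ∈ maximalIdeal O ^ k,
      ∃ y ∈ maximalIdeal O ^ k, z - φ y ∈ maximalIdeal O ^ (k + 1) := by
  induction k with
  | zero =>
    intro z _
    obtain ⟨c, hc⟩ := hres (residue O z)
    refine ⟨algebraMap K O c, by simp, ?_⟩
    rw [zero_add, pow_one, ← residue_eq_zero_iff, map_sub, AlgHom.commutes, ← hc]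
    simp [IsScalarTower.algebraMap_apply K O (ResidueField O)]
  | succ k ih =>
    intro z hz
    rw [pow_succ] at hz
    refine Submodule.mul_induction_on hz ?_ ?_
    · intro a ha b hb
      obtain ⟨a', ha', haa⟩ := ih a ha
      obtain ⟨b', hb', hbb⟩ := hcot b hb
      refine ⟨a' * b', ?_, ?_⟩
      · rw [pow_succ]; exact Ideal.mul_mem_mul ha' hb'
      · have e : a * b - φ (a' * b') = (a - φ a') * b + φ a' * (b - φ b') := by
          rw [map_mul]; ring
        rw [e]
        refine Ideal.add_mem _ ?_ ?_
        · have := Ideal.mul_mem_mul haa hb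
          rwa [← pow_succ] at this
        · have h1 := Ideal.mul_mem_mul (map_mem_pow hres φ k ha') hbb
          rw [← pow_add] at h1
          exact h1
    · intro x y ⟨x', hx', hxx⟩ ⟨y', hy', hyy⟩
      refine ⟨x' + y', Ideal.add_mem _ hx' hy', ?_⟩
      have e : x + y - φ (x' + y') = (x - φ x') + (y - φ y') := by rw [map_add]; ring
      rw [e]
      exact Ideal.add_mem _ hxx hyy

/-- `O = φ(O) + m ^ k` for every `k`. -/
theorem exists_sub_mem_pow
    (hres : Function.Surjective (algebraMap K (ResidueField O)))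
    (φ : O →ₐ[K] O)
    (hcot : ∀ x ∈ maximalIdeal O, ∃ y ∈ maximalIdeal O, x - φ y ∈ maximalIdeal O ^ 2)
    (k : ℕ) (x : O) : ∃ y : O, x - φ y ∈ maximalIdeal O ^ k := by
  induction k with
  | zero => exact ⟨0, by simp⟩
  | succ k ih =>
    obtain ⟨y, hy⟩ := ih
    obtain ⟨y', -, hy'⟩ := exists_sub_mem_pow_succ hres φ hcot k _ hy
    refine ⟨y + y', ?_⟩
    have e : x - φ (y + y') = x - φ y - φ y' := by rw [map_add]; ring
    rw [e]
    exact hy'

/-- the case of "multiplication by `n`" on the cotangent space. -/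
theorem hcot_of_smul
    (φ : O →ₐ[K] O) (c : K) (hc : c ≠ 0)
    (h : ∀ x ∈ maximalIdeal O, φ x - c • x ∈ maximalIdeal O ^ 2) :
    ∀ x ∈ maximalIdeal O, ∃ y ∈ maximalIdeal O, x - φ y ∈ maximalIdeal O ^ 2 := by
  intro x hx
  have hy : c⁻¹ • x ∈ maximalIdeal O := by
    rw [Algebra.smul_def]; exact Ideal.mul_mem_left _ _ hx
  refine ⟨c⁻¹ • x, hy, ?_⟩
  have := h _ hy
  rw [smul_smul, mul_inv_cancel₀ hc, one_smul] at this
  have e : x - φ (c⁻¹ • x) = -(φ (c⁻¹ • x) - x) := by ring
  rw [e]
  exact Ideal.neg_mem_iff _ |>.mpr this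

end Local

section Der

variable {K O F : Type*} [Field K] [CommRing O] [IsLocalRing O] [IsNoetherianRing O]
  [Algebra K O] [Field F] [Algebra O F] [Algebra K F] [IsScalarTower K O F] [IsFractionRing O F]

omit [IsNoetherianRing O] [IsScalarTower K O F] [IsFractionRing O F] in
/-- bounded denominators + Leibniz: `h • δ (m ^ (k+1)) ⊆ m ^ k`. -/
theorem smul_der_mem_pow (δ : Derivation K O F) (h : O)
    (hh : ∀ x : O, ∃ e : O, algebraMap O F e = h • δ x) (k : ℕ) :
    ∀ z ∈ maximalIdeal O ^ (k + 1), ∃ e ∈ maximalIdeal O ^ k, algebraMap O F e = h • δ z := by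
  induction k with
  | zero =>
    intro z _
    obtain ⟨e, he⟩ := hh z
    exact ⟨e, by simp, he⟩
  | succ k ih =>
    intro z hz
    rw [pow_succ] at hz
    refine Submodule.mul_induction_on hz ?_ ?_
    · intro a ha b hb
      obtain ⟨ea, hea, hea'⟩ := ih a ha
      obtain ⟨eb, heb'⟩ := hh b
      refine ⟨a * eb + b * ea, ?_, ?_⟩
      · refine Ideal.add_mem _ (Ideal.mul_mem_right _ _ ha) ?_
        have h1 := Ideal.mul_mem_mul hea hb
        rw [← pow_succ] at h1
        rwa [mul_comm] at h1
      · rw [Derivation.leibniz, smul_add, map_add, map_mul, map_mul, heb', hea']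
        simp only [Algebra.smul_def]
        ring
    · intro x y ⟨ex, hex, hex'⟩ ⟨ey, hey, hey'⟩
      exact ⟨ex + ey, Ideal.add_mem _ hex hey, by rw [map_add, map_add, smul_add, hex', hey']⟩

/-- **Key lemma.** A `K`-derivation `O → F` which kills `φ(O)` is zero, if `φ` is surjective on the
cotangent space. -/
theorem derivation_eq_zero [Algebra.EssFiniteType K O]
    (hres : Function.Surjective (algebraMap K (ResidueField O)))
    (φ : O →ₐ[K] O)
    (hcot : ∀ x ∈ maximalIdeal O, ∃ y ∈ maximalIdeal O, x - φ y ∈ maximalIdeal O ^ 2)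
    (δ : Derivation K O F) (hδ : ∀ y, δ (φ y) = 0) : δ = 0 := by
  classical
  have : IsDomain O := (IsFractionRing.injective O F).isDomain (algebraMap O F)
  -- bounded denominators
  obtain ⟨s, hs⟩ := (Module.Finite.fg_top (R := O) (M := Ω[O⁄K]))
  let ℓ : Ω[O⁄K] →ₗ[O] F := δ.liftKaehlerDifferential
  obtain ⟨b, hb⟩ := IsLocalization.exist_integer_multiples_of_finset (nonZeroDivisors O)
    (s.image ℓ)
  have hbℓ : ∀ ω : Ω[O⁄K], ∃ e : O, algebraMap O F e = (b : O) • ℓ ω := by
    intro ω
    have hω : ω ∈ Submodule.span O (s : Set Ω[O⁄K]) := by rw [hs]; trivial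
    induction hω using Submodule.span_induction with
    | mem x hx =>
      obtain ⟨e, he⟩ := hb (ℓ x) (Finset.mem_image_of_mem _ hx)
      exact ⟨e, he⟩
    | zero => exact ⟨0, by simp⟩
    | add x y _ _ hx hy =>
      obtain ⟨ex, hex⟩ := hx
      obtain ⟨ey, hey⟩ := hy
      exact ⟨ex + ey, by rw [map_add, map_add, smul_add, hex, hey]⟩
    | smul a x _ hx =>
      obtain ⟨ex, hex⟩ := hx
      refine ⟨a * ex, ?_⟩
      rw [map_mul, hex, map_smul, smul_comm, Algebra.smul_def a]
  have hh : ∀ x : O, ∃ e : O, algebraMap O F e = (b : O) • δ x := by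
    intro x
    obtain ⟨e, he⟩ := hbℓ (KaehlerDifferential.D K O x)
    exact ⟨e, by rw [he]; simp [ℓ]⟩
  have hinj : Function.Injective (algebraMap O F) := IsFractionRing.injective O F
  have hb0 : algebraMap O F (b : O) ≠ 0 := by
    intro h0
    have : (b : O) = 0 := hinj (by rw [h0, map_zero])
    exact nonZeroDivisors.coe_ne_zero b this
  ext x
  rw [Derivation.zero_apply]
  obtain ⟨e, he⟩ := hh x
  have he0 : e = 0 := by
    have hmem : e ∈ ⨅ k : ℕ, maximalIdeal O ^ k := by
      rw [Ideal.mem_iInf]
      intro k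
      obtain ⟨y, hy⟩ := exists_sub_mem_pow hres φ hcot (k + 1) x
      obtain ⟨e', he', he''⟩ := smul_der_mem_pow δ (b : O) hh k _ hy
      have : δ (x - φ y) = δ x := by rw [map_sub, hδ, sub_zero]
      rw [this, ← he] at he''
      rw [← hinj he'']
      exact he'
    rw [Ideal.iInf_pow_eq_bot_of_isLocalRing _ (Ideal.IsPrime.ne_top inferInstance)] at hmem
    exact hmem
  rw [he0, map_zero, Algebra.smul_def] at he
  exact (mul_eq_zero.mp he.symm).resolve_left hb0

end Der

section Field

universe u v

variable {K : Type v} {O F : Type u} [Field K] [CommRing O] [IsLocalRing O] [IsNoetherianRing O]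
  [Algebra K O] [Field F] [Algebra O F] [Algebra K F] [IsScalarTower K O F] [IsFractionRing O F]

/-- Every derivation of `F` over `Φ(F)` vanishes. -/
theorem derivation_fieldRange_eq_zero [Algebra.EssFiniteType K O]
    (hres : Function.Surjective (algebraMap K (ResidueField O)))
    (φ : O →ₐ[K] O) (Φ : F →ₐ[K] F)
    (hΦ : ∀ x, Φ (algebraMap O F x) = algebraMap O F (φ x))
    (hcot : ∀ x ∈ maximalIdeal O, ∃ y ∈ maximalIdeal O, x - φ y ∈ maximalIdeal O ^ 2)
    (D : Derivation Φ.fieldRange F F) : D = 0 := by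
  -- restrict to `O`
  let D' : Derivation K F F := D.restrictScalars K
  let δ : Derivation K O F :=
    { toLinearMap := D'.toLinearMap.comp (IsScalarTower.toAlgHom K O F).toLinearMap
      map_one_eq_zero' := by
        show D' (algebraMap O F 1) = 0
        rw [map_one]; exact D'.map_one_eq_zero
      leibniz' := by
        intro a b
        show D' (algebraMap O F (a * b)) = a • D' (algebraMap O F b) + b • D' (algebraMap O F a)
        rw [map_mul, Derivation.leibniz, Algebra.smul_def, Algebra.smul_def]
        simp [Algebra.smul_def] }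
  have hδ : ∀ y, δ (φ y) = 0 := by
    intro y
    show D (algebraMap O F (φ y)) = 0
    rw [← hΦ]
    have : Φ (algebraMap O F y) = algebraMap Φ.fieldRange F ⟨Φ (algebraMap O F y), ⟨_, rfl⟩⟩ := rfl
    rw [this]
    exact D.map_algebraMap _
  have h0 : δ = 0 := derivation_eq_zero hres φ hcot δ hδ
  have hO : ∀ a : O, D (algebraMap O F a) = 0 := by
    intro a
    have := congrArg (fun d : Derivation K O F => d a) h0
    exact this
  ext x
  rw [Derivation.zero_apply]
  obtain ⟨a, b, hb, rfl⟩ := IsFractionRing.div_surjective (A := O) x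
  have hb0 : algebraMap O F b ≠ 0 := by
    intro h
    exact nonZeroDivisors.ne_zero hb ((IsFractionRing.injective O F) (by rw [h, map_zero]))
  have e : algebraMap O F a = (algebraMap O F a / algebraMap O F b) * algebraMap O F b := by
    field_simp
  have := congrArg D e
  rw [hO, Derivation.leibniz, hO, smul_zero, zero_add, smul_eq_mul] at this
  exact (mul_eq_zero.mp this.symm).resolve_left hb0

theorem formallyUnramified_fieldRange [Algebra.EssFiniteType K O]
    (hres : Function.Surjective (algebraMap K (ResidueField O)))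
    (φ : O →ₐ[K] O) (Φ : F →ₐ[K] F)
    (hΦ : ∀ x, Φ (algebraMap O F x) = algebraMap O F (φ x))
    (hcot : ∀ x ∈ maximalIdeal O, ∃ y ∈ maximalIdeal O, x - φ y ∈ maximalIdeal O ^ 2) :
    Algebra.FormallyUnramified Φ.fieldRange F := by
  refine ⟨⟨fun ω₁ ω₂ => ?_⟩⟩
  have key : ∀ ω : Ω[F⁄Φ.fieldRange], ω = 0 := by
    intro ω
    rw [← Module.forall_dual_apply_eq_zero_iff F]
    intro ℓ
    have hω : ω ∈ Submodule.span F (Set.range (KaehlerDifferential.D Φ.fieldRange F)) := by
      rw [KaehlerDifferential.span_range_derivation]; trivial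
    induction hω using Submodule.span_induction with
    | mem x hx =>
      obtain ⟨y, rfl⟩ := hx
      have h0 := derivation_fieldRange_eq_zero hres φ Φ hΦ hcot
        (ℓ.compDer (KaehlerDifferential.D Φ.fieldRange F))
      have := congrArg (fun d : Derivation Φ.fieldRange F F => d y) h0
      simpa using this
    | zero => simp
    | add x y _ _ hx hy => rw [map_add, hx, hy, add_zero]
    | smul a x _ hx => rw [map_smul, hx, smul_zero]
  rw [key ω₁, key ω₂]

omit [IsLocalRing O] [IsNoetherianRing O] in
theorem essFiniteType_fieldRange [Algebra.EssFiniteType K O] (Φ : F →ₐ[K] F) :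
    Algebra.EssFiniteType Φ.fieldRange F := by
  have : Algebra.EssFiniteType O F :=
    Algebra.EssFiniteType.of_isLocalization F (nonZeroDivisors O)
  have : Algebra.EssFiniteType K F := Algebra.EssFiniteType.comp K O F
  exact Algebra.EssFiniteType.of_comp K Φ.fieldRange F

/-- **(E1)** `F / Φ(F)` is separable. -/
theorem isSeparable_fieldRange [Algebra.EssFiniteType K O]
    (hres : Function.Surjective (algebraMap K (ResidueField O)))
    (φ : O →ₐ[K] O) (Φ : F →ₐ[K] F)
    (hΦ : ∀ x, Φ (algebraMap O F x) = algebraMap O F (φ x))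
    (hcot : ∀ x ∈ maximalIdeal O, ∃ y ∈ maximalIdeal O, x - φ y ∈ maximalIdeal O ^ 2) :
    Algebra.IsSeparable Φ.fieldRange F := by
  have := formallyUnramified_fieldRange hres φ Φ hΦ hcot
  have := essFiniteType_fieldRange (O := O) Φ
  exact Algebra.FormallyUnramified.isSeparable Φ.fieldRange F

/-- **(E1)** `F / Φ(F)` is finite. -/
theorem finite_fieldRange [Algebra.EssFiniteType K O]
    (hres : Function.Surjective (algebraMap K (ResidueField O)))
    (φ : O →ₐ[K] O) (Φ : F →ₐ[K] F)
    (hΦ : ∀ x, Φ (algebraMap O F x) = algebraMap O F (φ x))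
    (hcot : ∀ x ∈ maximalIdeal O, ∃ y ∈ maximalIdeal O, x - φ y ∈ maximalIdeal O ^ 2) :
    Module.Finite Φ.fieldRange F := by
  have := formallyUnramified_fieldRange hres φ Φ hΦ hcot
  have := essFiniteType_fieldRange (O := O) Φ
  exact Algebra.FormallyUnramified.finite_of_free Φ.fieldRange F

end Field

end Fermat.Agent.S26.H22
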