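import Mathlib

/-!
# S26, leaf BR — algebra core (helper39)

`exists_isDomain_away` : if `S` is étale over an integrally closed domain `P`, every prime `p`
of `S` has `g ∉ p` such that every localisation of `S` away from `g` is a domain.

Route: `T = S ⊗[P] Frac P` is a finite product of fields, `S ⊂ T` is integrally closed in `T`
(`TensorProduct.toIntegralClosure_bijective_of_smooth`), so the idempotents of `T` lie in `S`.
-/

set_option autoImplicit false

namespace Fermat.Agent.S26.H39

open TensorProduct

universe u

section Alg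

variable (P S : Type u) [CommRing P] [CommRing S] [Algebra P S]

/-- `S` is integrally closed in `S ⊗[P] Frac P` when `P` is an integrally closed domain and `S`
is smooth over `P` (no hypothesis on `S`). -/
theorem exists_of_isIntegral_tensor' [IsDomain P] [IsIntegrallyClosed P] [Algebra.Smooth P S]
    (x : S ⊗[P] FractionRing P) (hx : IsIntegral S x) :
    ∃ s : S, x = s ⊗ₜ[P] (1 : FractionRing P) := by
  have hbij := TensorProduct.toIntegralClosure_bijective_of_smooth (R := P) (S := S)
    (B := FractionRing P)
  obtain ⟨z, hz⟩ := hbij.2 ⟨x, hx⟩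
  have hbot : integralClosure P (FractionRing P) = ⊥ :=
    IsIntegrallyClosed.integralClosure_eq_bot (R := P) (K := FractionRing P)
  have key : ∀ z : S ⊗[P] integralClosure P (FractionRing P),
      ∃ s : S, ((TensorProduct.toIntegralClosure P S (FractionRing P) z :
        integralClosure S (S ⊗[P] FractionRing P)) : S ⊗[P] FractionRing P)
          = s ⊗ₜ[P] (1 : FractionRing P) := by
    intro z
    induction z with
    | zero => exact ⟨0, by simp⟩
    | tmul s b =>
      have hb : (b : FractionRing P) ∈ (⊥ : Subalgebra P (FractionRing P)) := hbot ▸ b.2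
      obtain ⟨p, hp⟩ := Algebra.mem_bot.mp hb
      refine ⟨p • s, ?_⟩
      show (Algebra.TensorProduct.map (AlgHom.id S S)
        (integralClosure P (FractionRing P)).val) (s ⊗ₜ[P] b) = _
      rw [Algebra.TensorProduct.map_tmul]
      show s ⊗ₜ[P] (b : FractionRing P) = _
      rw [← hp, Algebra.algebraMap_eq_smul_one, TensorProduct.tmul_smul, TensorProduct.smul_tmul']
    | add a b ha hb =>
      obtain ⟨s, hs⟩ := ha
      obtain ⟨t, ht⟩ := hb
      refine ⟨s + t, ?_⟩
      rw [map_add, TensorProduct.add_tmul, ← hs, ← ht]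
      rfl
  obtain ⟨s, hs⟩ := key z
  refine ⟨s, ?_⟩
  rw [← hs, hz]

/-- `S → S ⊗[P] Frac P` is injective for `S` flat over the domain `P`. -/
theorem tensor_one_injective [IsDomain P] [Module.Flat P S] :
    Function.Injective (fun s : S => s ⊗ₜ[P] (1 : FractionRing P)) := by
  have h1 : Function.Injective (algebraMap P (FractionRing P)) :=
    IsFractionRing.injective P (FractionRing P)
  have h2 := Module.Flat.lTensor_preserves_injective_linearMap (M := S)
    (Algebra.linearMap P (FractionRing P)) h1
  intro s t hst
  have h3 : (Algebra.linearMap P (FractionRing P)).lTensor S (s ⊗ₜ[P] (1 : P))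
      = (Algebra.linearMap P (FractionRing P)).lTensor S (t ⊗ₜ[P] (1 : P)) := by
    simpa using hst
  have h4 := h2 h3
  have h5 := congrArg (TensorProduct.rid P S) h4
  simpa using h5

/-- If `S` is étale over an integrally closed domain `P`, then every prime of `S` has a basic
open neighbourhood whose ring of functions is a domain. -/
theorem exists_isDomain_away [IsDomain P] [IsIntegrallyClosed P] [Algebra.Etale P S]
    (p : Ideal S) [hp : p.IsPrime] :
    ∃ g : S, g ∉ p ∧ ∀ (S' : Type u) [CommRing S'] [Algebra S S'] [IsLocalization.Away g S'],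
      IsDomain S' := by
  classical
  obtain ⟨I, hI, Ai, hF, hAlg, e, -⟩ :=
    (Algebra.Etale.iff_exists_algEquiv_prod (FractionRing P) (FractionRing P ⊗[P] S)).mp
      inferInstance
  letI := Fintype.ofFinite I
  let c : S ⊗[P] FractionRing P ≃+* FractionRing P ⊗[P] S :=
    (Algebra.TensorProduct.comm P S (FractionRing P)).toRingEquiv
  let E : S ⊗[P] FractionRing P ≃+* (Π i, Ai i) := c.trans e.toRingEquiv
  let ι : S →+* S ⊗[P] FractionRing P :=
    (Algebra.TensorProduct.includeLeft (R := P) (S := P) (A := S) (B := FractionRing P)).toRingHom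
  have hι : ∀ s : S, ι s = s ⊗ₜ[P] (1 : FractionRing P) := fun s => rfl
  let Ψ : S →+* (Π i, Ai i) := E.toRingHom.comp ι
  have hΨdef : ∀ s : S, Ψ s = E (s ⊗ₜ[P] (1 : FractionRing P)) := fun s => rfl
  have hΨ : Function.Injective Ψ := by
    intro a b hab
    have h1 : a ⊗ₜ[P] (1 : FractionRing P) = b ⊗ₜ[P] (1 : FractionRing P) := by
      apply E.injective
      rw [← hΨdef, ← hΨdef, hab]
    exact tensor_one_injective P S h1
  -- the idempotents come from `S`
  have hid : ∀ i : I, ∃ s : S, Ψ s = Pi.single i 1 := by
    intro i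
    have hidem : (Pi.single i (1 : Ai i) : Π i, Ai i) * Pi.single i 1 = Pi.single i 1 := by
      rw [← Pi.single_mul, one_mul]
    have hx : E.symm (Pi.single i 1) * E.symm (Pi.single i 1) = E.symm (Pi.single i 1) := by
      rw [← map_mul, hidem]
    have hint : IsIntegral S (E.symm (Pi.single i 1)) := by
      refine ⟨Polynomial.X ^ 2 - Polynomial.X, Polynomial.monic_X_pow_sub
        (lt_of_le_of_lt Polynomial.degree_X_le (by norm_num)), ?_⟩
      simp only [Polynomial.eval₂_sub, Polynomial.eval₂_pow, Polynomial.eval₂_X]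
      rw [pow_two, hx, sub_self]
    obtain ⟨s, hs⟩ := exists_of_isIntegral_tensor' P S _ hint
    refine ⟨s, ?_⟩
    rw [hΨdef, ← hs, RingEquiv.apply_symm_apply]
  choose s hs using hid
  have hsum : ∑ i, s i = 1 := by
    apply hΨ
    rw [map_sum, map_one]
    simp only [hs]
    exact Finset.univ_sum_single (1 : Π i, Ai i)
  obtain ⟨i, hi⟩ : ∃ i, s i ∉ p := by
    by_contra h
    simp only [not_exists, not_not] at h
    have h1 : (1 : S) ∈ p := hsum ▸ Ideal.sum_mem _ (fun i _ => h i)
    exact hp.ne_top ((Ideal.eq_top_iff_one _).mpr h1)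
  refine ⟨s i, hi, ?_⟩
  intro S' _ _ _
  let φ : S →+* Ai i := (Pi.evalRingHom Ai i).comp Ψ
  have hφdef : ∀ a : S, φ a = Ψ a i := fun a => rfl
  have hφs : φ (s i) = 1 := by
    rw [hφdef, hs, Pi.single_eq_same]
  have hφu : IsUnit (φ (s i)) := by
    rw [hφs]
    exact isUnit_one
  have hL : Function.Injective (IsLocalization.Away.lift (S := S') (s i) hφu) := by
    rw [injective_iff_map_eq_zero]
    intro y hy
    obtain ⟨⟨a, m⟩, h⟩ := IsLocalization.surj (Submonoid.powers (s i)) y
    have hm : IsUnit (algebraMap S S' (m : S)) := IsLocalization.map_units S' m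
    have h2 : φ a = 0 := by
      have h3 := congrArg (IsLocalization.Away.lift (S := S') (s i) hφu) h
      rw [map_mul, hy, zero_mul, IsLocalization.Away.lift_eq] at h3
      exact h3.symm
    have h4 : Ψ (a * s i) = 0 := by
      rw [map_mul, hs]
      funext j
      by_cases hj : j = i
      · subst hj
        rw [Pi.mul_apply, ← hφdef, h2, zero_mul]
        rfl
      · rw [Pi.mul_apply, Pi.single_eq_of_ne hj, mul_zero]
        rfl
    have h5 : a * s i = 0 := hΨ (by rw [h4, map_zero])
    have h6 : algebraMap S S' a = 0 := by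
      have hu : IsUnit (algebraMap S S' (s i)) :=
        IsLocalization.map_units S' (⟨s i, Submonoid.mem_powers _⟩ : Submonoid.powers (s i))
      have h7 : algebraMap S S' a * algebraMap S S' (s i) = 0 := by
        rw [← map_mul, h5, map_zero]
      exact (hu.mul_left_eq_zero).mp h7
    rw [h6] at h
    exact (hm.mul_left_eq_zero).mp h
  exact hL.isDomain

end Alg

end Fermat.Agent.S26.H39
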