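import Fermat.Agent.S26.Defs
import Fermat.Agent.S26.H39_BrAlg
import Fermat.Agent.S26.H39_Nor

/-!
# S26, leaf BR (helper39)

`stmt_BR : Stmt_BR` : an abelian variety over an algebraically closed field (in the prelude's
sense: smooth, proper, connected fibres, with a group law) is an integral, locally noetherian
scheme.

* locally noetherian: locally of finite type over a field;
* locally a domain: a standard smooth chart is étale over a polynomial ring `P`, and an étale
  algebra over a normal domain is locally a domain (`exists_isDomain_away`);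
* irreducible: a connected space covered by irreducible opens is irreducible.
-/

set_option autoImplicit false

open CategoryTheory CategoryTheory.Limits AlgebraicGeometry NeronModelInfra GoodReductionJacobian

universe u

namespace Fermat.Agent.S26.H39

section Top

/-- A connected space in which every point has an irreducible open neighbourhood is
irreducible. -/
theorem irreducibleSpace_of_connected_of_cover {X : Type*} [TopologicalSpace X]
    [ConnectedSpace X]
    (h : ∀ x : X, ∃ U : Set X, IsOpen U ∧ x ∈ U ∧ IsIrreducible U) : IrreducibleSpace X := by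
  obtain ⟨x₀⟩ := (inferInstance : Nonempty X)
  obtain ⟨U₀, hU₀o, hx₀, hU₀⟩ := h x₀
  have hWirr : IsIrreducible (closure U₀) := hU₀.closure
  have hWopen : IsOpen (closure U₀) := by
    rw [isOpen_iff_mem_nhds]
    intro y hy
    obtain ⟨U, hUo, hyU, hU⟩ := h y
    have hsub : U ⊆ closure U₀ := by
      intro w hw
      by_contra hwn
      have h1 : (U ∩ U₀).Nonempty := by
        have h0 := mem_closure_iff.mp hy U hUo hyU
        exact h0
      have h2 : (U ∩ (closure U₀)ᶜ).Nonempty := ⟨w, hw, hwn⟩
      obtain ⟨v, -, hv1, hv2⟩ :=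
        hU.isPreirreducible U₀ (closure U₀)ᶜ hU₀o isClosed_closure.isOpen_compl h1 h2
      exact hv2 (subset_closure hv1)
    exact Filter.mem_of_superset (hUo.mem_nhds hyU) hsub
  have huniv : closure U₀ = Set.univ :=
    IsClopen.eq_univ ⟨isClosed_closure, hWopen⟩ ⟨x₀, subset_closure hx₀⟩
  rw [huniv] at hWirr
  exact (irreducibleSpace_def X).mpr hWirr

end Top

section Sections

variable {K : Type u} [Field K] {A : Scheme.{u}}

/-- On a scheme smooth over a field, every point has an affine open neighbourhood whose ring of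
sections is a domain. -/
theorem exists_isDomain_sections (f : A ⟶ Spec (CommRingCat.of K)) [Smooth f] (z : A) :
    ∃ (W : A.Opens) (_ : IsAffineOpen W), z ∈ W ∧ IsDomain Γ(A, W) := by
  obtain ⟨U, _, V, hV, hzV, e, hφ⟩ := Smooth.exists_isStandardSmooth f z
  obtain ⟨n, g, -, hget⟩ := hφ.exists_etale_mvPolynomial
  have hR₀ : IsField Γ(Spec (CommRingCat.of K), U) := isField_sections_spec K U (f z) (e hzV)
  haveI : IsDomain Γ(Spec (CommRingCat.of K), U) := hR₀.isDomain
  haveI : UniqueFactorizationMonoid Γ(Spec (CommRingCat.of K), U) := by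
    letI := hR₀.toField
    infer_instance
  letI := g.toAlgebra
  haveI : Algebra.Etale (MvPolynomial (Fin n) Γ(Spec (CommRingCat.of K), U)) Γ(A, V) := hget
  obtain ⟨t, ht, hdom⟩ := exists_isDomain_away
    (MvPolynomial (Fin n) Γ(Spec (CommRingCat.of K), U)) Γ(A, V)
    (hV.primeIdealOf ⟨z, hzV⟩).asIdeal
  refine ⟨A.basicOpen t, hV.basicOpen t, ?_, ?_⟩
  · have h1 : hV.primeIdealOf ⟨z, hzV⟩ ∈ hV.fromSpec ⁻¹ᵁ A.basicOpen t := by
      rw [hV.fromSpec_preimage_basicOpen]
      exact ht
    have h2 : hV.fromSpec (hV.primeIdealOf ⟨z, hzV⟩) ∈ A.basicOpen t := h1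
    rwa [hV.fromSpec_primeIdealOf] at h2
  · haveI := hV.isLocalization_basicOpen t
    exact hdom Γ(A, A.basicOpen t)

/-- A scheme smooth over a field is reduced. -/
theorem isReduced_of_smooth_field (f : A ⟶ Spec (CommRingCat.of K)) [Smooth f] : IsReduced A := by
  haveI : ∀ x : A, _root_.IsReduced (A.presheaf.stalk x) := by
    intro z
    obtain ⟨W, hW, hzW, hdom⟩ := exists_isDomain_sections f z
    letI : Algebra Γ(A, W) (A.presheaf.stalk z) :=
      TopCat.Presheaf.algebra_section_stalk A.presheaf ⟨z, hzW⟩
    haveI : IsLocalization.AtPrime (A.presheaf.stalk z) (hW.primeIdealOf ⟨z, hzW⟩).asIdeal :=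
      hW.isLocalization_stalk ⟨z, hzW⟩
    haveI : IsDomain (A.presheaf.stalk z) :=
      IsLocalization.isDomain_of_le_nonZeroDivisors (R := Γ(A, W)) (A.presheaf.stalk z)
        (Ideal.primeCompl_le_nonZeroDivisors (hW.primeIdealOf ⟨z, hzW⟩).asIdeal)
    infer_instance
  exact isReduced_of_isReduced_stalk A

/-- A connected scheme smooth over a field is irreducible. -/
theorem irreducibleSpace_of_smooth_field (f : A ⟶ Spec (CommRingCat.of K)) [Smooth f]
    [ConnectedSpace A] : IrreducibleSpace A := by
  apply irreducibleSpace_of_connected_of_cover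
  intro z
  obtain ⟨W, hW, hzW, hdom⟩ := exists_isDomain_sections f z
  refine ⟨W, W.isOpen, hzW, ?_⟩
  have h1 : IsIrreducible (Set.univ : Set (Spec Γ(A, W))) :=
    IrreducibleSpace.isIrreducible_univ _
  have h2 := h1.image hW.fromSpec hW.fromSpec.continuous.continuousOn
  rwa [Set.image_univ, hW.range_fromSpec] at h2

/-- A connected scheme smooth over a field is integral. -/
theorem isIntegral_of_smooth_field (f : A ⟶ Spec (CommRingCat.of K)) [Smooth f]
    [ConnectedSpace A] : IsIntegral A := by
  haveI := isReduced_of_smooth_field f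
  haveI := irreducibleSpace_of_smooth_field f
  exact isIntegral_of_irreducibleSpace_of_isReduced A

end Sections

section Stmt

/-- **BR**. -/
theorem stmt_BR : Stmt_BR.{u} := by
  intro K _ _ A f _L hA
  haveI : Smooth f := hA.smooth
  obtain ⟨s⟩ := (inferInstance : Nonempty (Spec (CommRingCat.of K)))
  have hconn := hA.connectedFibres s
  have huniv : (f.base ⁻¹' {s} : Set A) = Set.univ := by
    ext y
    simp only [Set.mem_preimage, Set.mem_singleton_iff, Set.mem_univ, iff_true]
    exact Subsingleton.elim _ _
  rw [huniv] at hconn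
  haveI : ConnectedSpace A := connectedSpace_iff_univ.mpr hconn
  exact ⟨isIntegral_of_smooth_field f, LocallyOfFiniteType.isLocallyNoetherian f⟩

end Stmt

end Fermat.Agent.S26.H39
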