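import Fermat.Agent.S26.Defs
import Fermat.Agent.S26.C.Defs
import Fermat.Agent.S26.C.PCore
import Fermat.Agent.S26.H39_Br
import Fermat.Agent.S26.H55_Ex
import Fermat.Agent.S26.H95_MFinal
import Fermat.Agent.S26.G.H21_GFinal
import Fermat.Agent.S26.H22_CellkOf
import Fermat.Agent.S26.H46_Asm
import Fermat.Agent.S26.LF.H9_Final
import Fermat.Agent.S26.C.H14_Pull
import Fermat.Agent.S26.C.H90_WeilFinal
import Fermat.Agent.S26.C.H22_WeilEt
import Fermat.Agent.S26.C.H55_LFD
import Fermat.Agent.S26.C.H95_CkAsm2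
import Fermat.Agent.S26.C.H42_CoreOfPCore

/-!
# S26: the final wiring, conditional on the single leaf still open (the cube side)

* `s26_of_CORE  : C.Stmt_CORE  → Stmt_S26`
* `s26_of_PCORE : C.Stmt_PCORE → Stmt_S26`

Everything else of the plan `NOTES/plan/S26.md` is plugged in here from the landed packages
(BR, EX, M, G, T, Cellk, ASMk, LF, LFD, PULL*, WEILINJ/WEILPR, WEILET, CKASM2, CORE_of_PCORE).
-/

set_option autoImplicit false
universe u

namespace Fermat.Agent.S26.H27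

/-- (C) in the torsion form from the core of the cube side. -/
theorem stmt_Ck_of_CORE (hCORE : C.Stmt_CORE.{u}) : Stmt_Ck.{u} :=
  C.H95.stmt_CKASM2 C.H14.stmt_PULLC C.H14.stmt_PULLMUL C.H90.stmt_WEILINJ C.H90.stmt_WEILPR
    C.H22.stmt_WEILET (C.H55.stmt_LFD_of LF.H9.stmt_LF) hCORE

/-- the statement S26 from `CORE`. -/
theorem s26_of_CORE (hCORE : C.Stmt_CORE.{u}) : Stmt_S26.{u} :=
  H46.stmt_ASMk H39.stmt_BR H55.stmt_EX H95.stmt_M G.H21.stmt_G G.H21.stmt_T
    (H22.stmt_Cellk_of (stmt_Ck_of_CORE hCORE))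

/-- `CORE` from its place form. -/
theorem stmt_CORE_of_PCORE (hP : C.Stmt_PCORE.{u}) : C.Stmt_CORE.{u} :=
  C.H42c.stmt_CORE_of_PCORE C.H14.stmt_PULLC C.H90.stmt_WEILPR hP

/-- the statement S26 from the place form `PCORE` of the cube side. -/
theorem s26_of_PCORE (hP : C.Stmt_PCORE.{u}) : Stmt_S26.{u} :=
  s26_of_CORE (stmt_CORE_of_PCORE hP)

end Fermat.Agent.S26.H27
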