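import Mathlib

/-!
# S26, crux (C), abstract core of the pull-back step (helper30)

On `A × A` the integer linear forms `L = (a, b)`, `L (z₁, z₂) = a z₁ + b z₂ : A × A → A`, which are
*primitive modulo* `p = char K` (not both coefficients divisible by `p`) are smooth surjective
morphisms, so the divisor `Q L := L^* D` is defined without any inseparable isogeny.  The
parallelogram function `Φ` (`div Φ = μ^* D + δ^* D - 2 p₁^* D - 2 p₂^* D`) pulled back along
`(x, y)` gives `Q (x + y) + Q (x - y) ∼ 2 Q x + 2 Q y` as soon as `x, y, x + y, x - y` are primitive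
or zero.  This file proves the purely combinatorial consequence:

* `quad_of_parallelogram` : `Q (a, b) = a² Q (1, 0) + b² Q (0, 1) + a b B` for every form `(a, b)`
  which is zero or primitive modulo `p`, where `B = Q (1, 1) - Q (1, 0) - Q (0, 1)`;
* `quad_fst` : in particular `Q (n, 0) = n² Q (1, 0)` for `n` prime to `p`
  (`[n]^* D ∼ n² D` after restriction to a fibre `A × {y₀}`).

The induction never leaves the primitive forms: this is what makes characteristic `2` and `3`
work (on `A` itself every instance of the parallelogram law meets a multiple of `p`).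
`p = 0` (characteristic zero) is allowed: then every nonzero form is primitive.
-/

set_option autoImplicit false

namespace Fermat.Agent.S26.H30

/-- The form `L = (a, b)` is *good* modulo `p`: zero, or not divisible by `p`. -/
def GoodForm (p : ℕ) (L : ℤ × ℤ) : Prop :=
  L = 0 ∨ ¬ ((p : ℤ) ∣ L.1 ∧ (p : ℤ) ∣ L.2)

variable {G : Type*} [AddCommGroup G]

/-- The expected value `a² Q (1, 0) + b² Q (0, 1) + a b B`. -/
def expected (Q : ℤ × ℤ → G) (L : ℤ × ℤ) : G :=
  (L.1 ^ 2) • Q (1, 0) + (L.2 ^ 2) • Q (0, 1) + (L.1 * L.2) • (Q (1, 1) - Q (1, 0) - Q (0, 1))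

theorem goodForm_of_not_dvd_fst {p : ℕ} {L : ℤ × ℤ} (h : ¬ (p : ℤ) ∣ L.1) : GoodForm p L :=
  Or.inr fun h' => h h'.1

theorem goodForm_of_not_dvd_snd {p : ℕ} {L : ℤ × ℤ} (h : ¬ (p : ℤ) ∣ L.2) : GoodForm p L :=
  Or.inr fun h' => h h'.2

theorem goodForm_zero (p : ℕ) : GoodForm p 0 := Or.inl rfl

theorem not_dvd_one {p : ℕ} (hp : p ≠ 1) : ¬ (p : ℤ) ∣ 1 := by
  intro h
  have h1 : (p : ℤ) ∣ ((1 : ℕ) : ℤ) := by simpa using h
  exact hp (Nat.dvd_one.1 (Int.natCast_dvd_natCast.1 h1))

theorem not_dvd_neg_one {p : ℕ} (hp : p ≠ 1) : ¬ (p : ℤ) ∣ -1 := by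
  intro h
  exact not_dvd_one hp ((dvd_neg).1 h)

/-- The expected value satisfies the parallelogram law identically. -/
theorem expected_parallelogram (Q : ℤ × ℤ → G) (x y : ℤ × ℤ) :
    expected Q (x + y) + expected Q (x - y) = 2 • expected Q x + 2 • expected Q y := by
  simp only [expected, Prod.fst_add, Prod.snd_add, Prod.fst_sub, Prod.snd_sub]
  module

section

variable (p : ℕ) (Q : ℤ × ℤ → G) (h0 : Q 0 = 0) (hneg : ∀ L : ℤ × ℤ, Q (-L) = Q L)
  (hpar : ∀ x y : ℤ × ℤ, x ≠ 0 → y ≠ 0 → GoodForm p x → GoodForm p y → GoodForm p (x + y) →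
    GoodForm p (x - y) → Q (x + y) + Q (x - y) = 2 • Q x + 2 • Q y)

include hpar in
/-- One step: from `y`, `L - y`, `L - 2 y` to `L`. -/
theorem step (L y : ℤ × ℤ) (hy0 : y ≠ 0) (hLy0 : L - y ≠ 0) (hL : GoodForm p L)
    (hy : GoodForm p y) (hLy : GoodForm p (L - y)) (hL2y : GoodForm p (L - y - y))
    (ey : Q y = expected Q y) (eLy : Q (L - y) = expected Q (L - y))
    (eL2y : Q (L - y - y) = expected Q (L - y - y)) : Q L = expected Q L := by
  have h1 := hpar (L - y) y hLy0 hy0 hLy hy (by rwa [sub_add_cancel]) hL2y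
  have h2 := expected_parallelogram Q (L - y) y
  rw [sub_add_cancel] at h1 h2
  rw [eLy, ey, eL2y] at h1
  have h3 : Q L + expected Q (L - y - y) = expected Q L + expected Q (L - y - y) := by
    rw [h1, h2]
  exact add_right_cancel h3

include h0 hneg hpar in
/-- The base cases `|a|, |b| ≤ 1`. -/
theorem base (hp : p ≠ 1) (a b : ℤ) (ha : -1 ≤ a) (ha' : a ≤ 1) (hb : -1 ≤ b) (hb' : b ≤ 1) :
    Q (a, b) = expected Q (a, b) := by
  have g10 : GoodForm p (1, 0) := goodForm_of_not_dvd_fst (not_dvd_one hp)
  have g01 : GoodForm p (0, 1) := goodForm_of_not_dvd_snd (not_dvd_one hp)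
  have g11 : GoodForm p (1, 1) := goodForm_of_not_dvd_fst (not_dvd_one hp)
  have g1m : GoodForm p (1, -1) := goodForm_of_not_dvd_fst (not_dvd_one hp)
  have e10 : Q (1, 0) = expected Q (1, 0) := by
    simp only [expected]
    module
  have e01 : Q (0, 1) = expected Q (0, 1) := by
    simp only [expected]
    module
  have e11 : Q (1, 1) = expected Q (1, 1) := by
    simp only [expected]
    module
  have e1m : Q (1, -1) = expected Q (1, -1) := by
    have h := hpar (1, 0) (0, 1) (by simp) (by simp) g10 g01
      (by simpa using g11) (by simpa using g1m)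
    have h' : Q (1, 1) + Q (1, -1) = 2 • Q (1, 0) + 2 • Q (0, 1) := by simpa using h
    have h'' : Q (1, -1) = 2 • Q (1, 0) + 2 • Q (0, 1) - Q (1, 1) := by
      rw [← h']
      abel
    rw [h'']
    simp only [expected]
    module
  have neg_eq : ∀ c d : ℤ, Q (c, d) = expected Q (c, d) → Q (-c, -d) = expected Q (-c, -d) := by
    intro c d h
    have h1 : Q (-c, -d) = Q (c, d) := by
      have := hneg (c, d)
      simpa using this
    rw [h1, h]
    simp only [expected]
    module
  have hcases : (a = -1 ∨ a = 0 ∨ a = 1) ∧ (b = -1 ∨ b = 0 ∨ b = 1) := by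
    constructor <;> omega
  obtain ⟨ha | ha | ha, hb | hb | hb⟩ := hcases <;> subst ha <;> subst hb
  · exact neg_eq 1 1 e11
  · have := neg_eq 1 0 e10
    simpa using this
  · have := neg_eq 1 (-1) e1m
    simpa using this
  · have := neg_eq 0 1 e01
    simpa using this
  · have : ((0 : ℤ), (0 : ℤ)) = (0 : ℤ × ℤ) := rfl
    rw [this, h0]
    simp [expected]
  · exact e01
  · exact e1m
  · exact e10
  · exact e11

include h0 hneg hpar in
/-- Strong induction on `a² + b²`. -/
theorem quad_aux (hp : p ≠ 1) : ∀ n : ℕ, ∀ a b : ℤ, a ^ 2 + b ^ 2 < (n : ℤ) → GoodForm p (a, b) →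
    Q (a, b) = expected Q (a, b) := by
  intro n
  induction n with
  | zero =>
    intro a b h _
    exfalso
    have : (0 : ℤ) ≤ a ^ 2 + b ^ 2 := by positivity
    simp at h
    omega
  | succ n ih =>
    intro a b hlt hL
    have hlt' : a ^ 2 + b ^ 2 ≤ (n : ℤ) := by
      push_cast at hlt
      omega
    -- the inductive hypothesis in the form used below
    have IH : ∀ c d : ℤ, c ^ 2 + d ^ 2 < a ^ 2 + b ^ 2 → GoodForm p (c, d) →
        Q (c, d) = expected Q (c, d) := fun c d h hg => ih c d (lt_of_lt_of_le h hlt') hg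
    have B := base p Q h0 hneg hpar hp
    have hd1 := not_dvd_one hp
    have hdm1 := not_dvd_neg_one hp
    by_cases hsmall : (-1 ≤ a ∧ a ≤ 1) ∧ (-1 ≤ b ∧ b ≤ 1)
    · exact B a b hsmall.1.1 hsmall.1.2 hsmall.2.1 hsmall.2.2
    -- `L ≠ 0`, so not both coefficients are divisible by `p`
    have hL' : ¬ ((p : ℤ) ∣ a ∧ (p : ℤ) ∣ b) := by
      rcases hL with h | h
      · exfalso
        apply hsmall
        have h1 : a = 0 := congrArg Prod.fst h
        have h2 : b = 0 := congrArg Prod.snd h
        subst h1; subst h2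
        simp
      · exact h
    -- the generic step with `y = (c, d)`
    have STEP : ∀ c d : ℤ, (-1 ≤ c ∧ c ≤ 1) → (-1 ≤ d ∧ d ≤ 1) → (c, d) ≠ (0 : ℤ × ℤ) →
        (a - c, b - d) ≠ (0 : ℤ × ℤ) → GoodForm p (c, d) → GoodForm p (a - c, b - d) →
        GoodForm p (a - c - c, b - d - d) →
        (a - c) ^ 2 + (b - d) ^ 2 < a ^ 2 + b ^ 2 →
        (a - c - c) ^ 2 + (b - d - d) ^ 2 < a ^ 2 + b ^ 2 → Q (a, b) = expected Q (a, b) := by
      intro c d hc hd hy0 hx0 gy gx gz m1 m2
      exact step p Q hpar (a, b) (c, d) hy0 hx0 hL gy gx gz (B c d hc.1 hc.2 hd.1 hd.2)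
        (IH _ _ m1 gx) (IH _ _ m2 gz)
    by_cases hA : ¬ (p : ℤ) ∣ b ∧ (a ≤ -2 ∨ 2 ≤ a)
    · -- `y = (± 1, 0)`
      obtain ⟨hb, ha | ha⟩ := hA
      · refine STEP (-1) 0 (by norm_num) (by norm_num) (by simp) ?_ ?_ ?_ ?_ ?_ ?_
        · intro h
          have := congrArg Prod.fst h
          simp at this
          omega
        · exact goodForm_of_not_dvd_fst hdm1
        · exact goodForm_of_not_dvd_snd (by simpa using hb)
        · exact goodForm_of_not_dvd_snd (by simpa using hb)
        · nlinarith
        · nlinarith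
      · refine STEP 1 0 (by norm_num) (by norm_num) (by simp) ?_ ?_ ?_ ?_ ?_ ?_
        · intro h
          have := congrArg Prod.fst h
          simp at this
          omega
        · exact goodForm_of_not_dvd_fst hd1
        · exact goodForm_of_not_dvd_snd (by simpa using hb)
        · exact goodForm_of_not_dvd_snd (by simpa using hb)
        · nlinarith
        · nlinarith
    by_cases hB : ¬ (p : ℤ) ∣ a ∧ (b ≤ -2 ∨ 2 ≤ b)
    · -- `y = (0, ± 1)`
      obtain ⟨ha, hb | hb⟩ := hB
      · refine STEP 0 (-1) (by norm_num) (by norm_num) (by simp) ?_ ?_ ?_ ?_ ?_ ?_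
        · intro h
          have := congrArg Prod.snd h
          simp at this
          omega
        · exact goodForm_of_not_dvd_snd hdm1
        · exact goodForm_of_not_dvd_fst (by simpa using ha)
        · exact goodForm_of_not_dvd_fst (by simpa using ha)
        · nlinarith
        · nlinarith
      · refine STEP 0 1 (by norm_num) (by norm_num) (by simp) ?_ ?_ ?_ ?_ ?_ ?_
        · intro h
          have := congrArg Prod.snd h
          simp at this
          omega
        · exact goodForm_of_not_dvd_snd hd1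
        · exact goodForm_of_not_dvd_fst (by simpa using ha)
        · exact goodForm_of_not_dvd_fst (by simpa using ha)
        · nlinarith
        · nlinarith
    -- the remaining cases: one coefficient is `0`, the other one is prime to `p`
    have small_dvd : ∀ c : ℤ, -1 ≤ c → c ≤ 1 → (p : ℤ) ∣ c → c = 0 := by
      intro c h1 h2 h3
      rcases (by omega : c = -1 ∨ c = 0 ∨ c = 1) with h | h | h
      · subst h
        exact absurd h3 hdm1
      · exact h
      · subst h
        exact absurd h3 hd1
    by_cases ha2 : a ≤ -2 ∨ 2 ≤ a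
    · -- then `p ∣ b`, `p ∤ a`, `b = 0`
      have hpb : (p : ℤ) ∣ b := by
        by_contra h
        exact hA ⟨h, ha2⟩
      have hpa : ¬ (p : ℤ) ∣ a := fun h => hL' ⟨h, hpb⟩
      have hb1 : -1 ≤ b ∧ b ≤ 1 := by
        by_contra h
        exact hB ⟨hpa, by omega⟩
      have hb0 : b = 0 := small_dvd b hb1.1 hb1.2 hpb
      subst hb0
      have hp2 : ¬ ((p : ℤ) ∣ a - 1 - 1 ∧ (p : ℤ) ∣ (0 : ℤ) - 1 - 1) := by
        rintro ⟨h1, h2⟩
        apply hpa
        have h3 : (p : ℤ) ∣ (a - 1 - 1) - ((0 : ℤ) - 1 - 1) := dvd_sub h1 h2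
        have h4 : (a - 1 - 1) - ((0 : ℤ) - 1 - 1) = a := by ring
        rwa [h4] at h3
      have hp2' : ¬ ((p : ℤ) ∣ a - -1 - -1 ∧ (p : ℤ) ∣ (0 : ℤ) - 1 - 1) := by
        rintro ⟨h1, h2⟩
        apply hpa
        have h3 : (p : ℤ) ∣ (a - -1 - -1) + ((0 : ℤ) - 1 - 1) := dvd_add h1 h2
        have h4 : (a - -1 - -1) + ((0 : ℤ) - 1 - 1) = a := by ring
        rwa [h4] at h3
      rcases ha2 with ha | ha
      · by_cases ha3 : a = -2
        · subst ha3
          refine STEP (-1) 0 (by norm_num) (by norm_num) (by simp) (by simp) ?_ ?_ ?_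
            (by norm_num) (by norm_num)
          · exact goodForm_of_not_dvd_fst hdm1
          · exact goodForm_of_not_dvd_fst (by simpa using hdm1)
          · left
            simp
        · refine STEP (-1) 1 (by norm_num) (by norm_num) (by simp) ?_ ?_ ?_ ?_ ?_ ?_
          · intro h
            have := congrArg Prod.snd h
            simp at this
          · exact goodForm_of_not_dvd_snd hd1
          · exact goodForm_of_not_dvd_snd (by simpa using hdm1)
          · exact Or.inr hp2'
          · nlinarith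
          · have : a ≤ -3 := by omega
            nlinarith
      · by_cases ha3 : a = 2
        · subst ha3
          refine STEP 1 0 (by norm_num) (by norm_num) (by simp) (by simp) ?_ ?_ ?_
            (by norm_num) (by norm_num)
          · exact goodForm_of_not_dvd_fst hd1
          · exact goodForm_of_not_dvd_fst (by simpa using hd1)
          · left
            simp
        · refine STEP 1 1 (by norm_num) (by norm_num) (by simp) ?_ ?_ ?_ ?_ ?_ ?_
          · intro h
            have := congrArg Prod.snd h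
            simp at this
          · exact goodForm_of_not_dvd_snd hd1
          · exact goodForm_of_not_dvd_snd (by simpa using hdm1)
          · exact Or.inr hp2
          · nlinarith
          · have : 3 ≤ a := by omega
            nlinarith
    · -- `|a| ≤ 1`, so `2 ≤ |b|`; then `p ∣ a`, `a = 0`, `p ∤ b`
      have ha1 : -1 ≤ a ∧ a ≤ 1 := by omega
      have hb2 : b ≤ -2 ∨ 2 ≤ b := by
        by_contra h
        exact hsmall ⟨ha1, by omega⟩
      have hpa : (p : ℤ) ∣ a := by
        by_contra h
        exact hB ⟨h, hb2⟩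
      have hpb : ¬ (p : ℤ) ∣ b := fun h => hL' ⟨hpa, h⟩
      have ha0 : a = 0 := small_dvd a ha1.1 ha1.2 hpa
      subst ha0
      have hp2 : ¬ ((p : ℤ) ∣ (0 : ℤ) - 1 - 1 ∧ (p : ℤ) ∣ b - 1 - 1) := by
        rintro ⟨h1, h2⟩
        apply hpb
        have h3 : (p : ℤ) ∣ (b - 1 - 1) - ((0 : ℤ) - 1 - 1) := dvd_sub h2 h1
        have h4 : (b - 1 - 1) - ((0 : ℤ) - 1 - 1) = b := by ring
        rwa [h4] at h3
      have hp2' : ¬ ((p : ℤ) ∣ (0 : ℤ) - 1 - 1 ∧ (p : ℤ) ∣ b - -1 - -1) := by
        rintro ⟨h1, h2⟩
        apply hpb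
        have h3 : (p : ℤ) ∣ (b - -1 - -1) + ((0 : ℤ) - 1 - 1) := dvd_add h2 h1
        have h4 : (b - -1 - -1) + ((0 : ℤ) - 1 - 1) = b := by ring
        rwa [h4] at h3
      rcases hb2 with hb | hb
      · by_cases hb3 : b = -2
        · subst hb3
          refine STEP 0 (-1) (by norm_num) (by norm_num) (by simp) (by simp) ?_ ?_ ?_
            (by norm_num) (by norm_num)
          · exact goodForm_of_not_dvd_snd hdm1
          · exact goodForm_of_not_dvd_snd (by simpa using hdm1)
          · left
            simp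
        · refine STEP 1 (-1) (by norm_num) (by norm_num) (by simp) ?_ ?_ ?_ ?_ ?_ ?_
          · intro h
            have := congrArg Prod.fst h
            simp at this
          · exact goodForm_of_not_dvd_fst hd1
          · exact goodForm_of_not_dvd_fst (by simpa using hdm1)
          · exact Or.inr hp2'
          · nlinarith
          · have : b ≤ -3 := by omega
            nlinarith
      · by_cases hb3 : b = 2
        · subst hb3
          refine STEP 0 1 (by norm_num) (by norm_num) (by simp) (by simp) ?_ ?_ ?_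
            (by norm_num) (by norm_num)
          · exact goodForm_of_not_dvd_snd hd1
          · exact goodForm_of_not_dvd_snd (by simpa using hd1)
          · left
            simp
        · refine STEP 1 1 (by norm_num) (by norm_num) (by simp) ?_ ?_ ?_ ?_ ?_ ?_
          · intro h
            have := congrArg Prod.fst h
            simp at this
          · exact goodForm_of_not_dvd_fst hd1
          · exact goodForm_of_not_dvd_fst (by simpa using hdm1)
          · exact Or.inr hp2
          · nlinarith
          · have : 3 ≤ b := by omega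
            nlinarith

include h0 hneg hpar in
/-- **The quadratic formula on the good forms.**  `p` is the characteristic (`0` or a prime; any
`p` is allowed). -/
theorem quad_of_parallelogram (L : ℤ × ℤ) (hL : GoodForm p L) : Q L = expected Q L := by
  by_cases hp : p = 1
  · -- then only `0` is good
    subst hp
    rcases hL with h | h
    · subst h
      rw [h0]
      simp [expected]
    · exact absurd ⟨by simp, by simp⟩ h
  · obtain ⟨a, b⟩ := L
    exact quad_aux p Q h0 hneg hpar hp (a ^ 2 + b ^ 2 + 1).toNat a b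
      (by
        have : (0 : ℤ) ≤ a ^ 2 + b ^ 2 + 1 := by positivity
        rw [Int.toNat_of_nonneg this]
        omega) hL

include h0 hneg hpar in
/-- **`[n]^* D ∼ n² D`** in the abstract form: `Q (n, 0) = n² Q (1, 0)` for `n` prime to `p`. -/
theorem quad_fst (n : ℤ) (hn : ¬ (p : ℤ) ∣ n) : Q (n, 0) = (n ^ 2) • Q (1, 0) := by
  have h := quad_of_parallelogram p Q h0 hneg hpar (n, 0) (goodForm_of_not_dvd_fst hn)
  rw [h]
  simp [expected]

end

end Fermat.Agent.S26.H30
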